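import Fermat.Agent.LT.H129.LocalDecomp

/-!
# Row LT, tower T1 (local algebra), helper129: Cartan decomposition of `GL₂` over a valued field

OFF-MAIN.  Mathlib only.  `cartan129 : GL₂(F) = GL₂(O) · {diag(x, y) : y / x ∈ O} · GL₂(O)` for a
valuation subring `O` of a field `F` (elementary divisors; no discreteness needed).
-/

set_option autoImplicit false

open Matrix

namespace Fermat.Agent.LT.H129

variable {F : Type*} [Field F]

/-- The diagonal matrix `diag(x, y)` in `GL₂(F)`. -/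
noncomputable def diag129 (x y : F) (hx : x ≠ 0) (hy : y ≠ 0) : GL (Fin 2) F :=
  mkGL129 x 0 0 y (by simpa using mul_ne_zero hx hy)

/-- Core of the Cartan decomposition: the `(0,0)` entry divides all entries. -/
theorem cartan_core129 (O : ValuationSubring F) (g : GL (Fin 2) F)
    (hm : (g : Matrix (Fin 2) (Fin 2) F) 0 0 ≠ 0)
    (h01 : (g : Matrix (Fin 2) (Fin 2) F) 0 1 / (g : Matrix (Fin 2) (Fin 2) F) 0 0 ∈ O)
    (h10 : (g : Matrix (Fin 2) (Fin 2) F) 1 0 / (g : Matrix (Fin 2) (Fin 2) F) 0 0 ∈ O)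
    (h11 : (g : Matrix (Fin 2) (Fin 2) F) 1 1 / (g : Matrix (Fin 2) (Fin 2) F) 0 0 ∈ O) :
    ∃ (k₁ k₂ : GL (Fin 2) F) (x y : F) (hx : x ≠ 0) (hy : y ≠ 0),
      IsMaxCpt129 O k₁ ∧ IsMaxCpt129 O k₂ ∧ y / x ∈ O ∧ g = k₁ * diag129 x y hx hy * k₂ := by
  set a : F := (g : Matrix (Fin 2) (Fin 2) F) 0 0 with ha
  set b : F := (g : Matrix (Fin 2) (Fin 2) F) 0 1 with hb
  set c : F := (g : Matrix (Fin 2) (Fin 2) F) 1 0 with hc
  set d : F := (g : Matrix (Fin 2) (Fin 2) F) 1 1 with hd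
  have hdet : a * d - b * c ≠ 0 := det_ne_zero129 g
  have hy : d - c * b / a ≠ 0 := by
    intro h
    apply hdet
    have : a * d - b * c = a * (d - c * b / a) := by field_simp
    rw [this, h, mul_zero]
  refine ⟨lowerU129 (c / a), upperU129 (b / a), a, d - c * b / a, hm, hy,
    isMaxCpt129_lowerU h10, isMaxCpt129_upperU h01, ?_, ?_⟩
  · have : (d - c * b / a) / a = d / a - (c / a) * (b / a) := by field_simp
    rw [this]
    exact sub_mem h11 (O.mul_mem _ _ h10 h01)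
  · apply ext_mat129
    rw [eta129 g]
    simp only [upperU129, lowerU129, diag129, Matrix.GeneralLinearGroup.coe_mul, coe_mkGL129]
    rw [← ha, ← hb, ← hc, ← hd]
    ext i j
    fin_cases i <;> fin_cases j <;> simp [Matrix.mul_apply, Fin.sum_univ_two]
    all_goals field_simp
    all_goals ring

theorem weyl129_mul_self : (weyl129 : GL (Fin 2) F) * weyl129 = 1 := by
  rw [← inv_eq_iff_mul_eq_one]; exact weyl129_inv

theorem coe_mul_weyl129 (g : GL (Fin 2) F) :
    ((g * weyl129 : GL (Fin 2) F) : Matrix (Fin 2) (Fin 2) F)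
      = !![g 0 1, g 0 0; g 1 1, g 1 0] := by
  rw [Matrix.GeneralLinearGroup.coe_mul]
  conv_lhs => rw [eta129 g]
  simp only [weyl129, coe_mkGL129]
  ext i j
  fin_cases i <;> fin_cases j <;> simp [Matrix.mul_apply, Fin.sum_univ_two]

theorem coe_weyl129_mul (g : GL (Fin 2) F) :
    ((weyl129 * g : GL (Fin 2) F) : Matrix (Fin 2) (Fin 2) F)
      = !![g 1 0, g 1 1; g 0 0, g 0 1] := by
  rw [Matrix.GeneralLinearGroup.coe_mul]
  conv_lhs => rw [eta129 g]
  simp only [weyl129, coe_mkGL129]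
  ext i j
  fin_cases i <;> fin_cases j <;> simp [Matrix.mul_apply, Fin.sum_univ_two]

/-- Transport of a Cartan decomposition along left and right multiplication by `GL₂(O)`. -/
theorem cartan_transport129 (O : ValuationSubring F) (g u v : GL (Fin 2) F)
    (hu : IsMaxCpt129 O u) (hv : IsMaxCpt129 O v)
    (H : ∃ (k₁ k₂ : GL (Fin 2) F) (x y : F) (hx : x ≠ 0) (hy : y ≠ 0),
      IsMaxCpt129 O k₁ ∧ IsMaxCpt129 O k₂ ∧ y / x ∈ O ∧ u * g * v = k₁ * diag129 x y hx hy * k₂) :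
    ∃ (k₁ k₂ : GL (Fin 2) F) (x y : F) (hx : x ≠ 0) (hy : y ≠ 0),
      IsMaxCpt129 O k₁ ∧ IsMaxCpt129 O k₂ ∧ y / x ∈ O ∧ g = k₁ * diag129 x y hx hy * k₂ := by
  obtain ⟨k₁, k₂, x, y, hx, hy, h1, h2, hxy, h⟩ := H
  refine ⟨u⁻¹ * k₁, k₂ * v⁻¹, x, y, hx, hy, isMaxCpt129_mul (isMaxCpt129_inv hu) h1,
    isMaxCpt129_mul h2 (isMaxCpt129_inv hv), hxy, ?_⟩
  have : g = u⁻¹ * (u * g * v) * v⁻¹ := by group
  rw [this, h]
  group

/-- **Cartan decomposition** `GL₂(F) = GL₂(O) · {diag(x, y) : y / x ∈ O} · GL₂(O)`. -/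
theorem cartan129 (O : ValuationSubring F) (g : GL (Fin 2) F) :
    ∃ (k₁ k₂ : GL (Fin 2) F) (x y : F) (hx : x ≠ 0) (hy : y ≠ 0),
      IsMaxCpt129 O k₁ ∧ IsMaxCpt129 O k₂ ∧ y / x ∈ O ∧ g = k₁ * diag129 x y hx hy * k₂ := by
  classical
  -- an entry of maximal valuation
  obtain ⟨⟨i₀, j₀⟩, -, hmax⟩ := Finset.exists_max_image (Finset.univ : Finset (Fin 2 × Fin 2))
    (fun p => O.valuation ((g : Matrix (Fin 2) (Fin 2) F) p.1 p.2)) ⟨(0, 0), Finset.mem_univ _⟩
  have hmax' : ∀ i j, O.valuation ((g : Matrix (Fin 2) (Fin 2) F) i j)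
      ≤ O.valuation ((g : Matrix (Fin 2) (Fin 2) F) i₀ j₀) :=
    fun i j => hmax (i, j) (Finset.mem_univ _)
  have hm : (g : Matrix (Fin 2) (Fin 2) F) i₀ j₀ ≠ 0 := by
    intro h0
    have hz : ∀ i j, (g : Matrix (Fin 2) (Fin 2) F) i j = 0 := by
      intro i j
      have := hmax' i j
      rw [h0, map_zero, le_zero_iff, map_eq_zero] at this
      exact this
    exact det_ne_zero129 g (by rw [hz 0 0, hz 0 1]; simp)
  have hdiv : ∀ i j, (g : Matrix (Fin 2) (Fin 2) F) i j / (g : Matrix (Fin 2) (Fin 2) F) i₀ j₀ ∈ O := by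
    intro i j
    rw [← ValuationSubring.valuation_le_one_iff, map_div₀]
    exact div_le_one_of_le₀ (hmax' i j) zero_le
  -- move the entry to position `(0,0)`
  fin_cases i₀ <;> fin_cases j₀
  · exact cartan_core129 O g hm (hdiv 0 1) (hdiv 1 0) (hdiv 1 1)
  · refine cartan_transport129 O g 1 weyl129 (isMaxCpt129_one O) (isMaxCpt129_weyl O) ?_
    rw [one_mul]
    apply cartan_core129 O (g * weyl129)
    all_goals rw [coe_mul_weyl129]
    · simpa using hm
    · simpa using hdiv 0 0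
    · simpa using hdiv 1 1
    · simpa using hdiv 1 0
  · refine cartan_transport129 O g weyl129 1 (isMaxCpt129_weyl O) (isMaxCpt129_one O) ?_
    rw [mul_one]
    apply cartan_core129 O (weyl129 * g)
    all_goals rw [coe_weyl129_mul]
    · simpa using hm
    · simpa using hdiv 1 1
    · simpa using hdiv 0 0
    · simpa using hdiv 0 1
  · refine cartan_transport129 O g weyl129 weyl129 (isMaxCpt129_weyl O) (isMaxCpt129_weyl O) ?_
    apply cartan_core129 O (weyl129 * g * weyl129)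
    all_goals rw [coe_mul_weyl129, coe_weyl129_mul]
    · simpa using hm
    · simpa using hdiv 1 0
    · simpa using hdiv 0 1
    · simpa using hdiv 0 0

end Fermat.Agent.LT.H129
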