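import Fermat.Agent.LT.H129.HeckeExists

/-!
# Row LT, helper129: `A0.IsHeckeEigenAt` can be checked on ONE coset system (A0 vocabulary)

OFF-MAIN.  On `LT/H556/A0.lean` (helper556, byte-identical copy).  General number field `K`.

* `dense_ideal129` : for `v ∤ 𝔫` every element of `𝒪_v` lies in `A0.idealClosure 𝔫 v`;
* `inLevelGroup_of_localMaxCpt129` : an element supported at `v ∤ 𝔫` and lying in `GL₂(𝒪_v)`
  belongs to the level group `U(𝔫)`;
* `heckeSum_indep_level129` : for a right `U(𝔫)`-invariant `φ` and `v ∤ 𝔫` the Hecke sum does not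
  depend on the coset system;
* `isHeckeEigenAt_of_one129` : `A0.IsHeckeEigenAt φ v a b` follows from the eigen-equations for ONE
  coset system and ONE scalar uniformiser.
-/

set_option autoImplicit false

open IsDedekindDomain NumberField IsDedekindDomain.HeightOneSpectrum
open Fermat.Agent.LT.H556.A0

noncomputable section

namespace Fermat.Agent.LT.H129

variable {K : Type} [Field K] [NumberField K]

/-- `𝓞 K` is dense in `𝒪_v`: every neighbourhood of an element of `𝒪_v` contains a global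
integer. -/
theorem exists_int_mem_nhds129 (v : HeightOneSpectrum (𝓞 K)) {x : v.adicCompletion K}
    (hx : Valued.v x ≤ 1) {t : Set (v.adicCompletion K)} (ht : t ∈ nhds x) :
    ∃ a : 𝓞 K, ((algebraMap (𝓞 K) K a : K) : v.adicCompletion K) ∈ t := by
  -- the unit ball around `x`
  have hB : {z : v.adicCompletion K | Valued.v (z - x) < 1} ∈ nhds x := by
    rw [Valued.mem_nhds]
    refine ⟨1, fun w hw => ?_⟩
    simpa using hw
  have hint : interior t ∩ {z : v.adicCompletion K | Valued.v (z - x) < 1} ∈ nhds x :=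
    Filter.inter_mem (interior_mem_nhds.mpr ht) hB
  have hx' : x ∈ closure (Set.range (algebraMap K (v.adicCompletion K))) := by
    rw [(denseRange_algebraMap (K := K) v).closure_range]; exact Set.mem_univ x
  obtain ⟨_, ⟨hkt, hkB⟩, ⟨k, rfl⟩⟩ := mem_closure_iff_nhds.mp hx' _ hint
  have hk' : Valued.v (algebraMap K (v.adicCompletion K) k - x) < 1 := hkB
  have hk1 : v.valuation K k ≤ 1 := by
    rw [← valuedAdicCompletion_eq_valuation']
    have : ((k : K) : v.adicCompletion K) = (algebraMap K (v.adicCompletion K) k - x) + x := by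
      have h1 : ((k : K) : v.adicCompletion K) = algebraMap K (v.adicCompletion K) k := rfl
      rw [h1]; ring
    rw [this]
    exact le_trans (Valuation.map_add _ _ _) (max_le hk'.le hx)
  -- a ball around `k` inside `interior t`
  have htk : interior t ∈ nhds (algebraMap K (v.adicCompletion K) k) :=
    isOpen_interior.mem_nhds hkt
  rw [Valued.mem_nhds] at htk
  obtain ⟨γ, hγ⟩ := htk
  have hγ0 : MonoidWithZeroHom.ValueGroup₀.embedding γ.1 ≠ 0 := by
    intro h
    have h1 := (MonoidWithZeroHom.ValueGroup₀.embedding_strictMono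
      (f := MonoidWithZeroHom.ofClass (Valued.v : Valuation (v.adicCompletion K) _))).injective
      (h.trans (map_zero _).symm)
    exact γ.ne_zero h1
  obtain ⟨a, ha⟩ := exists_valuation_sub_lt_of_integer v hk1 (Units.mk0 _ hγ0)
  refine ⟨a, interior_subset (hγ ?_)⟩
  show (Valued.v : Valuation (v.adicCompletion K) _).restrict
    (((algebraMap (𝓞 K) K a : K) : v.adicCompletion K) - algebraMap K (v.adicCompletion K) k)
      < γ.1
  rw [Valuation.restrict_lt_iff_lt_embedding]
  have e : ((algebraMap (𝓞 K) K a : K) : v.adicCompletion K)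
      - algebraMap K (v.adicCompletion K) k
      = ((algebraMap (𝓞 K) K a - k : K) : v.adicCompletion K) :=
    (map_sub (algebraMap K (v.adicCompletion K)) _ _).symm
  rw [e, valuedAdicCompletion_eq_valuation']
  simpa using ha

/-- For `v ∤ 𝔫` the ideal `𝔫` is dense in `𝒪_v`. -/
theorem dense_ideal129 {𝔫 : Ideal (𝓞 K)} {v : HeightOneSpectrum (𝓞 K)}
    (hv : ¬ v.asIdeal ∣ 𝔫) {x : v.adicCompletion K} (hx : Valued.v x ≤ 1) :
    x ∈ idealClosure 𝔫 v := by
  -- an element `s ∈ 𝔫` which is a unit at `v`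
  have hnle : ¬ 𝔫 ≤ v.asIdeal := fun h => hv (Ideal.dvd_iff_le.mpr h)
  obtain ⟨s, hs𝔫, hsv⟩ := Set.not_subset.mp hnle
  have hsval : Valued.v (((algebraMap (𝓞 K) K s : K) : v.adicCompletion K)) = 1 := by
    rw [valuedAdicCompletion_eq_valuation', valuation_eq_one_iff_notMem]
    exact hsv
  set S : v.adicCompletion K := ((algebraMap (𝓞 K) K s : K) : v.adicCompletion K) with hS
  have hS0 : S ≠ 0 := by
    intro h
    rw [h, map_zero] at hsval
    exact zero_ne_one hsval
  unfold idealClosure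
  rw [mem_closure_iff_nhds]
  intro t ht
  have hxs : Valued.v (x / S) ≤ 1 := by
    rw [map_div₀, hsval, div_one]; exact hx
  -- continuity of `z ↦ z * S` at `x / S`
  have hcont : Filter.Tendsto (fun z : v.adicCompletion K => z * S) (nhds (x / S)) (nhds x) := by
    have h1 : Continuous (fun z : v.adicCompletion K => z * S) := continuous_mul_const S
    have h2 := h1.tendsto (x / S)
    rwa [div_mul_cancel₀ x hS0] at h2
  obtain ⟨a, ha⟩ := exists_int_mem_nhds129 v hxs (hcont ht)
  refine ⟨((algebraMap (𝓞 K) K a : K) : v.adicCompletion K) * S, ha, a * s,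
    𝔫.mul_mem_left a hs𝔫, ?_⟩
  show algebraMap K (v.adicCompletion K) (algebraMap (𝓞 K) K (a * s))
    = algebraMap K (v.adicCompletion K) (algebraMap (𝓞 K) K a)
      * algebraMap K (v.adicCompletion K) (algebraMap (𝓞 K) K s)
  rw [map_mul, map_mul]

theorem zero_mem_idealClosure129 (𝔫 : Ideal (𝓞 K)) (v : HeightOneSpectrum (𝓞 K)) :
    (0 : v.adicCompletion K) ∈ idealClosure 𝔫 v := by
  apply subset_closure
  refine ⟨0, 𝔫.zero_mem, ?_⟩
  simp

/-- An element supported at `v ∤ 𝔫` and lying in `GL₂(𝒪_v)` belongs to the level group. -/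
theorem inLevelGroup_of_localMaxCpt129 {𝔫 : Ideal (𝓞 K)} {v : HeightOneSpectrum (𝓞 K)}
    (hv : ¬ v.asIdeal ∣ 𝔫) {u : G K} (hu : IsLocalMaxCptAt129 v u) : InLevelGroup 𝔫 u := by
  obtain ⟨hloc, hint, hint'⟩ := hu
  have hloc' := isLocalAtFin_inv129 hloc
  refine ⟨hloc.1, ?_⟩
  intro v' i j
  have h1 : ∀ i j : Fin 2, Valued.v ((1 : Matrix (Fin 2) (Fin 2) (v.adicCompletion K)) i j) ≤ 1 := by
    intro i j
    by_cases hij : i = j
    · subst hij; simp
    · simp [hij]
  by_cases h : v' = v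
  · subst h
    constructor
    · apply dense_ideal129 hv
      rw [Matrix.sub_apply]
      exact le_trans (Valuation.map_sub _ _ _) (max_le (hint i j) (h1 i j))
    · apply dense_ideal129 hv
      rw [Matrix.sub_apply]
      exact le_trans (Valuation.map_sub _ _ _) (max_le (hint' i j) (h1 i j))
  · have e1 : finComp v' u = 1 := hloc.2 v' h
    have e2 : finComp v' u⁻¹ = 1 := hloc'.2 v' h
    rw [e1, e2, sub_self]
    exact ⟨zero_mem_idealClosure129 𝔫 v', zero_mem_idealClosure129 𝔫 v'⟩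

/-- For a right `U(𝔫)`-invariant function and `v ∤ 𝔫` the Hecke sum does not depend on the
coset system. -/
theorem heckeSum_indep_level129 {𝔫 : Ideal (𝓞 K)} {v : HeightOneSpectrum (𝓞 K)}
    (hv : ¬ v.asIdeal ∣ 𝔫) {H H' : Finset (G K)} (hH : IsHeckeCosetSystem v H)
    (hH' : IsHeckeCosetSystem v H') {M : Type*} [AddCommMonoid M] (φ : G K → M)
    (hφ : ∀ u : G K, InLevelGroup 𝔫 u → ∀ g : G K, φ (g * u) = φ g) (g : G K) :
    ∑ h ∈ H, φ (g * h) = ∑ h ∈ H', φ (g * h) :=
  heckeSum_indep129 hH hH' φ (fun u hu => hφ u (inLevelGroup_of_localMaxCpt129 hv hu)) g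

/-- Two scalar uniformisers at `v` differ by an element of the level group (`v ∤ 𝔫`). -/
theorem scalarUnif_quot129 {𝔫 : Ideal (𝓞 K)} {v : HeightOneSpectrum (𝓞 K)}
    (hv : ¬ v.asIdeal ∣ 𝔫) {z z₀ : G K} (hz : IsScalarUniformizerAt v z)
    (hz₀ : IsScalarUniformizerAt v z₀) : InLevelGroup 𝔫 (z₀⁻¹ * z) := by
  apply inLevelGroup_of_localMaxCpt129 hv
  obtain ⟨hloc, c, hc, hzc⟩ := hz
  obtain ⟨hloc₀, c₀, hc₀, hzc₀⟩ := hz₀
  have hc0 : c ≠ 0 := unif_ne_zero129 v hc
  have hc₀0 : c₀ ≠ 0 := unif_ne_zero129 v hc₀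
  have key : ∀ {a b : v.adicCompletion K} {x y : G K}, Valued.v a = WithZero.exp (-1 : ℤ) →
      Valued.v b = WithZero.exp (-1 : ℤ) → finComp v x = Matrix.diagonal (fun _ => a) →
      finComp v y = Matrix.diagonal (fun _ => b) → IsIntegralAt v (y⁻¹ * x) := by
    intro a b x y ha hb hx hy
    have hb0 : b ≠ 0 := unif_ne_zero129 v hb
    have hx' : ((finCompHom129 v x : GL (Fin 2) (v.adicCompletion K)) :
        Matrix (Fin 2) (Fin 2) (v.adicCompletion K)) = Matrix.diagonal (fun _ => a) := hx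
    have hy' : ((finCompHom129 v y : GL (Fin 2) (v.adicCompletion K)) :
        Matrix (Fin 2) (Fin 2) (v.adicCompletion K)) = Matrix.diagonal (fun _ => b) := hy
    rw [← isInt129_finCompHom_iff, map_mul, map_inv]
    intro i j
    rw [inv_mul_apply129, hx', hy']
    have hdet : (Matrix.diagonal (fun _ : Fin 2 => b)).det = b * b := by
      rw [Matrix.det_diagonal, Fin.prod_univ_two]
    have hadj : Matrix.adjugate (Matrix.diagonal (fun _ : Fin 2 => b))
        = Matrix.diagonal (fun _ : Fin 2 => b) := by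
      rw [Matrix.adjugate_fin_two]
      ext i j
      fin_cases i <;> fin_cases j <;> simp
    rw [hdet, hadj, Matrix.diagonal_mul_diagonal]
    have hval : Valued.v (b * a / (b * b)) = 1 := by
      rw [map_div₀, map_mul, map_mul, ha, hb]
      exact div_self (mul_ne_zero WithZero.exp_ne_zero WithZero.exp_ne_zero)
    by_cases hij : i = j
    · subst hij
      rw [Matrix.diagonal_apply_eq, mem_adicCompletionIntegers, hval]
    · rw [Matrix.diagonal_apply_ne _ hij, zero_div]
      exact (v.adicCompletionIntegers K).zero_mem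
  refine ⟨isLocalAtFin_mul129 (isLocalAtFin_inv129 hloc₀) hloc, key hc hc₀ hzc hzc₀, ?_⟩
  have e : (z₀⁻¹ * z)⁻¹ = z⁻¹ * z₀ := by group
  rw [e]
  exact key hc₀ hc hzc₀ hzc

/-- **`A0.IsHeckeEigenAt` from ONE coset system and ONE scalar uniformiser.**  Scalar matrices
are central, so `φ (g z) = φ (g z₀ (z₀⁻¹ z)) = φ (g z₀)`. -/
theorem isHeckeEigenAt_of_one129 {𝔫 : Ideal (𝓞 K)} {v : HeightOneSpectrum (𝓞 K)}
    (hv : ¬ v.asIdeal ∣ 𝔫) (φ : G K → ℂ)
    (hφ : ∀ u : G K, InLevelGroup 𝔫 u → ∀ g : G K, φ (g * u) = φ g) (a b : ℂ)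
    {H₀ : Finset (G K)} (hH₀ : IsHeckeCosetSystem v H₀)
    (hT : ∀ g : G K, ∑ h ∈ H₀, φ (g * h)
      = ((Real.sqrt (Ideal.absNorm v.asIdeal : ℝ) : ℝ) : ℂ) * a * φ g)
    {z₀ : G K} (hz₀ : IsScalarUniformizerAt v z₀) (hS : ∀ g : G K, φ (g * z₀) = b * φ g) :
    IsHeckeEigenAt φ v a b := by
  refine ⟨fun H hH g => ?_, fun z hz g => ?_⟩
  · rw [heckeSum_indep_level129 hv hH hH₀ φ hφ g, hT g]
  · have := hφ _ (scalarUnif_quot129 hv hz hz₀) (g * z₀)
    rw [← hS g, ← this]
    congr 1
    group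

end Fermat.Agent.LT.H129

end
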