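import Fermat.Agent.LT.H129.Comp

/-!
# Row LT, tower T1, helper129: the local embedding `GL₂(K_v) → GL₂(𝔸_K)` (A0 vocabulary)

OFF-MAIN.  General number field `K`, finite place `v`.

* `locFin129 v : GL₂(K_v) →* G K` — the element with matrix `x` at `v` and `1` at every other
  place (finite or infinite);
* `finCompHom129_locFin129`, `finCompHom129_locFin129_of_ne`, `infCompHom129_locFin129`;
* `isLocalAtFin_locFin129 : A0.IsLocalAtFin v (locFin129 v x)`;
* `eq_locFin129_of_isLocalAtFin : A0.IsLocalAtFin v g → g = locFin129 v (finCompHom129 v g)`.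
-/

set_option autoImplicit false

open IsDedekindDomain NumberField
open Fermat.Agent.LT.H556.A0

noncomputable section

namespace Fermat.Agent.LT.H129

variable {K : Type} [Field K] [NumberField K]

open scoped Classical

/-- The finite adele with component `x` at `v` and `1` (if `d = true`) resp. `0` elsewhere. -/
def finSingle129 (v : HeightOneSpectrum (𝓞 K)) (d : Bool) (x : v.adicCompletion K) :
    FiniteAdeleRing (𝓞 K) K :=
  if d then RestrictedProduct.mulSingle
      (fun v : HeightOneSpectrum (𝓞 K) => v.adicCompletionIntegers K) v x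
  else RestrictedProduct.single
      (fun v : HeightOneSpectrum (𝓞 K) => v.adicCompletionIntegers K) v x

theorem finSingle129_same (v : HeightOneSpectrum (𝓞 K)) (d : Bool) (x : v.adicCompletion K) :
    finSingle129 v d x v = x := by
  unfold finSingle129
  cases d
  · simp only [Bool.false_eq_true, if_false]
    exact RestrictedProduct.single_eq_same
      (fun v : HeightOneSpectrum (𝓞 K) => v.adicCompletionIntegers K) v x
  · simp only [if_true]
    exact RestrictedProduct.mulSingle_eq_same
      (fun v : HeightOneSpectrum (𝓞 K) => v.adicCompletionIntegers K) v x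

theorem finSingle129_of_ne (v : HeightOneSpectrum (𝓞 K)) (d : Bool) (x : v.adicCompletion K)
    {v' : HeightOneSpectrum (𝓞 K)} (h : v' ≠ v) :
    finSingle129 v d x v' = if d then 1 else 0 := by
  unfold finSingle129
  cases d
  · simp only [Bool.false_eq_true, if_false]
    exact RestrictedProduct.single_eq_of_ne
      (fun v : HeightOneSpectrum (𝓞 K) => v.adicCompletionIntegers K) x h
  · simp only [if_true]
    exact RestrictedProduct.mulSingle_eq_of_ne
      (fun v : HeightOneSpectrum (𝓞 K) => v.adicCompletionIntegers K) x h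

/-- The adelic matrix with component `M` at `v` and `1` elsewhere. -/
def locMat129 (v : HeightOneSpectrum (𝓞 K)) (M : Matrix (Fin 2) (Fin 2) (v.adicCompletion K)) :
    Matrix (Fin 2) (Fin 2) (Adl K) :=
  fun i j => ((1 : Matrix (Fin 2) (Fin 2) (InfiniteAdeleRing K)) i j,
    finSingle129 v (decide (i = j)) (M i j))

theorem locMat129_map_same (v : HeightOneSpectrum (𝓞 K))
    (M : Matrix (Fin 2) (Fin 2) (v.adicCompletion K)) :
    (locMat129 v M).map (evF129 v) = M := by
  refine Matrix.ext fun i j => ?_
  simp only [Matrix.map_apply, evF129_apply, locMat129]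
  exact finSingle129_same v _ _

theorem locMat129_map_of_ne (v : HeightOneSpectrum (𝓞 K))
    (M : Matrix (Fin 2) (Fin 2) (v.adicCompletion K)) {v' : HeightOneSpectrum (𝓞 K)}
    (h : v' ≠ v) : (locMat129 v M).map (evF129 v') = 1 := by
  refine Matrix.ext fun i j => ?_
  simp only [Matrix.map_apply, evF129_apply, locMat129]
  rw [finSingle129_of_ne v _ _ h]
  by_cases hij : i = j
  · subst hij; simp
  · simp [hij]

theorem locMat129_map_inf (v : HeightOneSpectrum (𝓞 K))
    (M : Matrix (Fin 2) (Fin 2) (v.adicCompletion K)) (w : InfinitePlace K) :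
    (locMat129 v M).map (evI129 w) = 1 := by
  refine Matrix.ext fun i j => ?_
  simp only [Matrix.map_apply, evI129_apply, locMat129]
  by_cases hij : i = j
  · subst hij; simp only [Matrix.one_apply_eq]; rfl
  · simp only [Matrix.one_apply_ne hij]; rfl

theorem one_map_evF129 (v : HeightOneSpectrum (𝓞 K)) :
    (1 : Matrix (Fin 2) (Fin 2) (Adl K)).map (evF129 v) = 1 :=
  Matrix.map_one _ (map_zero _) (map_one _)

theorem one_map_evI129 (w : InfinitePlace K) :
    (1 : Matrix (Fin 2) (Fin 2) (Adl K)).map (evI129 w) = 1 :=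
  Matrix.map_one _ (map_zero _) (map_one _)

theorem locMat129_one (v : HeightOneSpectrum (𝓞 K)) : locMat129 v 1 = 1 := by
  apply adeleMatrix_ext129
  · intro w
    rw [locMat129_map_inf, one_map_evI129]
  · intro v'
    by_cases h : v' = v
    · subst h
      rw [locMat129_map_same, one_map_evF129]
    · rw [locMat129_map_of_ne v _ h, one_map_evF129]

theorem locMat129_mul (v : HeightOneSpectrum (𝓞 K))
    (M N : Matrix (Fin 2) (Fin 2) (v.adicCompletion K)) :
    locMat129 v (M * N) = locMat129 v M * locMat129 v N := by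
  apply adeleMatrix_ext129
  · intro w
    rw [Matrix.map_mul, locMat129_map_inf, locMat129_map_inf, locMat129_map_inf, mul_one]
  · intro v'
    rw [Matrix.map_mul]
    by_cases h : v' = v
    · subst h
      rw [locMat129_map_same, locMat129_map_same, locMat129_map_same]
    · rw [locMat129_map_of_ne v _ h, locMat129_map_of_ne v _ h, locMat129_map_of_ne v _ h,
        mul_one]

/-- **The local embedding** `GL₂(K_v) →* GL₂(𝔸_K)`. -/
def locFin129 (v : HeightOneSpectrum (𝓞 K)) : GL (Fin 2) (v.adicCompletion K) →* G K where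
  toFun x :=
    { val := locMat129 v (x : Matrix (Fin 2) (Fin 2) (v.adicCompletion K))
      inv := locMat129 v ((x⁻¹ : GL (Fin 2) (v.adicCompletion K)) :
        Matrix (Fin 2) (Fin 2) (v.adicCompletion K))
      val_inv := by
        rw [← locMat129_mul, ← Matrix.GeneralLinearGroup.coe_mul, mul_inv_cancel]
        exact locMat129_one v
      inv_val := by
        rw [← locMat129_mul, ← Matrix.GeneralLinearGroup.coe_mul, inv_mul_cancel]
        exact locMat129_one v }
  map_one' := Units.ext (locMat129_one v)
  map_mul' x y := Units.ext (locMat129_mul v _ _)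

theorem coe_locFin129 (v : HeightOneSpectrum (𝓞 K)) (x : GL (Fin 2) (v.adicCompletion K)) :
    ((locFin129 v x : G K) : Matrix (Fin 2) (Fin 2) (Adl K))
      = locMat129 v (x : Matrix (Fin 2) (Fin 2) (v.adicCompletion K)) := rfl

theorem finCompHom129_locFin129 (v : HeightOneSpectrum (𝓞 K))
    (x : GL (Fin 2) (v.adicCompletion K)) : finCompHom129 v (locFin129 v x) = x := by
  apply Units.ext
  rw [coe_finCompHom129_map, coe_locFin129, locMat129_map_same]

theorem finCompHom129_locFin129_of_ne (v : HeightOneSpectrum (𝓞 K))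
    (x : GL (Fin 2) (v.adicCompletion K)) {v' : HeightOneSpectrum (𝓞 K)} (h : v' ≠ v) :
    finCompHom129 v' (locFin129 v x) = 1 := by
  apply Units.ext
  rw [coe_finCompHom129_map, coe_locFin129, locMat129_map_of_ne v _ h]
  rfl

theorem infCompHom129_locFin129 (v : HeightOneSpectrum (𝓞 K))
    (x : GL (Fin 2) (v.adicCompletion K)) (w : InfinitePlace K) :
    infCompHom129 w (locFin129 v x) = 1 := by
  apply Units.ext
  rw [coe_infCompHom129_map, coe_locFin129, locMat129_map_inf]
  rfl

theorem finComp_locFin129 (v : HeightOneSpectrum (𝓞 K))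
    (x : GL (Fin 2) (v.adicCompletion K)) :
    finComp v (locFin129 v x) = (x : Matrix (Fin 2) (Fin 2) (v.adicCompletion K)) := by
  rw [← coe_finCompHom129, finCompHom129_locFin129]

theorem isLocalAtFin_iff129 (v : HeightOneSpectrum (𝓞 K)) (g : G K) :
    IsLocalAtFin v g ↔ (∀ w : InfinitePlace K, infCompHom129 w g = 1) ∧
      ∀ v' : HeightOneSpectrum (𝓞 K), v' ≠ v → finCompHom129 v' g = 1 := by
  unfold IsLocalAtFin
  simp only [trivAtInf_iff129, trivAtFin_iff129]

theorem isLocalAtFin_locFin129 (v : HeightOneSpectrum (𝓞 K))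
    (x : GL (Fin 2) (v.adicCompletion K)) : IsLocalAtFin v (locFin129 v x) := by
  rw [isLocalAtFin_iff129]
  exact ⟨fun w => infCompHom129_locFin129 v x w,
    fun v' h => finCompHom129_locFin129_of_ne v x h⟩

/-- A local element at `v` is the local embedding of its component at `v`. -/
theorem eq_locFin129_of_isLocalAtFin {v : HeightOneSpectrum (𝓞 K)} {g : G K}
    (hg : IsLocalAtFin v g) : g = locFin129 v (finCompHom129 v g) := by
  rw [isLocalAtFin_iff129] at hg
  apply G_ext129
  · intro w
    rw [hg.1 w, infCompHom129_locFin129]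
  · intro v'
    by_cases h : v' = v
    · subst h
      rw [finCompHom129_locFin129]
    · rw [hg.2 v' h, finCompHom129_locFin129_of_ne v _ h]

theorem isLocalAtFin_mul129 {v : HeightOneSpectrum (𝓞 K)} {g h : G K}
    (hg : IsLocalAtFin v g) (hh : IsLocalAtFin v h) : IsLocalAtFin v (g * h) := by
  rw [isLocalAtFin_iff129] at *
  exact ⟨fun w => by rw [map_mul, hg.1 w, hh.1 w, mul_one],
    fun v' hv => by rw [map_mul, hg.2 v' hv, hh.2 v' hv, mul_one]⟩

theorem isLocalAtFin_inv129 {v : HeightOneSpectrum (𝓞 K)} {g : G K}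
    (hg : IsLocalAtFin v g) : IsLocalAtFin v g⁻¹ := by
  rw [isLocalAtFin_iff129] at *
  exact ⟨fun w => by rw [map_inv, hg.1 w, inv_one],
    fun v' hv => by rw [map_inv, hg.2 v' hv, inv_one]⟩

theorem isLocalAtFin_one129 (v : HeightOneSpectrum (𝓞 K)) : IsLocalAtFin v (1 : G K) := by
  rw [isLocalAtFin_iff129]
  exact ⟨fun w => map_one _, fun v' _ => map_one _⟩

end Fermat.Agent.LT.H129

end
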