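import Mathlib
import Fermat.Agent.LT.T6.Spec
import Fermat.Agent.LT.T6.H159.VanishSpec
import Fermat.Agent.LT.T6.H159.NormSpec

/-!
# Row LT, tower T6, sub-leaf T6.15c2 `NewtonC` (helper129) -- OFF-MAIN

`X² - τ X + d` with `|d| = 1 < |τ|` has a root in a complete field with a valuation in `ℤᵐ⁰`.

Proof: `X = τ Y`, `Y = Y² + c`, `c = d / τ²`, `|c| < 1`; the iteration `Y₀ = 0`,
`Yₙ₊₁ = Yₙ² + c` is Cauchy (`|Yₙ₊₁ - Yₙ| ≤ |c|ⁿ⁺¹`), and the limit is a fixed point.
-/

set_option autoImplicit false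

noncomputable section

namespace Fermat.Agent.LT.H129

open Fermat.Agent.LT.T6 Fermat.Agent.LT.T6.H159

section Newton

variable {k : Type} [Field k]

/-- The Newton iteration `Y₀ = 0`, `Yₙ₊₁ = Yₙ² + c`. -/
def newtonSeq129 (c : k) : ℕ → k
  | 0 => 0
  | (n + 1) => newtonSeq129 c n ^ 2 + c

@[simp] theorem newtonSeq129_zero (c : k) : newtonSeq129 c 0 = 0 := rfl

theorem newtonSeq129_succ (c : k) (n : ℕ) :
    newtonSeq129 c (n + 1) = newtonSeq129 c n ^ 2 + c := rfl

variable [Valued k Γ₀]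

theorem newtonSeq129_le {c : k} (hc : Valued.v c < 1) (n : ℕ) :
    Valued.v (newtonSeq129 c n) ≤ Valued.v c := by
  induction n with
  | zero => simp
  | succ n ih =>
    rw [newtonSeq129_succ]
    refine le_trans (Valuation.map_add _ _ _) (max_le ?_ le_rfl)
    rw [map_pow]
    calc Valued.v (newtonSeq129 c n) ^ 2 ≤ Valued.v c ^ 2 := pow_le_pow_left' ih 2
      _ = Valued.v c * Valued.v c := sq _
      _ ≤ 1 * Valued.v c := mul_le_mul' hc.le le_rfl
      _ = Valued.v c := one_mul _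

theorem newtonSeq129_step {c : k} (hc : Valued.v c < 1) (n : ℕ) :
    Valued.v (newtonSeq129 c (n + 1) - newtonSeq129 c n) ≤ Valued.v c ^ (n + 1) := by
  induction n with
  | zero => simp [newtonSeq129_succ]
  | succ n ih =>
    have e : newtonSeq129 c (n + 1 + 1) - newtonSeq129 c (n + 1)
        = (newtonSeq129 c (n + 1) - newtonSeq129 c n)
          * (newtonSeq129 c (n + 1) + newtonSeq129 c n) := by
      rw [newtonSeq129_succ c (n + 1), newtonSeq129_succ c n]; ring
    rw [e, map_mul, pow_succ]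
    refine mul_le_mul' ih ?_
    exact le_trans (Valuation.map_add _ _ _)
      (max_le (newtonSeq129_le hc _) (newtonSeq129_le hc _))

theorem pow_anti129 {x : Γ₀} (hx : x ≤ 1) {m n : ℕ} (h : m ≤ n) : x ^ n ≤ x ^ m :=
  pow_le_pow_right_of_le_one' hx h

theorem newtonSeq129_dist {c : k} (hc : Valued.v c < 1) (n j : ℕ) :
    Valued.v (newtonSeq129 c (n + j) - newtonSeq129 c n) ≤ Valued.v c ^ (n + 1) := by
  induction j with
  | zero => simp
  | succ j ih =>
    have e : newtonSeq129 c (n + (j + 1)) - newtonSeq129 c n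
        = (newtonSeq129 c (n + j + 1) - newtonSeq129 c (n + j))
          + (newtonSeq129 c (n + j) - newtonSeq129 c n) := by
      rw [← add_assoc]; ring
    rw [e]
    refine le_trans (Valuation.map_add _ _ _) (max_le ?_ ih)
    exact le_trans (newtonSeq129_step hc _) (pow_anti129 hc.le (by omega))

theorem lt_one_le_exp129 {x : Γ₀} (hx : x < 1) : x ≤ WithZero.exp (-1 : ℤ) := by
  by_cases h0 : x = 0
  · rw [h0]; exact zero_le
  · rw [← WithZero.log_le_iff_le_exp h0]
    have : WithZero.log x < 0 := by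
      rw [WithZero.log_lt_iff_lt_exp h0]; simpa using hx
    omega

theorem pow_lt_of_lt_one129 {x : Γ₀} (hx : x < 1) {g : Γ₀} (hg : g ≠ 0) :
    ∃ N : ℕ, x ^ N < g := by
  obtain ⟨N, hN⟩ := WithZero.exists_exp_neg_natCast_lt hg
  refine ⟨N, lt_of_le_of_lt ?_ hN⟩
  calc x ^ N ≤ (WithZero.exp (-1 : ℤ)) ^ N := pow_le_pow_left' (lt_one_le_exp129 hx) N
    _ = WithZero.exp (-(N : ℤ)) := by
      rw [← WithZero.exp_nsmul]; congr 1; simp

theorem newtonSeq129_cauchy {c : k} (hc : Valued.v c < 1) : CauchySeq (newtonSeq129 c) := by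
  rw [(Valued.hasBasis_uniformity k Γ₀).cauchySeq_iff]
  intro γ _
  have hγ0 : MonoidWithZeroHom.ValueGroup₀.embedding γ.1 ≠ 0 := by
    intro h
    have h1 := (MonoidWithZeroHom.ValueGroup₀.embedding_strictMono
      (f := MonoidWithZeroHom.ofClass (Valued.v : Valuation k Γ₀))).injective
      (h.trans (map_zero _).symm)
    exact γ.ne_zero h1
  obtain ⟨N, hN⟩ := pow_lt_of_lt_one129 hc hγ0
  have key : ∀ m n : ℕ, N ≤ m → m ≤ n →
      Valued.v (newtonSeq129 c n - newtonSeq129 c m)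
        < MonoidWithZeroHom.ValueGroup₀.embedding γ.1 := by
    intro m n hm hmn
    obtain ⟨j, rfl⟩ := Nat.exists_eq_add_of_le hmn
    exact lt_of_le_of_lt (le_trans (newtonSeq129_dist hc m j)
      (pow_anti129 hc.le (by omega))) hN
  refine ⟨N, fun m hm n hn => ?_⟩
  show (Valued.v : Valuation k Γ₀).restrict (newtonSeq129 c n - newtonSeq129 c m) < γ.1
  rw [Valuation.restrict_lt_iff_lt_embedding]
  rcases le_total m n with h | h
  · exact key m n hm h
  · have := key n m hn h
    rwa [← Valuation.map_neg, neg_sub] at this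

/-- In a complete field valued in `ℤᵐ⁰`, the equation `Y = Y² + c` has a solution when
`|c| < 1`. -/
theorem exists_fixed129 [CompleteSpace k] {c : k} (hc : Valued.v c < 1) :
    ∃ Y : k, Y = Y ^ 2 + c := by
  obtain ⟨Y, hY⟩ := cauchySeq_tendsto_of_complete (newtonSeq129_cauchy hc)
  refine ⟨Y, ?_⟩
  have h1 : Filter.Tendsto (fun n => newtonSeq129 c (n + 1)) Filter.atTop (nhds Y) :=
    hY.comp (Filter.tendsto_add_atTop_nat 1)
  have h2 : Filter.Tendsto (fun n => newtonSeq129 c (n + 1)) Filter.atTop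
      (nhds (Y ^ 2 + c)) := by
    have : (fun n => newtonSeq129 c (n + 1)) = fun n => newtonSeq129 c n ^ 2 + c := by
      funext n; exact newtonSeq129_succ c n
    rw [this]
    exact (hY.pow 2).add_const c
  exact tendsto_nhds_unique h1 h2

end Newton

/-- **T6.15c2 `NewtonC`**, unconditional. -/
theorem newtonC129 : NewtonC := by
  intro k _ _ q hk τ d hd hτ
  have := hk.complete
  have hτ0 : τ ≠ 0 := by
    intro h
    rw [h, map_zero] at hτ
    exact absurd hτ (not_lt.mpr zero_le)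
  have hc : Valued.v (d / τ ^ 2) < 1 := by
    rw [map_div₀, map_pow, hd]
    have h1 : (1 : Γ₀) < Valued.v τ ^ 2 := one_lt_pow' hτ (by norm_num)
    have hpos : (0 : Γ₀) < Valued.v τ ^ 2 := lt_trans zero_lt_one h1
    rw [div_lt_one₀ hpos]
    exact h1
  obtain ⟨Y, hY⟩ := exists_fixed129 hc
  refine ⟨τ * Y, ?_⟩
  have h2 : τ ^ 2 * (d / τ ^ 2) = d := by field_simp
  have h3 : (τ * Y) ^ 2 - τ * (τ * Y) + d = τ ^ 2 * (Y ^ 2 + d / τ ^ 2 - Y) := by
    rw [mul_sub, mul_add, h2]; ring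
  rw [h3, ← hY, sub_self, mul_zero]

end Fermat.Agent.LT.H129

end
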