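import Mathlib
import Fermat.Agent.LT.H129.Newton

/-!
# Row LT, tower T6 -- asset (helper129, OFF-MAIN): Hensel's lemma for quadratics

In a complete field `k` valued in `ℤᵐ⁰`:

* `exists_fixed_small129`: for `|c| < 1` the equation `Y = Y² + c` has a solution with `|Y| ≤ |c|`;
* `hensel_quad129`: if `|f(x₀)| < |f'(x₀)|²` for `f = X² - tX + d`, then `f` has a root `x` with
  `|x - x₀| ≤ |f(x₀)| / |f'(x₀)|`;
* `hensel_quad_unit129`: the usual form (`x₀` a simple root modulo the maximal ideal).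
-/

set_option autoImplicit false

noncomputable section

namespace Fermat.Agent.LT.H129

open Fermat.Agent.LT.T6

variable {k : Type} [Field k] [Valued k Γ₀]

/-- For `|c| < 1` the equation `Y = Y² + c` has a solution with `|Y| ≤ |c|` (and the sequence
`newtonSeq129 c` converges to it). -/
theorem exists_fixed_small129 [CompleteSpace k] {c : k} (hc : Valued.v c < 1) :
    ∃ Y : k, Y = Y ^ 2 + c ∧ Valued.v Y ≤ Valued.v c := by
  obtain ⟨Y, hY⟩ := cauchySeq_tendsto_of_complete (newtonSeq129_cauchy hc)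
  have h1 : Filter.Tendsto (fun n => newtonSeq129 c (n + 1)) Filter.atTop (nhds Y) :=
    hY.comp (Filter.tendsto_add_atTop_nat 1)
  have h2 : Filter.Tendsto (fun n => newtonSeq129 c (n + 1)) Filter.atTop
      (nhds (Y ^ 2 + c)) := by
    have : (fun n => newtonSeq129 c (n + 1)) = fun n => newtonSeq129 c n ^ 2 + c := by
      funext n; exact newtonSeq129_succ c n
    rw [this]
    exact (hY.pow 2).add_const c
  refine ⟨Y, tendsto_nhds_unique h1 h2, ?_⟩
  by_contra hlt
  rw [not_le] at hlt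
  have hY0 : Valued.v Y ≠ 0 := fun h => by rw [h] at hlt; exact absurd hlt (not_lt.mpr zero_le)
  have hmem : {y : k | Valued.v y = Valued.v Y} ∈ nhds Y := Valued.locally_const hY0
  obtain ⟨n, hn⟩ := (hY.eventually hmem).exists
  have hn' : Valued.v (newtonSeq129 c n) = Valued.v Y := hn
  exact absurd (newtonSeq129_le hc n) (not_le.mpr (hn' ▸ hlt))

/-- **Hensel's lemma for a quadratic polynomial** `f = X² - tX + d` in a complete field valued
in `ℤᵐ⁰`: an approximate root `x₀` with `|f(x₀)| < |f'(x₀)|²` is close to an exact root. -/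
theorem hensel_quad129 [CompleteSpace k] (t d x₀ : k)
    (h : Valued.v (x₀ ^ 2 - t * x₀ + d) < Valued.v (2 * x₀ - t) ^ 2) :
    ∃ x : k, x ^ 2 - t * x + d = 0 ∧
      Valued.v (x - x₀) * Valued.v (2 * x₀ - t) ≤ Valued.v (x₀ ^ 2 - t * x₀ + d) := by
  set e : k := x₀ ^ 2 - t * x₀ + d with he
  set u : k := 2 * x₀ - t with hu
  have hu0 : Valued.v u ≠ 0 := by
    intro h0
    rw [h0] at h
    simp at h
  have hune : u ≠ 0 := fun h0 => hu0 (by rw [h0, map_zero])
  have hpos : (0 : Γ₀) < Valued.v u ^ 2 :=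
    zero_lt_iff.mpr (pow_ne_zero 2 hu0)
  have hc : Valued.v (e / u ^ 2) < 1 := by
    rw [map_div₀, map_pow, div_lt_one₀ hpos]; exact h
  obtain ⟨Y, hY, hYle⟩ := exists_fixed_small129 hc
  refine ⟨x₀ - u * Y, ?_, ?_⟩
  · have h2 : u ^ 2 * (e / u ^ 2) = e := by field_simp
    have h3 : (x₀ - u * Y) ^ 2 - t * (x₀ - u * Y) + d
        = u ^ 2 * (Y ^ 2 + e / u ^ 2 - Y) := by
      have h4 : u ^ 2 * (Y ^ 2 + e / u ^ 2 - Y) = u ^ 2 * Y ^ 2 + u ^ 2 * (e / u ^ 2) - u ^ 2 * Y := by
        ring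
      rw [h4, h2, he, hu]; ring
    rw [h3, ← hY, sub_self, mul_zero]
  · have e1 : x₀ - u * Y - x₀ = -(u * Y) := by ring
    rw [e1, Valuation.map_neg, map_mul]
    have hY' : Valued.v Y ≤ Valued.v e / Valued.v u ^ 2 := by
      simpa [map_div₀, map_pow] using hYle
    calc Valued.v u * Valued.v Y * Valued.v u
        ≤ Valued.v u * (Valued.v e / Valued.v u ^ 2) * Valued.v u :=
          mul_le_mul' (mul_le_mul' le_rfl hY') le_rfl
      _ = Valued.v e := by
          field_simp

/-- Hensel's lemma for `f = X² - tX + d`, usual form: `t, d, x₀` integral, `|f(x₀)| < 1` and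
`f'(x₀)` a unit.  The exact root `x` is integral and congruent to `x₀`. -/
theorem hensel_quad_unit129 [CompleteSpace k] (t d x₀ : k)
    (h : Valued.v (x₀ ^ 2 - t * x₀ + d) < 1) (hu : Valued.v (2 * x₀ - t) = 1) :
    ∃ x : k, x ^ 2 - t * x + d = 0 ∧ Valued.v (x - x₀) < 1 := by
  obtain ⟨x, hx, hle⟩ := hensel_quad129 t d x₀ (by rw [hu, one_pow]; exact h)
  refine ⟨x, hx, ?_⟩
  rw [hu, mul_one] at hle
  exact lt_of_le_of_lt hle h

end Fermat.Agent.LT.H129

end
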