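import Mathlib
import Fermat.Agent.LT.H129.Newton

/-!
# Row LT, tower T6 -- asset (helper129, OFF-MAIN): limits in a complete field valued in `ℤᵐ⁰`

Successive approximation in the T6 frame (`Valued k Γ₀`, `Γ₀ = ℤᵐ⁰`), in terms of the valuation
only (no `ValueGroup₀`, no filters in the statements):

* `ball_mem_nhds129`: open balls of nonzero radius are neighbourhoods;
* `tendsto_iff_val129`: `x n → L` iff `∀ g ≠ 0, ∃ N, ∀ n ≥ N, |x n - L| < g`;
* `cauchySeq_of_step129`: `|x (n+1) - x n| ≤ c · rⁿ`, `r < 1`  ⟹  `x` is Cauchy;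
* `exists_limit_of_step129`: in a complete field, such a sequence has a limit `L` with
  `|L - x n| ≤ c · rⁿ` for all `n`;
* `val_limit_le129`, `val_sub_limit_le129`: closed balls are sequentially closed.
-/

set_option autoImplicit false

noncomputable section

namespace Fermat.Agent.LT.H129

open Fermat.Agent.LT.T6

variable {k : Type} [Field k] [Valued k Γ₀]

theorem embedding_ne_zero129
    (γ : (MonoidWithZeroHom.ValueGroup₀
      (MonoidWithZeroHom.ofClass (Valued.v : Valuation k Γ₀)))ˣ) :
    MonoidWithZeroHom.ValueGroup₀.embedding γ.1 ≠ 0 := by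
  intro h
  have h1 := (MonoidWithZeroHom.ValueGroup₀.embedding_strictMono
    (f := MonoidWithZeroHom.ofClass (Valued.v : Valuation k Γ₀))).injective
    (h.trans (map_zero _).symm)
  exact γ.ne_zero h1

/-- Open balls of nonzero radius are neighbourhoods. -/
theorem ball_mem_nhds129 (L : k) {g : Γ₀} (hg : g ≠ 0) :
    {y : k | Valued.v (y - L) < g} ∈ nhds L := by
  by_cases hL : ∃ z : k, z ≠ 0 ∧ Valued.v z ≤ g
  · obtain ⟨z, hz0, hz⟩ := hL
    rw [Valued.mem_nhds]
    have hz' : (Valued.v : Valuation k Γ₀).restrict z ≠ 0 := by simpa using hz0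
    refine ⟨Units.mk0 _ hz', fun y hy => ?_⟩
    have hy' : (Valued.v : Valuation k Γ₀).restrict (y - L)
        < (Valued.v : Valuation k Γ₀).restrict z := hy
    rw [Valuation.restrict_lt_iff] at hy'
    exact lt_of_lt_of_le hy' hz
  · -- every nonzero element has valuation `> g`: the valuation is trivial
    have hL' : ∀ z : k, z ≠ 0 → g < Valued.v z := fun z hz => by
      by_contra hcon
      exact hL ⟨z, hz, not_lt.mp hcon⟩
    rw [Valued.mem_nhds]
    refine ⟨1, fun y hy => ?_⟩
    have hy' : (Valued.v : Valuation k Γ₀).restrict (y - L) < 1 := by simpa using hy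
    have h3 : Valued.v (y - L) < 1 := by
      rw [Valuation.restrict_lt_iff_lt_embedding] at hy'
      simpa using hy'
    show Valued.v (y - L) < g
    by_cases hyL : y - L = 0
    · rw [hyL, map_zero]; exact zero_lt_iff.mpr hg
    · exfalso
      obtain ⟨N, hN⟩ := pow_lt_of_lt_one129 h3 hg
      have := hL' ((y - L) ^ N) (pow_ne_zero N hyL)
      rw [map_pow] at this
      exact absurd hN (not_lt.mpr this.le)

/-- Convergence of sequences in terms of the valuation. -/
theorem tendsto_iff_val129 (x : ℕ → k) (L : k) :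
    Filter.Tendsto x Filter.atTop (nhds L) ↔
      ∀ g : Γ₀, g ≠ 0 → ∃ N : ℕ, ∀ n, N ≤ n → Valued.v (x n - L) < g := by
  constructor
  · intro h g hg
    have := h.eventually (ball_mem_nhds129 L hg)
    rw [Filter.eventually_atTop] at this
    exact this
  · intro h
    rw [Filter.tendsto_def]
    intro s hs
    rw [Valued.mem_nhds] at hs
    obtain ⟨γ, hγ⟩ := hs
    obtain ⟨N, hN⟩ := h _ (embedding_ne_zero129 γ)
    rw [Filter.mem_atTop_sets]
    refine ⟨N, fun n hn => hγ ?_⟩
    show (Valued.v : Valuation k Γ₀).restrict (x n - L) < γ.1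
    rw [Valuation.restrict_lt_iff_lt_embedding]
    exact hN n hn

/-- Telescoping: steps bounded by `c · rⁿ` give distances bounded by `c · rⁿ`. -/
theorem val_sub_le_of_step129 {x : ℕ → k} {c r : Γ₀} (hr : r ≤ 1)
    (h : ∀ n, Valued.v (x (n + 1) - x n) ≤ c * r ^ n) (n j : ℕ) :
    Valued.v (x (n + j) - x n) ≤ c * r ^ n := by
  induction j with
  | zero => simp
  | succ j ih =>
    have e : x (n + (j + 1)) - x n = (x (n + j + 1) - x (n + j)) + (x (n + j) - x n) := by
      rw [← add_assoc]; ring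
    rw [e]
    refine le_trans (Valuation.map_add _ _ _) (max_le ?_ ih)
    exact le_trans (h _) (mul_le_mul' le_rfl (pow_anti129 hr (by omega)))

/-- A sequence with geometrically decreasing steps is Cauchy. -/
theorem cauchySeq_of_step129 {x : ℕ → k} {c r : Γ₀} (hr : r < 1)
    (h : ∀ n, Valued.v (x (n + 1) - x n) ≤ c * r ^ n) : CauchySeq x := by
  rw [(Valued.hasBasis_uniformity k Γ₀).cauchySeq_iff]
  intro γ _
  have hγ0 := embedding_ne_zero129 γ
  -- `c * r ^ N < γ` for some `N`
  obtain ⟨N, hN⟩ : ∃ N : ℕ, c * r ^ N < MonoidWithZeroHom.ValueGroup₀.embedding γ.1 := by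
    by_cases hc : c = 0
    · exact ⟨0, by rw [hc, zero_mul]; exact zero_lt_iff.mpr hγ0⟩
    · obtain ⟨N, hN⟩ := pow_lt_of_lt_one129 hr
        (div_ne_zero hγ0 hc : MonoidWithZeroHom.ValueGroup₀.embedding γ.1 / c ≠ 0)
      refine ⟨N, ?_⟩
      rw [lt_div_iff₀ (zero_lt_iff.mpr hc)] at hN
      rwa [mul_comm]
  have key : ∀ m n : ℕ, N ≤ m → m ≤ n →
      Valued.v (x n - x m) < MonoidWithZeroHom.ValueGroup₀.embedding γ.1 := by
    intro m n hm hmn
    obtain ⟨j, rfl⟩ := Nat.exists_eq_add_of_le hmn
    exact lt_of_le_of_lt (le_trans (val_sub_le_of_step129 hr.le h m j)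
      (mul_le_mul' le_rfl (pow_anti129 hr.le hm))) hN
  refine ⟨N, fun m hm n hn => ?_⟩
  show (Valued.v : Valuation k Γ₀).restrict (x n - x m) < γ.1
  rw [Valuation.restrict_lt_iff_lt_embedding]
  rcases le_total m n with h' | h'
  · exact key m n hm h'
  · have := key n m hn h'
    rwa [← Valuation.map_neg, neg_sub] at this

/-- Closed balls are sequentially closed. -/
theorem val_sub_limit_le129 {x : ℕ → k} {L a : k} {c : Γ₀}
    (hx : Filter.Tendsto x Filter.atTop (nhds L)) (N : ℕ)
    (h : ∀ n, N ≤ n → Valued.v (x n - a) ≤ c) : Valued.v (L - a) ≤ c := by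
  by_contra hlt
  rw [not_le] at hlt
  have h0 : Valued.v (L - a) ≠ 0 := fun h0 => by
    rw [h0] at hlt; exact absurd hlt (not_lt.mpr zero_le)
  obtain ⟨M, hM⟩ := (tendsto_iff_val129 x L).mp hx _ h0
  have h1 := hM (max M N) (le_max_left _ _)
  have h2 := h (max M N) (le_max_right _ _)
  have e : L - a = (x (max M N) - a) - (x (max M N) - L) := by ring
  have h3 : Valued.v (L - a) ≤ max (Valued.v (x (max M N) - a)) (Valued.v (x (max M N) - L)) := by
    rw [e]; exact Valuation.map_sub _ _ _
  rcases le_max_iff.mp h3 with h4 | h4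
  · exact absurd (lt_of_le_of_lt (le_trans h4 h2) hlt) (lt_irrefl _)
  · exact absurd (lt_of_le_of_lt h4 h1) (lt_irrefl _)

/-- Closed balls around `0` are sequentially closed. -/
theorem val_limit_le129 {x : ℕ → k} {L : k} {c : Γ₀}
    (hx : Filter.Tendsto x Filter.atTop (nhds L)) (N : ℕ)
    (h : ∀ n, N ≤ n → Valued.v (x n) ≤ c) : Valued.v L ≤ c := by
  have := val_sub_limit_le129 (a := 0) hx N (by simpa using h)
  simpa using this

/-- **Successive approximation.**  In a complete field, a sequence with steps bounded by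
`c · rⁿ` (`r < 1`) has a limit `L`, and `|L - x n| ≤ c · rⁿ` for all `n`. -/
theorem exists_limit_of_step129 [CompleteSpace k] {x : ℕ → k} {c r : Γ₀} (hr : r < 1)
    (h : ∀ n, Valued.v (x (n + 1) - x n) ≤ c * r ^ n) :
    ∃ L : k, Filter.Tendsto x Filter.atTop (nhds L) ∧
      ∀ n, Valued.v (L - x n) ≤ c * r ^ n := by
  obtain ⟨L, hL⟩ := cauchySeq_tendsto_of_complete (cauchySeq_of_step129 hr h)
  refine ⟨L, hL, fun n => ?_⟩
  refine val_sub_limit_le129 hL n (fun m hm => ?_)
  obtain ⟨j, rfl⟩ := Nat.exists_eq_add_of_le hm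
  exact val_sub_le_of_step129 hr.le h n j

/-- The valuation of a nonzero limit is eventually attained. -/
theorem val_eq_of_tendsto129 {x : ℕ → k} {L : k}
    (hx : Filter.Tendsto x Filter.atTop (nhds L)) (hL : L ≠ 0) :
    ∃ N : ℕ, ∀ n, N ≤ n → Valued.v (x n) = Valued.v L := by
  have hv : Valued.v L ≠ 0 := by simpa using hL
  have := hx.eventually (Valued.locally_const hv)
  rw [Filter.eventually_atTop] at this
  exact this

end Fermat.Agent.LT.H129

end
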