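import Fermat.Agent.LT.H129.HeckeA0

/-!
# Row LT, helper129: existence of Hecke coset systems and scalar uniformisers (A0 vocabulary)

OFF-MAIN.  General number field `K`, finite place `v`.

* `exists_heckeCosetSystem129 v : ∃ H, A0.IsHeckeCosetSystem v H` — the standard system
  `[[ϖ, r], [0, 1]]` (`r` running over representatives of `𝓞 K ⧸ v`), `[[1, 0], [0, ϖ]]`;
* `exists_scalarUniformizer129 v : ∃ z, A0.IsScalarUniformizerAt v z`.
-/

set_option autoImplicit false

open IsDedekindDomain NumberField IsDedekindDomain.HeightOneSpectrum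
open Fermat.Agent.LT.H556.A0

noncomputable section

namespace Fermat.Agent.LT.H129

section Generic

variable {F : Type*} [Field F]

theorem upper_inv_mul_upper129 {π : F} (hπ : π ≠ 0) (r r' : F) :
    (((mkGL129 π r 0 1 (by simpa using hπ))⁻¹ * mkGL129 π r' 0 1 (by simpa using hπ) :
      GL (Fin 2) F) : Matrix (Fin 2) (Fin 2) F) 0 1 = (r' - r) / π := by
  rw [inv_mul_apply129]
  simp only [coe_mkGL129, Matrix.adjugate_fin_two_of, Matrix.det_fin_two_of, Matrix.mul_apply,
    Fin.sum_univ_two, Matrix.of_apply, Matrix.cons_val', Matrix.cons_val_zero,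
    Matrix.cons_val_one, Matrix.cons_val_fin_one]
  simp only [mul_one, mul_zero, sub_zero, one_mul]
  ring

theorem upper_inv_mul_lower129 {π : F} (hπ : π ≠ 0) (r : F) :
    (((mkGL129 π r 0 1 (by simpa using hπ))⁻¹ * mkGL129 1 0 0 π (by simpa using hπ) :
      GL (Fin 2) F) : Matrix (Fin 2) (Fin 2) F) 0 0 = π⁻¹ := by
  rw [inv_mul_apply129]
  simp only [coe_mkGL129, Matrix.adjugate_fin_two_of, Matrix.det_fin_two_of, Matrix.mul_apply,
    Fin.sum_univ_two, Matrix.of_apply, Matrix.cons_val', Matrix.cons_val_zero,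
    Matrix.cons_val_one, Matrix.cons_val_fin_one]
  simp only [mul_one, mul_zero, sub_zero, add_zero]
  rw [one_div]

theorem lower_inv_mul_upper129 {π : F} (hπ : π ≠ 0) (r : F) :
    (((mkGL129 1 0 0 π (by simpa using hπ))⁻¹ * mkGL129 π r 0 1 (by simpa using hπ) :
      GL (Fin 2) F) : Matrix (Fin 2) (Fin 2) F) 1 1 = π⁻¹ := by
  rw [inv_mul_apply129]
  simp only [coe_mkGL129, Matrix.adjugate_fin_two_of, Matrix.det_fin_two_of, Matrix.mul_apply,
    Fin.sum_univ_two, Matrix.of_apply, Matrix.cons_val', Matrix.cons_val_zero,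
    Matrix.cons_val_one, Matrix.cons_val_fin_one]
  simp only [mul_one, mul_zero, sub_zero, one_mul, neg_zero, zero_mul, zero_add]
  rw [one_div]

end Generic

variable {K : Type} [Field K] [NumberField K] (v : HeightOneSpectrum (𝓞 K))

/-- A uniformiser of `K_v` coming from `K`. -/
theorem exists_unif129 : ∃ π : v.adicCompletion K, Valued.v π = WithZero.exp (-1 : ℤ) := by
  obtain ⟨π, hπ⟩ := v.valuation_exists_uniformizer K
  exact ⟨(π : v.adicCompletion K), by rw [valuedAdicCompletion_eq_valuation', hπ]⟩

theorem unif_ne_zero129 {π : v.adicCompletion K} (hπ : Valued.v π = WithZero.exp (-1 : ℤ)) :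
    π ≠ 0 := by
  intro h
  rw [h, map_zero] at hπ
  exact WithZero.exp_ne_zero.symm hπ

theorem unif_mem129 {π : v.adicCompletion K} (hπ : Valued.v π = WithZero.exp (-1 : ℤ)) :
    π ∈ v.adicCompletionIntegers K := by
  rw [mem_adicCompletionIntegers, hπ, ← WithZero.exp_zero, WithZero.exp_le_exp]
  norm_num

theorem unif_inv_not_mem129 {π : v.adicCompletion K} (hπ : Valued.v π = WithZero.exp (-1 : ℤ)) :
    π⁻¹ ∉ v.adicCompletionIntegers K := by
  rw [mem_adicCompletionIntegers, map_inv₀, hπ, ← WithZero.exp_neg, ← WithZero.exp_zero,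
    WithZero.exp_le_exp]
  norm_num

/-- The representative in `K_v` of a residue class of `𝓞 K ⧸ v`. -/
def rep129 (c : 𝓞 K ⧸ v.asIdeal) : v.adicCompletion K :=
  ((algebraMap (𝓞 K) K (Quotient.out c) : K) : v.adicCompletion K)

theorem rep129_mem (c : 𝓞 K ⧸ v.asIdeal) : rep129 v c ∈ v.adicCompletionIntegers K :=
  coe_mem_adicCompletionIntegers v _

theorem valued_rep129_sub {c c' : 𝓞 K ⧸ v.asIdeal} (h : c ≠ c') :
    Valued.v (rep129 v c' - rep129 v c) = 1 := by
  have e : rep129 v c' - rep129 v c
      = ((algebraMap (𝓞 K) K (Quotient.out c' - Quotient.out c) : K) : v.adicCompletion K) := by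
    unfold rep129
    rw [map_sub]
    exact (map_sub (algebraMap K (v.adicCompletion K)) _ _).symm
  rw [e, valuedAdicCompletion_eq_valuation']
  rw [valuation_eq_one_iff_notMem]
  intro hmem
  apply h
  have : (Ideal.Quotient.mk v.asIdeal) (Quotient.out c') = (Ideal.Quotient.mk v.asIdeal)
      (Quotient.out c) := by
    rw [Ideal.Quotient.eq]
    exact hmem
  have h1 : (Ideal.Quotient.mk v.asIdeal) (Quotient.out c) = c := Quotient.out_eq c
  have h2 : (Ideal.Quotient.mk v.asIdeal) (Quotient.out c') = c' := Quotient.out_eq c'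
  rw [h1, h2] at this
  exact this.symm

/-- The standard Hecke coset representatives, indexed by `ℙ¹(𝓞 K ⧸ v) = Option (𝓞 K ⧸ v)`. -/
def stdHecke129 (π : v.adicCompletion K) (hπ : π ≠ 0) : Option (𝓞 K ⧸ v.asIdeal) → G K
  | some c => locFin129 v (mkGL129 π (rep129 v c) 0 1 (by simpa using hπ))
  | none => locFin129 v (mkGL129 1 0 0 π (by simpa using hπ))

theorem stdHecke129_props {π : v.adicCompletion K} (hπ : Valued.v π = WithZero.exp (-1 : ℤ))
    (a : Option (𝓞 K ⧸ v.asIdeal)) :
    IsLocalAtFin v (stdHecke129 v π (unif_ne_zero129 v hπ) a) ∧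
      IsIntegralAt v (stdHecke129 v π (unif_ne_zero129 v hπ) a) ∧
      Valued.v (finComp v (stdHecke129 v π (unif_ne_zero129 v hπ) a)).det
        = WithZero.exp (-1 : ℤ) := by
  have h1 : (1 : v.adicCompletion K) ∈ v.adicCompletionIntegers K :=
    (v.adicCompletionIntegers K).one_mem
  have h0 : (0 : v.adicCompletion K) ∈ v.adicCompletionIntegers K :=
    (v.adicCompletionIntegers K).zero_mem
  cases a with
  | none =>
    refine ⟨isLocalAtFin_locFin129 v _, ?_, ?_⟩
    · rw [← isInt129_finCompHom_iff]
      simp only [stdHecke129, finCompHom129_locFin129]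
      exact isInt129_mkGL _ h1 h0 h0 (unif_mem129 v hπ)
    · simp only [stdHecke129, finComp_locFin129, coe_mkGL129, Matrix.det_fin_two_of]
      simpa using hπ
  | some c =>
    refine ⟨isLocalAtFin_locFin129 v _, ?_, ?_⟩
    · rw [← isInt129_finCompHom_iff]
      simp only [stdHecke129, finCompHom129_locFin129]
      exact isInt129_mkGL _ (unif_mem129 v hπ) (rep129_mem v c) h0 h1
    · simp only [stdHecke129, finComp_locFin129, coe_mkGL129, Matrix.det_fin_two_of]
      simpa using hπ

theorem stdHecke129_not_int {π : v.adicCompletion K} (hπ : Valued.v π = WithZero.exp (-1 : ℤ))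
    {a b : Option (𝓞 K ⧸ v.asIdeal)} (hab : a ≠ b) :
    ¬ IsIntegralAt v ((stdHecke129 v π (unif_ne_zero129 v hπ) a)⁻¹
      * stdHecke129 v π (unif_ne_zero129 v hπ) b) := by
  have hπ0 := unif_ne_zero129 v hπ
  intro hint
  rw [← isInt129_finCompHom_iff, map_mul, map_inv] at hint
  cases a with
  | none =>
    cases b with
    | none => exact hab rfl
    | some c =>
      simp only [stdHecke129, finCompHom129_locFin129] at hint
      have := hint 1 1
      rw [lower_inv_mul_upper129 hπ0] at this
      exact unif_inv_not_mem129 v hπ this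
  | some c =>
    cases b with
    | none =>
      simp only [stdHecke129, finCompHom129_locFin129] at hint
      have := hint 0 0
      rw [upper_inv_mul_lower129 hπ0] at this
      exact unif_inv_not_mem129 v hπ this
    | some c' =>
      have hcc : c ≠ c' := fun h => hab (by rw [h])
      simp only [stdHecke129, finCompHom129_locFin129] at hint
      have := hint 0 1
      rw [upper_inv_mul_upper129 hπ0, mem_adicCompletionIntegers, map_div₀,
        valued_rep129_sub v hcc, hπ, one_div, ← WithZero.exp_neg, ← WithZero.exp_zero,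
        WithZero.exp_le_exp] at this
      norm_num at this

/-- **Hecke coset systems exist.** -/
theorem exists_heckeCosetSystem129 : ∃ H : Finset (G K), IsHeckeCosetSystem v H := by
  classical
  obtain ⟨π, hπ⟩ := exists_unif129 v
  haveI : Finite (𝓞 K ⧸ v.asIdeal) := by
    apply Nat.finite_of_card_ne_zero
    rw [← Submodule.cardQuot_apply, ← Ideal.absNorm_apply]
    exact ne_of_gt (lt_trans Nat.zero_lt_one (NumberField.HeightOneSpectrum.one_lt_absNorm v))
  letI : Fintype (𝓞 K ⧸ v.asIdeal) := Fintype.ofFinite _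
  have hinj : Function.Injective (stdHecke129 v π (unif_ne_zero129 v hπ)) := by
    intro a b hab
    by_contra hne
    apply stdHecke129_not_int v hπ hne
    rw [hab, inv_mul_cancel]
    intro i j
    have : finComp v (1 : G K) = 1 := by
      rw [← coe_finCompHom129, map_one]; rfl
    rw [this]
    by_cases hij : i = j
    · subst hij; simpa using (v.adicCompletionIntegers K).one_mem
    · simpa [hij] using (v.adicCompletionIntegers K).zero_mem
  refine ⟨Finset.univ.image (stdHecke129 v π (unif_ne_zero129 v hπ)), ?_, ?_, ?_⟩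
  · rw [Finset.card_image_of_injective _ hinj, Finset.card_univ, Fintype.card_option,
      Ideal.absNorm_apply, Submodule.cardQuot_apply, Nat.card_eq_fintype_card]
  · intro h hh
    obtain ⟨a, -, rfl⟩ := Finset.mem_image.mp hh
    exact stdHecke129_props v hπ a
  · intro h hh h' hh' hne
    obtain ⟨a, -, rfl⟩ := Finset.mem_image.mp hh
    obtain ⟨b, -, rfl⟩ := Finset.mem_image.mp hh'
    exact stdHecke129_not_int v hπ (fun e => hne (by rw [e]))

/-- **Scalar uniformisers exist.** -/
theorem exists_scalarUniformizer129 : ∃ z : G K, IsScalarUniformizerAt v z := by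
  obtain ⟨π, hπ⟩ := exists_unif129 v
  have hπ0 := unif_ne_zero129 v hπ
  refine ⟨locFin129 v (mkGL129 π 0 0 π (by simpa using hπ0)), isLocalAtFin_locFin129 v _,
    π, hπ, ?_⟩
  rw [finComp_locFin129, coe_mkGL129]
  ext i j
  fin_cases i <;> fin_cases j <;> simp

end Fermat.Agent.LT.H129

end
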