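import Fermat.Agent.LT.T1.Spec
import Fermat.Agent.LT.H129.HeckeExists

/-!
# Row LT, tower T1, helper129: leaves T1.10 (`LeafIwasawaFin`) and T1.19 (`LeafHeckeCoset`)

OFF-MAIN.  Against `LT/T1/Spec.lean` of helper54 (byte-identical copy) on `LT/H556/A0.lean` of
helper556 (byte-identical copy).  Both leaves VERBATIM, unconditional, for every number field.
-/

set_option autoImplicit false

open IsDedekindDomain NumberField
open Fermat.Agent.LT.H556.A0

namespace Fermat.Agent.LT.H129

variable (K : Type) [Field K] [NumberField K]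

/-- **T1.10**: local Iwasawa decomposition at every finite place. -/
theorem leafIwasawaFin129 : Fermat.Agent.LT.T1.LeafIwasawaFin K := by
  intro v g
  obtain ⟨b, k, hg, hb, hk⟩ := iwasawa129 (v.adicCompletionIntegers K) g
  exact ⟨b, k, hb, hk.1, hk.2, hg⟩

/-- **T1.19** = `HeckeCosetC K`: Hecke coset systems exist, are full systems of representatives,
and scalar uniformisers exist. -/
theorem leafHeckeCoset129 : Fermat.Agent.LT.T1.LeafHeckeCoset K := by
  intro v
  refine ⟨exists_heckeCosetSystem129 v, ?_, exists_scalarUniformizer129 v⟩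
  intro H hH g _ hg hdet
  obtain ⟨h, hh, hint, -, -⟩ := heckeCosetSystem_complete129 hH hg hdet
  exact ⟨h, hh, hint⟩

end Fermat.Agent.LT.H129
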