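import Fermat.Agent.LT.H129.HcZReg
import Fermat.Agent.LT.T6.H830.InjTop
import Fermat.Agent.LT.T6.H830.HCClosed3
import Fermat.Agent.LT.T6.H426.FourierUniq
import Fermat.Agent.LT.T6.H848.HcZForm
import Fermat.Agent.LT.T6.H492.TorTReg
import Fermat.Agent.LT.T6.H964.AbelInj1
import Fermat.Agent.LT.T6.H792.CentAvg

/-!
# Row LT, tower T6, leaf T6.21 `T6.ArchInjC`: THE PLUG (helper129) -- OFF-MAIN

    archInjC129 : T6.ArchInjC            (VERBATIM, UNCONDITIONAL)

from the top `archInjC_of_leaves830` (helper830, `T6/H830/InjTop.lean`), `hcTransRC830`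
(helper830, `T6/H830/HCClosed3.lean`: T6.29 closed) and the leaves of the cut
`T6/H830/InjSpec.lean`, byte-identical copies of the authors' files:

* `CartanRC`           : `T6.H543.cartanRC_h543`        (helper543)
* T6.21.1 `MelFubiniC` : `H129.melFubiniC129`           (helper129)
* T6.21.2 `HcZRegC`    : `H129.hcZRegC129`              (helper129; also helper372, row 1637)
* T6.21.3 `FourierUniqC` : `T6.H426.fourierUniqC426`    (helper426)
* T6.21.4 `HcZFormC`   : `T6.H848.hcZFormC848`          (helper848)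
* T6.21.5 `TorTRegC`   : `T6.H492.torTRegC492`          (helper492)
* T6.21.6 `AbelInj1C`  : `T6.H964.abelInj1C964`         (helper964)
* T6.21.7 `CentAvgOfTorusC` : `T6.H792.centAvgOfTorusC792` (helper792)
-/

set_option autoImplicit false

noncomputable section

namespace Fermat.Agent.LT.H129

open Fermat.Agent.LT.T6 Fermat.Agent.LT.T6.H830

/-- **T6.21 `ArchInjC`**, unconditional. -/
theorem archInjC129 : ArchInjC :=
  archInjC_of_leaves830 hcTransRC830 Fermat.Agent.LT.T6.H543.cartanRC_h543 melFubiniC129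
    hcZRegC129 Fermat.Agent.LT.T6.H426.fourierUniqC426 Fermat.Agent.LT.T6.H848.hcZFormC848
    Fermat.Agent.LT.T6.H492.torTRegC492 Fermat.Agent.LT.T6.H964.abelInj1C964
    Fermat.Agent.LT.T6.H792.centAvgOfTorusC792

end Fermat.Agent.LT.H129

end
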