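import Fermat.Agent.LT.H129.HeckeCoset

/-!
# Row LT, towers T1/T2/T6 (local algebra), helper129: Hecke coset systems, indexed form

OFF-MAIN.  Mathlib only.  Complements `HeckeCoset.lean`:

* `isInt129_inv_of_det` : an integral matrix with unit determinant has an integral inverse;
* `isInt_inv_mul_symm129` : for Hecke elements `h`, `g`: `h⁻¹ g` integral ⇒ `g⁻¹ h` integral;
* `hecke_complete_fam129` : completeness for a family indexed by a `Fintype` with `#k + 1` elements.
-/

set_option autoImplicit false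

open Matrix

namespace Fermat.Agent.LT.H129

variable {F : Type*} [Field F]

theorem inv_apply129 (x : GL (Fin 2) F) (i j : Fin 2) :
    ((x⁻¹ : GL (Fin 2) F) : Matrix (Fin 2) (Fin 2) F) i j
      = (Matrix.adjugate (x : Matrix (Fin 2) (Fin 2) F)) i j
        / (x : Matrix (Fin 2) (Fin 2) F).det := by
  rw [Matrix.coe_units_inv, Matrix.inv_def, Matrix.smul_apply, smul_eq_mul,
    Ring.inverse_eq_inv', div_eq_inv_mul]

/-- An integral matrix whose determinant is a unit of `O` has an integral inverse. -/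
theorem isInt129_inv_of_det {O : ValuationSubring F} {x : GL (Fin 2) F} (hx : IsInt129 O x)
    (hdet : ((x : Matrix (Fin 2) (Fin 2) F).det)⁻¹ ∈ O) : IsInt129 O x⁻¹ := by
  intro i j
  rw [inv_apply129, div_eq_mul_inv]
  refine O.mul_mem _ _ ?_ hdet
  rw [Matrix.adjugate_fin_two]
  fin_cases i <;> fin_cases j
  · simpa using hx 1 1
  · simpa using O.neg_mem _ (hx 0 1)
  · simpa using O.neg_mem _ (hx 1 0)
  · simpa using hx 0 0

theorem valuation_det_eq129 {O : ValuationSubring F} {h g : GL (Fin 2) F}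
    (hh : IsHeckeElt129 O h) (hg : IsHeckeElt129 O g) :
    O.valuation (h : Matrix (Fin 2) (Fin 2) F).det
      = O.valuation (g : Matrix (Fin 2) (Fin 2) F).det :=
  le_antisymm (hg.2.2 _ hh.2.1) (hh.2.2 _ hg.2.1)

theorem det_ne_zero_gl129 (g : GL (Fin 2) F) : (g : Matrix (Fin 2) (Fin 2) F).det ≠ 0 := by
  have h := (Matrix.isUnit_iff_isUnit_det (g : Matrix (Fin 2) (Fin 2) F)).mp g.isUnit
  exact h.ne_zero

/-- For Hecke elements, right equivalence modulo `GL₂(O)` is symmetric. -/
theorem isInt_inv_mul_symm129 {O : ValuationSubring F} {h g : GL (Fin 2) F}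
    (hh : IsHeckeElt129 O h) (hg : IsHeckeElt129 O g) (H : IsInt129 O (h⁻¹ * g)) :
    IsInt129 O (g⁻¹ * h) := by
  have e : g⁻¹ * h = (h⁻¹ * g)⁻¹ := by group
  rw [e]
  apply isInt129_inv_of_det H
  rw [← ValuationSubring.valuation_le_one_iff, map_inv₀, Matrix.GeneralLinearGroup.coe_mul,
    Matrix.det_mul, map_mul, Matrix.coe_units_inv, Matrix.det_nonsing_inv, Ring.inverse_eq_inv',
    map_inv₀, valuation_det_eq129 hh hg]
  have hne : O.valuation (g : Matrix (Fin 2) (Fin 2) F).det ≠ 0 := by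
    rw [ne_eq, map_eq_zero]
    exact det_ne_zero_gl129 g
  rw [inv_mul_cancel₀ hne, inv_one]

/-- **Completeness of Hecke coset systems, indexed form.** -/
theorem hecke_complete_fam129 (O : ValuationSubring F) [Finite (IsLocalRing.ResidueField O)]
    {ι : Type*} [Fintype ι] (f : ι → GL (Fin 2) F)
    (hcard : Fintype.card ι = Nat.card (IsLocalRing.ResidueField O) + 1)
    (hH : ∀ i, IsHeckeElt129 O (f i))
    (hne : ∀ i j, i ≠ j → ¬ IsInt129 O ((f i)⁻¹ * f j))
    (g : GL (Fin 2) F) (hg : IsHeckeElt129 O g) :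
    ∃ i, IsInt129 O ((f i)⁻¹ * g) ∧ ∀ j, IsInt129 O ((f j)⁻¹ * g) → j = i := by
  classical
  let _ : Fintype (IsLocalRing.ResidueField O) := Fintype.ofFinite _
  let ι' : ι → Option (IsLocalRing.ResidueField O) := fun i => inv129 (hH i).1
  have hinj : Function.Injective ι' := by
    intro i j e
    by_contra hcon
    exact hne i j hcon (isInt_inv_mul_of_inv129_eq (hH i) (hH j) e)
  have hcard' : Fintype.card ι = Fintype.card (Option (IsLocalRing.ResidueField O)) := by
    rw [hcard, Fintype.card_option, Nat.card_eq_fintype_card]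
  have hbij : Function.Bijective ι' :=
    (Fintype.bijective_iff_injective_and_card ι').mpr ⟨hinj, hcard'⟩
  obtain ⟨i, hi⟩ := hbij.2 (inv129 hg.1)
  refine ⟨i, isInt_inv_mul_of_inv129_eq (hH i) hg hi, ?_⟩
  intro j hj
  by_contra hcon
  apply hne j i hcon
  have hsym : IsInt129 O (g⁻¹ * f i) :=
    isInt_inv_mul_of_inv129_eq hg (hH i) hi.symm
  have : (f j)⁻¹ * f i = ((f j)⁻¹ * g) * (g⁻¹ * f i) := by group
  rw [this]
  exact isInt129_mul hj hsym

end Fermat.Agent.LT.H129
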