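import Fermat.Agent.LT.T6.Spec
import Fermat.Agent.LT.H129.Cartan
import Fermat.Agent.LT.H129.HeckeFam

/-!
# Row LT, tower T6, helper129: the Cartan invariant of `T6/Spec.lean` classifies double cosets

OFF-MAIN.  Against `LT/T6/Spec.lean` (helper22, byte-identical copy).  `k` a field with
`Valued k ℤᵐ⁰` (no completeness, no discreteness of the residue field needed).

* `inU_zero_iff129` : `T6.InU 0 u ↔ u, u⁻¹` have integral entries;
* `cartan_mul129` : `T6.cartan (u * g * u') = T6.cartan g` for `u, u' ∈ U(0)`;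
* `exists_cartan_diag129` : every `g` is `u * diag(x, y) * u'` with `u, u' ∈ U(0)`,
  `v y ≤ v x` and `T6.cartan g = (- log (v y), - log (v x))`;
* `cartan_eq_iff129` : `T6.cartan g = T6.cartan g' ↔ ∃ u u' ∈ U(0), g' = u * g * u'`.
-/

set_option autoImplicit false

open Matrix

noncomputable section

namespace Fermat.Agent.LT.H129

open Fermat.Agent.LT.T6

variable {k : Type} [Field k] [Valued k Γ₀]

/-- The valuation ring of `k`. -/
abbrev vO129 (k : Type) [Field k] [Valued k Γ₀] : ValuationSubring k :=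
  (Valued.v : Valuation k Γ₀).valuationSubring

theorem mem_vO129 (x : k) : x ∈ vO129 k ↔ Valued.v x ≤ 1 := Iff.rfl

theorem inU_zero_iff129 (u : GL (Fin 2) k) : InU 0 u ↔ IsMaxCpt129 (vO129 k) u := by
  have h1 : ∀ i j : Fin 2, Valued.v ((1 : Matrix (Fin 2) (Fin 2) k) i j) ≤ 1 := by
    intro i j
    by_cases hij : i = j
    · subst hij; simp
    · simp [hij]
  have key : ∀ (x : k) (i j : Fin 2),
      Valued.v (x - (1 : Matrix (Fin 2) (Fin 2) k) i j) ≤ 1 ↔ Valued.v x ≤ 1 := by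
    intro x i j
    constructor
    · intro h
      have : x = (x - (1 : Matrix (Fin 2) (Fin 2) k) i j) + (1 : Matrix (Fin 2) (Fin 2) k) i j := by
        ring
      rw [this]
      exact le_trans (Valuation.map_add _ _ _) (max_le h (h1 i j))
    · intro h
      exact le_trans (Valuation.map_sub _ _ _) (max_le h (h1 i j))
  unfold InU IsMaxCpt129 IsInt129
  simp only [Nat.cast_zero, neg_zero, WithZero.exp_zero, key]
  constructor
  · intro h
    exact ⟨fun i j => (h i j).1, fun i j => (h i j).2⟩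
  · intro h i j
    exact ⟨h.1 i j, h.2 i j⟩

theorem entry_le_entryMax129 (g : GL (Fin 2) k) (i j : Fin 2) :
    Valued.v ((g : Matrix (Fin 2) (Fin 2) k) i j) ≤ entryMax g :=
  Finset.le_sup' (fun p : Fin 2 × Fin 2 => Valued.v ((g : Matrix (Fin 2) (Fin 2) k) p.1 p.2))
    (Finset.mem_univ (i, j))

theorem entryMax_le129 (g : GL (Fin 2) k) {c : Γ₀}
    (h : ∀ i j, Valued.v ((g : Matrix (Fin 2) (Fin 2) k) i j) ≤ c) : entryMax g ≤ c :=
  Finset.sup'_le _ _ (fun p _ => h p.1 p.2)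

theorem entryMax_mul_le_right129 {g u : GL (Fin 2) k} (hu : IsInt129 (vO129 k) u) :
    entryMax (g * u) ≤ entryMax g := by
  apply entryMax_le129
  intro i j
  rw [Matrix.GeneralLinearGroup.coe_mul, Matrix.mul_apply, Fin.sum_univ_two]
  refine le_trans (Valuation.map_add _ _ _) (max_le ?_ ?_)
  · rw [map_mul]
    calc Valued.v ((g : Matrix (Fin 2) (Fin 2) k) i 0) * Valued.v ((u : Matrix (Fin 2) (Fin 2) k) 0 j)
        ≤ entryMax g * 1 := mul_le_mul' (entry_le_entryMax129 g i 0) (hu 0 j)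
      _ = entryMax g := mul_one _
  · rw [map_mul]
    calc Valued.v ((g : Matrix (Fin 2) (Fin 2) k) i 1) * Valued.v ((u : Matrix (Fin 2) (Fin 2) k) 1 j)
        ≤ entryMax g * 1 := mul_le_mul' (entry_le_entryMax129 g i 1) (hu 1 j)
      _ = entryMax g := mul_one _

theorem entryMax_mul_le_left129 {g u : GL (Fin 2) k} (hu : IsInt129 (vO129 k) u) :
    entryMax (u * g) ≤ entryMax g := by
  apply entryMax_le129
  intro i j
  rw [Matrix.GeneralLinearGroup.coe_mul, Matrix.mul_apply, Fin.sum_univ_two]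
  refine le_trans (Valuation.map_add _ _ _) (max_le ?_ ?_)
  · rw [map_mul]
    calc Valued.v ((u : Matrix (Fin 2) (Fin 2) k) i 0) * Valued.v ((g : Matrix (Fin 2) (Fin 2) k) 0 j)
        ≤ 1 * entryMax g := mul_le_mul' (hu i 0) (entry_le_entryMax129 g 0 j)
      _ = entryMax g := one_mul _
  · rw [map_mul]
    calc Valued.v ((u : Matrix (Fin 2) (Fin 2) k) i 1) * Valued.v ((g : Matrix (Fin 2) (Fin 2) k) 1 j)
        ≤ 1 * entryMax g := mul_le_mul' (hu i 1) (entry_le_entryMax129 g 1 j)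
      _ = entryMax g := one_mul _

theorem entryMax_mul_right129 {g u : GL (Fin 2) k} (hu : IsMaxCpt129 (vO129 k) u) :
    entryMax (g * u) = entryMax g := by
  apply le_antisymm (entryMax_mul_le_right129 hu.1)
  have := entryMax_mul_le_right129 (g := g * u) hu.2
  rwa [mul_inv_cancel_right] at this

theorem entryMax_mul_left129 {g u : GL (Fin 2) k} (hu : IsMaxCpt129 (vO129 k) u) :
    entryMax (u * g) = entryMax g := by
  apply le_antisymm (entryMax_mul_le_left129 hu.1)
  have := entryMax_mul_le_left129 (g := u * g) hu.2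
  rwa [inv_mul_cancel_left] at this

theorem valued_det_of_isMaxCpt129 {u : GL (Fin 2) k} (hu : IsMaxCpt129 (vO129 k) u) :
    Valued.v (u : Matrix (Fin 2) (Fin 2) k).det = 1 := by
  have h1 : Valued.v (u : Matrix (Fin 2) (Fin 2) k).det ≤ 1 := det_mem_of_isInt129 hu.1
  have h2 : Valued.v ((u⁻¹ : GL (Fin 2) k) : Matrix (Fin 2) (Fin 2) k).det ≤ 1 :=
    det_mem_of_isInt129 hu.2
  have h3 : (u : Matrix (Fin 2) (Fin 2) k).det
      * ((u⁻¹ : GL (Fin 2) k) : Matrix (Fin 2) (Fin 2) k).det = 1 := by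
    rw [← Matrix.det_mul, ← Matrix.GeneralLinearGroup.coe_mul, mul_inv_cancel]
    simp
  have h4 := congrArg (Valued.v : k → Γ₀) h3
  rw [map_mul, map_one] at h4
  refine le_antisymm h1 ?_
  by_contra hlt
  rw [not_le] at hlt
  have : Valued.v (u : Matrix (Fin 2) (Fin 2) k).det
      * Valued.v ((u⁻¹ : GL (Fin 2) k) : Matrix (Fin 2) (Fin 2) k).det < 1 := by
    calc _ ≤ Valued.v (u : Matrix (Fin 2) (Fin 2) k).det * 1 := mul_le_mul' le_rfl h2
      _ = Valued.v (u : Matrix (Fin 2) (Fin 2) k).det := mul_one _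
      _ < 1 := hlt
  rw [h4] at this
  exact lt_irrefl _ this

/-- The Cartan invariant is bi-invariant under `U(0) = GL₂(𝒪)`. -/
theorem cartan_mul129 {g u u' : GL (Fin 2) k} (hu : InU 0 u) (hu' : InU 0 u') :
    cartan (u * g * u') = cartan g := by
  rw [inU_zero_iff129] at hu hu'
  unfold cartan
  rw [entryMax_mul_right129 hu', entryMax_mul_left129 hu, Matrix.GeneralLinearGroup.coe_mul,
    Matrix.GeneralLinearGroup.coe_mul, Matrix.det_mul, Matrix.det_mul, map_mul, map_mul,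
    valued_det_of_isMaxCpt129 hu, valued_det_of_isMaxCpt129 hu', one_mul, mul_one]

theorem entryMax_diag129 {x y : k} (hx : x ≠ 0) (hy : y ≠ 0) (hxy : Valued.v y ≤ Valued.v x) :
    entryMax (diag129 x y hx hy) = Valued.v x := by
  apply le_antisymm
  · apply entryMax_le129
    intro i j
    fin_cases i <;> fin_cases j <;> simp [diag129, hxy]
  · have := entry_le_entryMax129 (diag129 x y hx hy) 0 0
    simpa [diag129] using this

theorem cartan_diag129 {x y : k} (hx : x ≠ 0) (hy : y ≠ 0) (hxy : Valued.v y ≤ Valued.v x) :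
    cartan (diag129 x y hx hy) = (- WithZero.log (Valued.v y), - WithZero.log (Valued.v x)) := by
  have hvx : Valued.v x ≠ 0 := by rwa [ne_eq, map_eq_zero]
  have hvy : Valued.v y ≠ 0 := by rwa [ne_eq, map_eq_zero]
  unfold cartan
  rw [entryMax_diag129 hx hy hxy]
  have hdet : ((diag129 x y hx hy : GL (Fin 2) k) : Matrix (Fin 2) (Fin 2) k).det = x * y := by
    simp [diag129, Matrix.det_fin_two_of]
  rw [hdet, map_mul, WithZero.log_mul hvx hvy]
  ext
  · simp
  · simp

theorem div_mem_vO_iff129 {x y : k} (hx : x ≠ 0) :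
    y / x ∈ vO129 k ↔ Valued.v y ≤ Valued.v x := by
  have hvx : Valued.v x ≠ 0 := by rwa [ne_eq, map_eq_zero]
  rw [mem_vO129, map_div₀, div_le_one₀ (zero_lt_iff.mpr hvx)]

/-- **Cartan decomposition with the Cartan invariant of `T6/Spec.lean`.** -/
theorem exists_cartan_diag129 (g : GL (Fin 2) k) :
    ∃ (u u' : GL (Fin 2) k) (x y : k) (hx : x ≠ 0) (hy : y ≠ 0),
      InU 0 u ∧ InU 0 u' ∧ Valued.v y ≤ Valued.v x ∧ g = u * diag129 x y hx hy * u' ∧
      cartan g = (- WithZero.log (Valued.v y), - WithZero.log (Valued.v x)) := by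
  obtain ⟨k₁, k₂, x, y, hx, hy, h1, h2, hxy, hg⟩ := cartan129 (vO129 k) g
  have hxy' : Valued.v y ≤ Valued.v x := (div_mem_vO_iff129 hx).mp hxy
  refine ⟨k₁, k₂, x, y, hx, hy, (inU_zero_iff129 _).mpr h1, (inU_zero_iff129 _).mpr h2, hxy',
    hg, ?_⟩
  rw [hg, cartan_mul129 ((inU_zero_iff129 _).mpr h1) ((inU_zero_iff129 _).mpr h2),
    cartan_diag129 hx hy hxy']

theorem inU_zero_mul129 {u u' : GL (Fin 2) k} (hu : InU 0 u) (hu' : InU 0 u') :
    InU 0 (u * u') := by
  rw [inU_zero_iff129] at *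
  exact isMaxCpt129_mul hu hu'

theorem inU_zero_inv129 {u : GL (Fin 2) k} (hu : InU 0 u) : InU 0 u⁻¹ := by
  rw [inU_zero_iff129] at *
  exact isMaxCpt129_inv hu

theorem log_inj129 {a b : Γ₀} (ha : a ≠ 0) (hb : b ≠ 0)
    (h : WithZero.log a = WithZero.log b) : a = b :=
  le_antisymm ((WithZero.log_le_log ha hb).mp h.le) ((WithZero.log_le_log hb ha).mp h.ge)

omit [Valued k Γ₀] in
theorem diag129_mul (x y x' y' : k) (hx : x ≠ 0) (hy : y ≠ 0) (hx' : x' ≠ 0) (hy' : y' ≠ 0) :
    diag129 x y hx hy * diag129 x' y' hx' hy'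
      = diag129 (x * x') (y * y') (mul_ne_zero hx hx') (mul_ne_zero hy hy') := by
  apply ext_mat129
  simp only [diag129, Matrix.GeneralLinearGroup.coe_mul, coe_mkGL129]
  ext i j
  fin_cases i <;> fin_cases j <;> simp [Matrix.mul_apply, Fin.sum_univ_two]

omit [Valued k Γ₀] in
theorem diag129_congr {x y x' y' : k} (hx : x ≠ 0) (hy : y ≠ 0) (hx' : x' ≠ 0) (hy' : y' ≠ 0)
    (ex : x = x') (ey : y = y') : diag129 x y hx hy = diag129 x' y' hx' hy' := by
  subst ex; subst ey; rfl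

theorem isMaxCpt129_diag_unit {x y : k} (hx : x ≠ 0) (hy : y ≠ 0) (hvx : Valued.v x = 1)
    (hvy : Valued.v y = 1) : IsMaxCpt129 (vO129 k) (diag129 x y hx hy) := by
  have h0 : (0 : k) ∈ vO129 k := (vO129 k).zero_mem
  refine ⟨isInt129_mkGL _ ((mem_vO129 x).mpr hvx.le) h0 h0 ((mem_vO129 y).mpr hvy.le), ?_⟩
  apply isInt129_inv_of_det (isInt129_mkGL _ ((mem_vO129 x).mpr hvx.le) h0 h0
    ((mem_vO129 y).mpr hvy.le))
  rw [mem_vO129, map_inv₀]
  have : ((diag129 x y hx hy : GL (Fin 2) k) : Matrix (Fin 2) (Fin 2) k).det = x * y := by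
    simp [diag129, Matrix.det_fin_two_of]
  have hd : Valued.v ((mkGL129 x 0 0 y (by simpa using mul_ne_zero hx hy) : GL (Fin 2) k) :
      Matrix (Fin 2) (Fin 2) k).det = 1 := by
    have h2 : ((mkGL129 x 0 0 y (by simpa using mul_ne_zero hx hy) : GL (Fin 2) k) :
        Matrix (Fin 2) (Fin 2) k).det = x * y := this
    rw [h2, map_mul, hvx, hvy, mul_one]
  rw [hd, inv_one]

/-- **The Cartan invariant classifies the double cosets of `GL₂(𝒪)`.** -/
theorem cartan_eq_iff129 (g g' : GL (Fin 2) k) :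
    cartan g = cartan g' ↔ ∃ u u' : GL (Fin 2) k, InU 0 u ∧ InU 0 u' ∧ g' = u * g * u' := by
  constructor
  · intro h
    obtain ⟨u₁, u₂, x, y, hx, hy, hu₁, hu₂, hxy, hg, hc⟩ := exists_cartan_diag129 g
    obtain ⟨u₁', u₂', x', y', hx', hy', hu₁', hu₂', hxy', hg', hc'⟩ := exists_cartan_diag129 g'
    rw [hc, hc'] at h
    have hvx : Valued.v x ≠ 0 := by rwa [ne_eq, map_eq_zero]
    have hvy : Valued.v y ≠ 0 := by rwa [ne_eq, map_eq_zero]
    have hvx' : Valued.v x' ≠ 0 := by rwa [ne_eq, map_eq_zero]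
    have hvy' : Valued.v y' ≠ 0 := by rwa [ne_eq, map_eq_zero]
    have e1 : Valued.v y = Valued.v y' :=
      log_inj129 hvy hvy' (neg_injective (congrArg Prod.fst h))
    have e2 : Valued.v x = Valued.v x' :=
      log_inj129 hvx hvx' (neg_injective (congrArg Prod.snd h))
    have hux : Valued.v (x' / x) = 1 := by rw [map_div₀, ← e2, div_self hvx]
    have huy : Valued.v (y' / y) = 1 := by rw [map_div₀, ← e1, div_self hvy]
    have hd := isMaxCpt129_diag_unit (div_ne_zero hx' hx) (div_ne_zero hy' hy) hux huy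
    have hdd : diag129 x' y' hx' hy' = diag129 x y hx hy
        * diag129 (x' / x) (y' / y) (div_ne_zero hx' hx) (div_ne_zero hy' hy) := by
      rw [diag129_mul]
      exact diag129_congr _ _ _ _ (by field_simp) (by field_simp)
    refine ⟨u₁' * u₁⁻¹, u₂⁻¹ * (diag129 (x' / x) (y' / y) (div_ne_zero hx' hx)
      (div_ne_zero hy' hy) * u₂'), inU_zero_mul129 hu₁' (inU_zero_inv129 hu₁),
      inU_zero_mul129 (inU_zero_inv129 hu₂)
        (inU_zero_mul129 ((inU_zero_iff129 _).mpr hd) hu₂'), ?_⟩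
    have hg2 : diag129 x y hx hy = u₁⁻¹ * g * u₂⁻¹ := by rw [hg]; group
    rw [hg', hdd, hg2]
    group
  · rintro ⟨u, u', hu, hu', rfl⟩
    exact (cartan_mul129 hu hu').symm

end Fermat.Agent.LT.H129

end
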