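import Fermat.Agent.LT.H556.A0

/-!
# Row LT, tower T1, helper129: components of `GL₂(𝔸_K)` and local elements (A0 vocabulary)

OFF-MAIN.  On `LT/H556/A0.lean` (helper556, byte-identical copy).  General number field `K`.

* `evF129 v : 𝔸_K →+* K_v`, `evI129 w : 𝔸_K →+* K_w` — the component ring homs;
  `adele_ext129` — an adele is determined by its components;
* `finCompHom129 v : G K →* GL₂(K_v)` with matrix `A0.finComp v g`;
* `locFin129 v : GL₂(K_v) →* G K` — the element with matrix `x` at `v` and `1` elsewhere;
  `isLocalAtFin_locFin129`, `finComp_locFin129`, and `eq_locFin129_of_isLocalAtFin`.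
-/

set_option autoImplicit false

open IsDedekindDomain NumberField
open Fermat.Agent.LT.H556.A0

noncomputable section

namespace Fermat.Agent.LT.H129

variable {K : Type} [Field K] [NumberField K]

/-- The component at the finite place `v`. -/
def evF129 (v : HeightOneSpectrum (𝓞 K)) : Adl K →+* v.adicCompletion K :=
  (RestrictedProduct.evalRingHom (fun v : HeightOneSpectrum (𝓞 K) => v.adicCompletion K) v).comp
    (RingHom.snd _ _)

/-- The component at the infinite place `w`. -/
def evI129 (w : InfinitePlace K) : Adl K →+* w.Completion :=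
  (Pi.evalRingHom (fun w : InfinitePlace K => w.Completion) w).comp (RingHom.fst _ _)

@[simp] theorem evF129_apply (v : HeightOneSpectrum (𝓞 K)) (x : Adl K) : evF129 v x = x.2 v := rfl

@[simp] theorem evI129_apply (w : InfinitePlace K) (x : Adl K) : evI129 w x = x.1 w := rfl

/-- An adele is determined by its components. -/
theorem adele_ext129 {x y : Adl K} (hI : ∀ w : InfinitePlace K, x.1 w = y.1 w)
    (hF : ∀ v : HeightOneSpectrum (𝓞 K), x.2 v = y.2 v) : x = y :=
  Prod.ext (funext hI) (RestrictedProduct.ext _ _ hF)

/-- A matrix over the adeles is determined by its components. -/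
theorem adeleMatrix_ext129 {A B : Matrix (Fin 2) (Fin 2) (Adl K)}
    (hI : ∀ w : InfinitePlace K, A.map (evI129 w) = B.map (evI129 w))
    (hF : ∀ v : HeightOneSpectrum (𝓞 K), A.map (evF129 v) = B.map (evF129 v)) : A = B := by
  refine Matrix.ext fun i j => adele_ext129 (fun w => ?_) (fun v => ?_)
  · exact congrFun (congrFun (hI w) i) j
  · exact congrFun (congrFun (hF v) i) j

/-- The component of `g ∈ GL₂(𝔸_K)` at the finite place `v`, as a group homomorphism. -/
def finCompHom129 (v : HeightOneSpectrum (𝓞 K)) : G K →* GL (Fin 2) (v.adicCompletion K) :=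
  Matrix.GeneralLinearGroup.map (evF129 v)

/-- The component of `g ∈ GL₂(𝔸_K)` at the infinite place `w`, as a group homomorphism. -/
def infCompHom129 (w : InfinitePlace K) : G K →* GL (Fin 2) w.Completion :=
  Matrix.GeneralLinearGroup.map (evI129 w)

theorem coe_finCompHom129 (v : HeightOneSpectrum (𝓞 K)) (g : G K) :
    ((finCompHom129 v g : GL (Fin 2) (v.adicCompletion K)) :
      Matrix (Fin 2) (Fin 2) (v.adicCompletion K)) = finComp v g := rfl

theorem coe_finCompHom129_map (v : HeightOneSpectrum (𝓞 K)) (g : G K) :
    ((finCompHom129 v g : GL (Fin 2) (v.adicCompletion K)) :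
      Matrix (Fin 2) (Fin 2) (v.adicCompletion K))
      = (g : Matrix (Fin 2) (Fin 2) (Adl K)).map (evF129 v) := rfl

theorem coe_infCompHom129_map (w : InfinitePlace K) (g : G K) :
    ((infCompHom129 w g : GL (Fin 2) w.Completion) : Matrix (Fin 2) (Fin 2) w.Completion)
      = (g : Matrix (Fin 2) (Fin 2) (Adl K)).map (evI129 w) := rfl

theorem trivAtFin_iff129 (v : HeightOneSpectrum (𝓞 K)) (g : G K) :
    TrivAtFin v g ↔ finCompHom129 v g = 1 := by
  unfold TrivAtFin
  rw [← coe_finCompHom129]
  constructor
  · intro h; exact Units.ext h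
  · intro h; rw [h]; rfl

theorem trivAtInf_iff129 (w : InfinitePlace K) (g : G K) :
    TrivAtInf w g ↔ infCompHom129 w g = 1 := by
  unfold TrivAtInf
  constructor
  · intro h
    apply Units.ext
    exact Matrix.ext fun i j => h i j
  · intro h i j
    have := congrArg (fun u : GL (Fin 2) w.Completion =>
      (u : Matrix (Fin 2) (Fin 2) w.Completion) i j) h
    exact this

/-- An element of `G K` is determined by its components. -/
theorem G_ext129 {g h : G K} (hI : ∀ w : InfinitePlace K, infCompHom129 w g = infCompHom129 w h)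
    (hF : ∀ v : HeightOneSpectrum (𝓞 K), finCompHom129 v g = finCompHom129 v h) : g = h := by
  apply Units.ext
  apply adeleMatrix_ext129
  · intro w
    have := congrArg (fun u : GL (Fin 2) w.Completion =>
      (u : Matrix (Fin 2) (Fin 2) w.Completion)) (hI w)
    exact this
  · intro v
    have := congrArg (fun u : GL (Fin 2) (v.adicCompletion K) =>
      (u : Matrix (Fin 2) (Fin 2) (v.adicCompletion K))) (hF v)
    exact this

theorem isIntegralAt_iff129 (v : HeightOneSpectrum (𝓞 K)) (g : G K) :
    IsIntegralAt v g ↔ ∀ i j, ((finCompHom129 v g : GL (Fin 2) (v.adicCompletion K)) :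
      Matrix (Fin 2) (Fin 2) (v.adicCompletion K)) i j ∈ v.adicCompletionIntegers K :=
  Iff.rfl

end Fermat.Agent.LT.H129

end
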