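import Fermat.Agent.LT.H129.EllParamSpec
import Fermat.Agent.LT.H129.CartanInv

/-!
# Row LT, tower T6, leaf T6.14b `EllParamC` (helper129): basic formulas -- OFF-MAIN

The quadratic algebra `E = k[Π]`, `Π² = τ Π - ν`, inside `M₂(k)`: `e(a, b) = embMat τ ν a b`.

* `embMat_mul129`, `embMat_comm129`, `det_embMat129`, `trace_embMat129`, `embMat_map129`;
* `cent_embMat129`: the centraliser of `e(α, β)`, `β ≠ 0`, is `{e(a, b)}`;
* `val_norm129`: `|a² + τ a b + ν b²| = max(|a|², exp(-1) |b|²)` for `|ν| = exp(-1)`, `|τ| < 1`;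
* `val_norm_eq_one_iff129`: `|N(a, b)| = 1 ↔ |a| = 1 ∧ |b| ≤ 1`;
* `latMat_eq129`, `det_latMat129`, `coe_latGL129`.
-/

set_option autoImplicit false

open scoped Matrix

noncomputable section

namespace Fermat.Agent.LT.H129

open Fermat.Agent.LT.T6 Fermat.Agent.LT.T6.H847

section Alg

variable {F : Type} [Field F] (τ ν : F)

theorem embMat_mul129 (a b c d : F) :
    embMat τ ν a b * embMat τ ν c d
      = embMat τ ν (a * c - ν * b * d) (a * d + b * c + τ * b * d) := by
  ext i j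
  fin_cases i <;> fin_cases j <;>
    simp [embMat, Matrix.mul_apply, Fin.sum_univ_two] <;> ring

theorem embMat_comm129 (a b c d : F) :
    embMat τ ν a b * embMat τ ν c d = embMat τ ν c d * embMat τ ν a b := by
  rw [embMat_mul129, embMat_mul129]
  congr 1 <;> ring

theorem det_embMat129 (a b : F) :
    (embMat τ ν a b).det = a ^ 2 + τ * a * b + ν * b ^ 2 := by
  simp [embMat, Matrix.det_fin_two]
  ring

theorem trace_embMat129 (a b : F) : (embMat τ ν a b).trace = 2 * a + τ * b := by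
  simp [embMat, Matrix.trace_fin_two]
  ring

theorem embMat_one129 : embMat τ ν 1 0 = (1 : Matrix (Fin 2) (Fin 2) F) := by
  ext i j
  fin_cases i <;> fin_cases j <;> simp [embMat]

theorem embMat_map129 {F' : Type} [Field F'] (i : F →+* F') (a b : F) :
    (embMat τ ν a b).map i = embMat (i τ) (i ν) (i a) (i b) := by
  ext r c
  fin_cases r <;> fin_cases c <;> simp [embMat]

theorem embMat_inj129 {a b c d : F} (h : embMat τ ν a b = embMat τ ν c d) : a = c ∧ b = d := by
  have h0 := congrFun (congrFun h 0) 0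
  have h1 := congrFun (congrFun h 1) 0
  simp [embMat] at h0 h1
  exact ⟨h0, h1⟩

/-- The centraliser of `e(α, β)`, `β ≠ 0`, consists of the `e(a, b)`. -/
theorem cent_embMat129 {α β : F} (hβ : β ≠ 0) (M : Matrix (Fin 2) (Fin 2) F)
    (h : M * embMat τ ν α β = embMat τ ν α β * M) :
    M = embMat τ ν (M 0 0) (M 1 0) := by
  have h00 := congrFun (congrFun h 0) 0
  have h10 := congrFun (congrFun h 1) 0
  simp [embMat, Matrix.mul_apply, Fin.sum_univ_two] at h00 h10
  -- h00 : M 0 0 * α + M 0 1 * β = α * M 0 0 + -(ν * β) * M 1 0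
  -- h10 : M 1 0 * α + M 1 1 * β = β * M 0 0 + (α + τ * β) * M 1 0
  have e01 : M 0 1 = -(ν * M 1 0) := by
    have : β * (M 0 1 + ν * M 1 0) = 0 := by linear_combination h00
    rcases mul_eq_zero.mp this with h' | h'
    · exact absurd h' hβ
    · linear_combination h'
  have e11 : M 1 1 = M 0 0 + τ * M 1 0 := by
    have : β * (M 1 1 - M 0 0 - τ * M 1 0) = 0 := by linear_combination h10
    rcases mul_eq_zero.mp this with h' | h'
    · exact absurd h' hβ
    · linear_combination h'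
  ext i j
  fin_cases i <;> fin_cases j <;> simp [embMat, e01, e11]

theorem latMat_eq129 (n : ℕ) (ξ : F) :
    latMat τ ν n ξ = embMat τ ν 1 ξ * !![1, 0; 0, ν ^ n] := by
  ext i j
  fin_cases i <;> fin_cases j <;>
    simp [latMat, embMat, Matrix.mul_apply, Fin.sum_univ_two]
  ring

theorem det_latMat129 (n : ℕ) (ξ : F) :
    (latMat τ ν n ξ).det = ν ^ n * (1 + τ * ξ + ν * ξ ^ 2) := by
  simp [latMat, Matrix.det_fin_two]
  ring

end Alg

section Val

variable {k : Type} [Field k] [Valued k Γ₀] {τ ν : k}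

/-- Discreteness of `ℤᵐ⁰`: `x < y` implies `x ≤ exp(-1) y`. -/
theorem le_exp_mul_of_lt129 {x y : Γ₀} (h : x < y) : x ≤ WithZero.exp (-1 : ℤ) * y := by
  have hy : y ≠ 0 := fun h0 => by rw [h0] at h; exact absurd h (not_lt.mpr zero_le)
  by_cases hx : x = 0
  · rw [hx]; exact zero_le
  · have h1 : WithZero.log x < WithZero.log y := (WithZero.log_lt_log hx hy).mpr h
    have h2 : WithZero.exp (-1 : ℤ) * y ≠ 0 := mul_ne_zero WithZero.exp_ne_zero hy
    rw [← WithZero.log_le_log hx h2, WithZero.log_mul WithZero.exp_ne_zero hy, WithZero.log_exp]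
    omega

/-- The valuation of the norm form: `|a² + τ a b + ν b²| = max(|a|², exp(-1) |b|²)`. -/
theorem val_norm129 (hν : Valued.v ν = WithZero.exp (-1 : ℤ)) (hτ : Valued.v τ < 1) (a b : k) :
    Valued.v (a ^ 2 + τ * a * b + ν * b ^ 2)
      = max (Valued.v a ^ 2) (WithZero.exp (-1 : ℤ) * Valued.v b ^ 2) := by
  have hτ' : Valued.v τ ≤ WithZero.exp (-1 : ℤ) := by
    simpa using le_exp_mul_of_lt129 hτ
  have he1 : (WithZero.exp (-1 : ℤ) : Γ₀) < 1 := by
    rw [← WithZero.exp_zero]; exact WithZero.exp_lt_exp.mpr (by norm_num)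
  have he0 : (0 : Γ₀) < WithZero.exp (-1 : ℤ) := WithZero.exp_pos
  rcases le_or_gt (Valued.v b) (Valued.v a) with hba | hab
  · -- `|b| ≤ |a|`
    by_cases ha : a = 0
    · have hb : b = 0 := by
        rw [ha, map_zero] at hba
        exact (map_eq_zero _).mp (le_antisymm hba zero_le)
      simp [ha, hb]
    have ha0 : (0 : Γ₀) < Valued.v a := zero_lt_iff.mpr ((map_ne_zero _).mpr ha)
    have hZ : WithZero.exp (-1 : ℤ) * Valued.v b ^ 2 < Valued.v a ^ 2 := by
      calc WithZero.exp (-1 : ℤ) * Valued.v b ^ 2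
          ≤ WithZero.exp (-1 : ℤ) * Valued.v a ^ 2 :=
            mul_le_mul' le_rfl (pow_le_pow_left' hba 2)
        _ < 1 * Valued.v a ^ 2 :=
            mul_lt_mul_of_pos_right he1 (pow_pos ha0 2)
        _ = Valued.v a ^ 2 := one_mul _
    have hY : Valued.v (τ * a * b) < Valued.v a ^ 2 := by
      rw [map_mul, map_mul, sq]
      calc Valued.v τ * Valued.v a * Valued.v b
          ≤ Valued.v τ * Valued.v a * Valued.v a := mul_le_mul' le_rfl hba
        _ = Valued.v τ * (Valued.v a * Valued.v a) := mul_assoc _ _ _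
        _ < 1 * (Valued.v a * Valued.v a) :=
            mul_lt_mul_of_pos_right hτ (mul_pos ha0 ha0)
        _ = Valued.v a * Valued.v a := one_mul _
    have hYZ : Valued.v (τ * a * b + ν * b ^ 2) < Valued.v (a ^ 2) := by
      rw [map_pow]
      refine lt_of_le_of_lt (Valuation.map_add _ _ _) (max_lt hY ?_)
      rw [map_mul, map_pow, hν]; exact hZ
    rw [max_eq_left hZ.le, add_assoc, Valuation.map_add_eq_of_lt_left _ hYZ, map_pow]
  · -- `|a| < |b|`
    have hb0 : (0 : Γ₀) < Valued.v b := lt_of_le_of_lt zero_le hab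
    have hab' : Valued.v a ≤ WithZero.exp (-1 : ℤ) * Valued.v b := le_exp_mul_of_lt129 hab
    have hZ : Valued.v (ν * b ^ 2) = WithZero.exp (-1 : ℤ) * Valued.v b ^ 2 := by
      rw [map_mul, map_pow, hν]
    have hpos : (0 : Γ₀) < WithZero.exp (-1 : ℤ) * Valued.v b ^ 2 :=
      mul_pos he0 (pow_pos hb0 2)
    have hX : Valued.v a ^ 2 < WithZero.exp (-1 : ℤ) * Valued.v b ^ 2 := by
      calc Valued.v a ^ 2 ≤ (WithZero.exp (-1 : ℤ) * Valued.v b) ^ 2 := pow_le_pow_left' hab' 2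
        _ = WithZero.exp (-1 : ℤ) * (WithZero.exp (-1 : ℤ) * Valued.v b ^ 2) := by
            rw [mul_pow, sq, sq, mul_assoc]
        _ < 1 * (WithZero.exp (-1 : ℤ) * Valued.v b ^ 2) :=
            mul_lt_mul_of_pos_right he1 hpos
        _ = WithZero.exp (-1 : ℤ) * Valued.v b ^ 2 := one_mul _
    have hY : Valued.v (τ * a * b) < WithZero.exp (-1 : ℤ) * Valued.v b ^ 2 := by
      rw [map_mul, map_mul]
      calc Valued.v τ * Valued.v a * Valued.v b
          ≤ WithZero.exp (-1 : ℤ) * (WithZero.exp (-1 : ℤ) * Valued.v b) * Valued.v b :=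
            mul_le_mul' (mul_le_mul' hτ' hab') le_rfl
        _ = WithZero.exp (-1 : ℤ) * (WithZero.exp (-1 : ℤ) * Valued.v b ^ 2) := by
            rw [sq, mul_assoc, mul_assoc]
        _ < 1 * (WithZero.exp (-1 : ℤ) * Valued.v b ^ 2) :=
            mul_lt_mul_of_pos_right he1 hpos
        _ = WithZero.exp (-1 : ℤ) * Valued.v b ^ 2 := one_mul _
    have hXY : Valued.v (a ^ 2 + τ * a * b) < Valued.v (ν * b ^ 2) := by
      rw [hZ]
      refine lt_of_le_of_lt (Valuation.map_add _ _ _) (max_lt ?_ hY)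
      rw [map_pow]; exact hX
    rw [max_eq_right hX.le, Valuation.map_add_eq_of_lt_right _ hXY, hZ]

/-- `|N(a, b)| = 1 ↔ |a| = 1 ∧ |b| ≤ 1`. -/
theorem val_norm_eq_one_iff129 (hν : Valued.v ν = WithZero.exp (-1 : ℤ))
    (hτ : Valued.v τ < 1) (a b : k) :
    Valued.v (a ^ 2 + τ * a * b + ν * b ^ 2) = 1 ↔ Valued.v a = 1 ∧ Valued.v b ≤ 1 := by
  have he1 : (WithZero.exp (-1 : ℤ) : Γ₀) < 1 := by
    rw [← WithZero.exp_zero]; exact WithZero.exp_lt_exp.mpr (by norm_num)
  rw [val_norm129 hν hτ]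
  constructor
  · intro h
    have h1 : Valued.v a ^ 2 ≤ 1 := h ▸ le_max_left _ _
    have h2 : WithZero.exp (-1 : ℤ) * Valued.v b ^ 2 ≤ 1 := h ▸ le_max_right _ _
    have ha : Valued.v a ≤ 1 := by
      by_contra hcon
      rw [not_le] at hcon
      exact absurd h1 (not_le.mpr (one_lt_pow' hcon (by norm_num)))
    have hb : Valued.v b ≤ 1 := by
      by_contra hcon
      rw [not_le] at hcon
      have h3 : WithZero.exp (1 : ℤ) ≤ Valued.v b := by
        have := le_exp_mul_of_lt129 hcon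
        have h4 : WithZero.exp (1 : ℤ) * 1 ≤ WithZero.exp (1 : ℤ)
            * (WithZero.exp (-1 : ℤ) * Valued.v b) := mul_le_mul' le_rfl this
        rwa [mul_one, ← mul_assoc, ← WithZero.exp_add, add_neg_cancel, WithZero.exp_zero,
          one_mul] at h4
      have h5 : WithZero.exp (-1 : ℤ) * WithZero.exp (1 : ℤ) ^ 2
          ≤ WithZero.exp (-1 : ℤ) * Valued.v b ^ 2 :=
        mul_le_mul' le_rfl (pow_le_pow_left' h3 2)
      have h6 : WithZero.exp (-1 : ℤ) * WithZero.exp (1 : ℤ) ^ 2 = WithZero.exp (1 : ℤ) := by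
        rw [sq, ← WithZero.exp_add, ← WithZero.exp_add]; norm_num
      rw [h6] at h5
      have h7 : (1 : Γ₀) < WithZero.exp (1 : ℤ) := by
        rw [← WithZero.exp_zero]; exact WithZero.exp_lt_exp.mpr (by norm_num)
      exact absurd (le_trans h5 h2) (not_le.mpr h7)
    refine ⟨?_, hb⟩
    by_contra hne
    have halt : Valued.v a < 1 := lt_of_le_of_ne ha hne
    have h3 : Valued.v a ^ 2 < 1 := pow_lt_one₀ zero_le halt (by norm_num)
    have h4 : WithZero.exp (-1 : ℤ) * Valued.v b ^ 2 < 1 := by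
      calc WithZero.exp (-1 : ℤ) * Valued.v b ^ 2
          ≤ WithZero.exp (-1 : ℤ) * 1 := mul_le_mul' le_rfl (pow_le_one₀ zero_le hb)
        _ = WithZero.exp (-1 : ℤ) := mul_one _
        _ < 1 := he1
    exact absurd h (ne_of_lt (max_lt h3 h4))
  · rintro ⟨ha, hb⟩
    rw [ha, one_pow]
    apply max_eq_left
    calc WithZero.exp (-1 : ℤ) * Valued.v b ^ 2
        ≤ WithZero.exp (-1 : ℤ) * 1 := mul_le_mul' le_rfl (pow_le_one₀ zero_le hb)
      _ = WithZero.exp (-1 : ℤ) := mul_one _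
      _ ≤ 1 := he1.le

/-- `N(1, ξ) = 1 + τ ξ + ν ξ²` is a unit for `ξ` integral. -/
theorem val_norm_one129 (hν : Valued.v ν = WithZero.exp (-1 : ℤ)) (hτ : Valued.v τ < 1)
    {ξ : k} (hξ : Valued.v ξ ≤ 1) : Valued.v (1 + τ * ξ + ν * ξ ^ 2) = 1 := by
  have := (val_norm_eq_one_iff129 hν hτ 1 ξ).mpr ⟨map_one _, hξ⟩
  simpa using this

theorem ν_ne_zero129 (hν : Valued.v ν = WithZero.exp (-1 : ℤ)) : ν ≠ 0 := by
  intro h
  rw [h, map_zero] at hν
  exact WithZero.exp_ne_zero hν.symm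

theorem det_latMat_ne_zero129 (hν : Valued.v ν = WithZero.exp (-1 : ℤ)) (hτ : Valued.v τ < 1)
    (n : ℕ) {ξ : k} (hξ : Valued.v ξ ≤ 1) : (latMat τ ν n ξ).det ≠ 0 := by
  rw [det_latMat129]
  refine mul_ne_zero (pow_ne_zero n (ν_ne_zero129 hν)) ?_
  intro h
  have := val_norm_one129 hν hτ hξ
  rw [h, map_zero] at this
  exact zero_ne_one this

theorem coe_latGL129 (hν : Valued.v ν = WithZero.exp (-1 : ℤ)) (hτ : Valued.v τ < 1)
    (n : ℕ) {ξ : k} (hξ : Valued.v ξ ≤ 1) :
    ((latGL τ ν n ξ : GL (Fin 2) k) : Matrix (Fin 2) (Fin 2) k) = latMat τ ν n ξ := by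
  unfold latGL
  rw [dif_pos (det_latMat_ne_zero129 hν hτ n hξ)]
  rfl

theorem val_det_latGL129 (hν : Valued.v ν = WithZero.exp (-1 : ℤ)) (hτ : Valued.v τ < 1)
    (n : ℕ) {ξ : k} (hξ : Valued.v ξ ≤ 1) :
    Valued.v ((latGL τ ν n ξ : GL (Fin 2) k) : Matrix (Fin 2) (Fin 2) k).det
      = WithZero.exp (-(n : ℤ)) := by
  rw [coe_latGL129 hν hτ n hξ, det_latMat129, map_mul, map_pow, hν, val_norm_one129 hν hτ hξ,
    mul_one, ← WithZero.exp_nsmul]
  congr 1
  simp

end Val

end Fermat.Agent.LT.H129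

end
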