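import Fermat.Agent.LT.T6.H847.EllRamSpec

/-!
# Row LT, tower T6, leaf T6.14b `EllParamC` (owner helper129): THE CUT -- OFF-MAIN

Definitions only (frozen sub-leaf Props).  The top

    EllParamC ⟸ LatDecompC129 + LatRigidC129 + LatOrbitExC129 + LatOrbitUniqC129 + ReprFinC129

is proved in `LT/H129/EllParamTop.lean` (with `T6.TwCentC` of helper166, vendored).

## Notation

ONE field `k` valued in `ℤᵐ⁰` (in the application: `k'`), `τ, ν ∈ k` with `|ν| = exp(-1)`,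
`|τ| < 1`, `Π² = τ Π - ν`.  `E = k[Π]`; `e(a, b) = embMat τ ν a b = a + b Π` (matrix of the
multiplication by `a + b Π` in the basis `(1, Π)`).  Formulas:

* `e(a, b) e(c, d) = e(a c - ν b d, a d + b c + τ b d)`, `det e(a, b) = a² + τ a b + ν b²`,
  `|det e(a, b)| = max(|a|², exp(-1) |b|²)` (the two terms have different parities, and
  `|τ a b|` is strictly smaller than the maximum);
* `latMat τ ν n ξ = e(1, ξ) · diag(1, νⁿ)`, `det = νⁿ (1 + τ ξ + ν ξ²) ≠ 0` for `ξ` integral;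
* `diag(1, νⁿ)⁻¹ e(A, B) diag(1, νⁿ') = !![A, -ν^(n'+1) B; B / νⁿ, ν^(n'-n) (A + τ B)]`;
* `U = GL₂(𝒪) = {u : InU 0 u}`: `u` and `u⁻¹` have integral entries
  (`H129.inU_zero_iff129` in `LT/H129/CartanInv.lean`).
-/

set_option autoImplicit false

open scoped Matrix

noncomputable section

namespace Fermat.Agent.LT.H129

open Fermat.Agent.LT.T6 Fermat.Agent.LT.T6.H847

/-- **T6.14b.L1 (lattices of `E`: `GL₂(k) = ⊔ Π^ℤ · x_ξ g_n · GL₂(𝒪)`).**  Every `x ∈ GL₂(k)` is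
`t · latGL n ξ · u` with `t = νᵐ` or `t = νᵐ Π` (`m ∈ ℤ`), `n ≥ 0`, `ξ ∈ B n`, `u ∈ GL₂(𝒪)`.
(Columns `c₁, c₂` of `x` as elements of `E`; after a swap `|N c₁| ≥ |N c₂|`; `e = e(c₁)`:
`e⁻¹ x = !![1, a; 0, b]` with `a, b` integral, `b = νⁿ · unit`, so `x = e g_n u₁`;
`e = t · e(a₁, b₁)` with `|a₁| = 1 ≥ |b₁|`; conclude by `LatOrbitExC129` at `ξ = 0`,
`latGL n 0 = diag(1, νⁿ)`.) -/
def LatDecompC129 : Prop :=
  ∀ (k : Type) [Field k] [Valued k Γ₀] (τ ν : k),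
    Valued.v ν = WithZero.exp (-1 : ℤ) → Valued.v τ < 1 →
    ∀ B : ℕ → Set k, (∀ n, IsReprMod n (B n)) →
    ∀ x : GL (Fin 2) k, ∃ (t : GL (Fin 2) k) (m : ℤ) (n : ℕ) (ξ : k) (u : GL (Fin 2) k),
      ((t : Matrix (Fin 2) (Fin 2) k) = embMat τ ν (ν ^ m) 0 ∨
        (t : Matrix (Fin 2) (Fin 2) k) = embMat τ ν 0 (ν ^ m)) ∧
      ξ ∈ B n ∧ InU 0 u ∧ x = t * latGL τ ν n ξ * u

/-- **T6.14b.L2 (rigidity).**  If `latGL n' ξ' = t · latGL n ξ · u` with `t = e(a, b)` and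
`u ∈ GL₂(𝒪)` (`ξ, ξ'` integral), then `n' = n` and `t` is a unit of `𝒪_E`: `|a| = 1`, `|b| ≤ 1`.
(`e(A, B) := e(1, ξ)⁻¹ t⁻¹ e(1, ξ')`, `u = g_n⁻¹ e(A, B) g_n'` integral with unit determinant:
`|A| ≤ 1`, `|B| ≤ exp(-n)`, `|N(A, B)| = exp(n' - n) ≤ 1`; symmetric; then `|det t| = 1`.) -/
def LatRigidC129 : Prop :=
  ∀ (k : Type) [Field k] [Valued k Γ₀] (τ ν : k),
    Valued.v ν = WithZero.exp (-1 : ℤ) → Valued.v τ < 1 →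
    ∀ (n n' : ℕ) (ξ ξ' a b : k) (t u : GL (Fin 2) k),
      Valued.v ξ ≤ 1 → Valued.v ξ' ≤ 1 →
      (t : Matrix (Fin 2) (Fin 2) k) = embMat τ ν a b → InU 0 u →
      latGL τ ν n' ξ' = t * latGL τ ν n ξ * u →
      n' = n ∧ Valued.v a = 1 ∧ Valued.v b ≤ 1

/-- **T6.14b.L3 (the orbit of `𝒪_E^×`: existence).**  For a unit `t = e(a, b)` of `𝒪_E`
(`|a| = 1`, `|b| ≤ 1`) and `ξ` integral there is `ξ' ∈ B` with
`t · latGL n ξ ∈ latGL n ξ' · GL₂(𝒪)`.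
(`t e(1, ξ) = e(a₁, b₁)`, `|a₁| = 1`; `ξ'' = b₁ / a₁`; `ξ' ∈ B` with `|ξ'' - ξ'| ≤ exp(-n)`;
`e(1, ξ')⁻¹ e(1, ξ'') = 1 + (ξ'' - ξ') e(ν ξ', 1) / N(1, ξ') ∈ 𝒪 + νⁿ 𝒪_E`.) -/
def LatOrbitExC129 : Prop :=
  ∀ (k : Type) [Field k] [Valued k Γ₀] (τ ν : k),
    Valued.v ν = WithZero.exp (-1 : ℤ) → Valued.v τ < 1 →
    ∀ (n : ℕ) (B : Set k), IsReprMod n B →
    ∀ (ξ a b : k) (t : GL (Fin 2) k), Valued.v ξ ≤ 1 → Valued.v a = 1 → Valued.v b ≤ 1 →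
      (t : Matrix (Fin 2) (Fin 2) k) = embMat τ ν a b →
      ∃ ξ' ∈ B, ∃ u : GL (Fin 2) k, InU 0 u ∧ t * latGL τ ν n ξ = latGL τ ν n ξ' * u

/-- **T6.14b.L4 (the orbit of `𝒪_E^×`: uniqueness).**  `latGL n ξ' ∈ latGL n ξ · GL₂(𝒪)` implies
`ξ' ≡ ξ mod νⁿ`.
(`u = g_n⁻¹ e(A, B) g_n`, `e(A, B) = e(1, ξ)⁻¹ e(1, ξ') = 1 + (ξ' - ξ) e(ν ξ, 1) / N(1, ξ)`,
`B = (ξ' - ξ) / N(1, ξ)`, and the entry `(1, 0)` of `u` is `B / νⁿ`.) -/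
def LatOrbitUniqC129 : Prop :=
  ∀ (k : Type) [Field k] [Valued k Γ₀] (τ ν : k),
    Valued.v ν = WithZero.exp (-1 : ℤ) → Valued.v τ < 1 →
    ∀ (n : ℕ) (ξ ξ' : k) (u : GL (Fin 2) k), Valued.v ξ ≤ 1 → Valued.v ξ' ≤ 1 → InU 0 u →
      latGL τ ν n ξ' = latGL τ ν n ξ * u → Valued.v (ξ' - ξ) ≤ WithZero.exp (-(n : ℤ))

/-- **T6.14b.L5 (systems of representatives of `𝒪 / ϖⁿ` are finite).**
(`ϖ` a uniformiser, `T` the finite set of `IsLocalField.residue`: every integral `x` is within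
`exp(-n)` of some `∑_{j<n} t_j ϖ^j`, `t_j ∈ T`; the map `B → {digit sums}` is injective by the
uniqueness in `IsReprMod`.) -/
def ReprFinC129 : Prop :=
  ∀ (k : Type) [Field k] [Valued k Γ₀] (q : ℕ), IsLocalField k q →
    ∀ (n : ℕ) (B : Set k), IsReprMod n B → B.Finite

end Fermat.Agent.LT.H129

end
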