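import Fermat.Agent.LT.H129.EllParamTop
import Fermat.Agent.LT.T6.H420.LatDecomp
import Fermat.Agent.LT.T6.H286.LatRigid
import Fermat.Agent.LT.T6.H952.LatOrbitEx
import Fermat.Agent.LT.T6.H75.LatOrbitUniq
import Fermat.Agent.LT.T6.H437.ReprFin

/-!
# Row LT, tower T6, leaf T6.14b `EllParamC` (helper129): CLOSED -- OFF-MAIN

`ellParamC129 : Fermat.Agent.LT.T6.H847.EllParamC`, VERBATIM against
`LT/T6/H847/EllRamSpec.lean` (helper847@9a9979e8f, sha256 3578c164…), unconditional.

Integration of the top `ellParamC_of_leaves129` (`EllParamTop.lean`) with the five leaves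
(vendored byte-identical):

* L1 `LatDecompC129`   : `T6.H420.latDecompC420`      (helper420, `LT/T6/H420/LatDecomp.lean`)
* L2 `LatRigidC129`    : `latRigidC286`               (helper286, `LT/T6/H286/LatRigid.lean`)
* L3 `LatOrbitExC129`  : `latOrbitExC952`             (helper952, `LT/T6/H952/LatOrbitEx.lean`)
* L4 `LatOrbitUniqC129`: `latOrbitUniq75`             (helper75,  `LT/T6/H75/LatOrbitUniq.lean`)
* L5 `ReprFinC129`     : `reprFinC129_holds437`       (helper437, `LT/T6/H437/ReprFin.lean`)
* `T6.TwCentC`         : `T6.H166.twCentC166`         (helper166, `LT/T6/H166/TwCent.lean`)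
-/

set_option autoImplicit false

namespace Fermat.Agent.LT.H129

open Fermat.Agent.LT.T6 Fermat.Agent.LT.T6.H847

/-- **T6.14b `EllParamC`**, unconditional. -/
theorem ellParamC129 : EllParamC :=
  ellParamC_of_leaves129 Fermat.Agent.LT.T6.H420.latDecompC420
    Fermat.Agent.LT.T6.H286.latRigidC286 Fermat.Agent.LT.T6.H952.latOrbitExC952
    Fermat.Agent.LT.T6.H75.latOrbitUniq75 Fermat.Agent.LT.T6.H437.reprFinC129_holds437

end Fermat.Agent.LT.H129
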