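import Fermat.Agent.LT.H129.EllParamSpec
import Fermat.Agent.LT.H129.EllBasic
import Fermat.Agent.LT.H129.CartanInv
import Fermat.Agent.LT.T6.H166.TwCent

/-!
# Row LT, tower T6, leaf T6.14b `EllParamC` (helper129): THE TOP -- OFF-MAIN

`ellParamC_of_leaves129 :
  LatDecompC129 → LatRigidC129 → LatOrbitExC129 → LatOrbitUniqC129 → ReprFinC129 → EllParamC`

(`T6.TwCentC` = `twCentC166` of helper166, vendored byte-identical.)

The `U`-`s`-classes in the `s`-conjugacy class of `δ₀` are the `E^×`-orbits of lattices; the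
fibre of `(n, ξ) ↦ class of Y(n, ξ)` over the class of `y` is in bijection with the set of
cosets `t U`, `t` in the maximal compact subgroup of the twisted centraliser of `y`.
-/

set_option autoImplicit false

open scoped Matrix

noncomputable section

namespace Fermat.Agent.LT.H129

open Fermat.Agent.LT.T6 Fermat.Agent.LT.T6.H847 Fermat.Agent.LT.T6.H166

/-! ## A. Twisted conjugacy in a group -/

section Grp

variable {Γ : Type} [Group Γ] (σ : Γ →* Γ)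

theorem twRel_iff129 (δ x x₀ u : Γ) :
    x⁻¹ * δ * σ x = u⁻¹ * (x₀⁻¹ * δ * σ x₀) * σ u ↔
      (x * u⁻¹ * x₀⁻¹)⁻¹ * δ * σ (x * u⁻¹ * x₀⁻¹) = δ := by
  have e : (x * u⁻¹ * x₀⁻¹)⁻¹ * δ * σ (x * u⁻¹ * x₀⁻¹)
      = x₀ * u * (x⁻¹ * δ * σ x) * (σ u)⁻¹ * (σ x₀)⁻¹ := by
    simp only [map_mul, map_inv, mul_inv_rev, inv_inv, mul_assoc]
  rw [e]
  constructor
  · intro h
    rw [h]; group
  · intro h
    have h' : x⁻¹ * δ * σ x
        = u⁻¹ * x₀⁻¹ * (x₀ * u * (x⁻¹ * δ * σ x) * (σ u)⁻¹ * (σ x₀)⁻¹) * σ x₀ * σ u := by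
      group
    rw [h', h]; group

/-- The twisted centraliser of `x⁻¹ δ σ(x)` is the conjugate of the one of `δ`. -/
theorem twCent_conj129 (δ x t : Γ) :
    t⁻¹ * (x⁻¹ * δ * σ x) * σ t = x⁻¹ * δ * σ x ↔
      (x * t * x⁻¹)⁻¹ * δ * σ (x * t * x⁻¹) = δ := by
  have e : (x * t * x⁻¹)⁻¹ * δ * σ (x * t * x⁻¹)
      = x * (t⁻¹ * (x⁻¹ * δ * σ x) * σ t) * (σ x)⁻¹ := by
    simp only [map_mul, map_inv, mul_inv_rev, inv_inv, mul_assoc]
  rw [e]
  constructor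
  · intro h
    rw [h]; group
  · intro h
    have h' : t⁻¹ * (x⁻¹ * δ * σ x) * σ t
        = x⁻¹ * (x * (t⁻¹ * (x⁻¹ * δ * σ x) * σ t) * (σ x)⁻¹) * σ x := by
      group
    rw [h', h]

/-- The coset `g U`. -/
def coset129 (U : Γ → Prop) (g : Γ) : Set Γ := {g' | ∃ u : Γ, U u ∧ g' = g * u}

theorem cIndex_eq129 (U : Γ → Prop) (C : Γ → Γ → Prop) (y : Γ) :
    cIndex U C y = Set.ncard {c : Set Γ | ∃ t : Γ, C y t ∧ c = coset129 U t} := rfl

end Grp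

/-! ## B. The group `U = GL₂(𝒪)` -/

section U

variable {k : Type} [Field k] [Valued k Γ₀]

theorem inU_zero_one129 : InU 0 (1 : GL (Fin 2) k) := by
  rw [inU_zero_iff129]
  exact ⟨isInt129_one _, by rw [inv_one]; exact isInt129_one _⟩

theorem inU_glAut129 (s : k ≃+* k) (hs : ∀ y : k, Valued.v (s y) = Valued.v y)
    {u : GL (Fin 2) k} (hu : InU 0 u) : InU 0 (glAut s u) := by
  rw [inU_zero_iff129] at *
  refine ⟨fun a b => ?_, fun a b => ?_⟩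
  · show Valued.v ((glAut s u : Matrix (Fin 2) (Fin 2) k) a b) ≤ 1
    rw [glAut_apply166, hs]; exact hu.1 a b
  · show Valued.v ((((glAut s u)⁻¹ : GL (Fin 2) k) : Matrix (Fin 2) (Fin 2) k) a b) ≤ 1
    rw [← map_inv, glAut_apply166, hs]; exact hu.2 a b

theorem coset_mul129 (g u : GL (Fin 2) k) (hu : InU 0 u) :
    coset129 (InU (k := k) 0) (g * u) = coset129 (InU 0) g := by
  ext g'
  constructor
  · rintro ⟨u', hu', rfl⟩
    exact ⟨u * u', inU_zero_mul129 hu hu', by rw [mul_assoc]⟩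
  · rintro ⟨u', hu', rfl⟩
    exact ⟨u⁻¹ * u', inU_zero_mul129 (inU_zero_inv129 hu) hu', by group⟩

theorem mem_coset_self129 (g : GL (Fin 2) k) : g ∈ coset129 (InU (k := k) 0) g :=
  ⟨1, inU_zero_one129, by rw [mul_one]⟩

theorem val_det_of_inU129 {u : GL (Fin 2) k} (hu : InU 0 u) :
    Valued.v (u : Matrix (Fin 2) (Fin 2) k).det = 1 :=
  valued_det_of_isMaxCpt129 ((inU_zero_iff129 u).mp hu)

end U

/-! ## C. The twisted centraliser of `δ₀` -/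

section Cent

variable {k k' : Type} [Field k] [Field k'] [Valued k Γ₀] [Valued k' Γ₀] {q l : ℕ}
  {i : k →+* k'} {s : k' ≃+* k'} {τ ν α β : k} {d₀ d₁ : k'} {γ₀ : GL (Fin 2) k}
  {δ₀ : GL (Fin 2) k'}

theorem val_i129 (hext : IsLocalExt k k' l 1 i s) (x : k) : Valued.v (i x) = Valued.v x := by
  rw [hext.val_i, pow_one]

theorem val_two_le129 {F : Type} [Field F] [Valued F Γ₀] : Valued.v (2 : F) ≤ 1 := by
  have : (2 : F) = 1 + 1 := by norm_num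
  rw [this]
  exact le_trans (Valuation.map_add _ _ _) (by simp)

/-- `τ² ≠ 4 ν` (parity of the valuation). -/
theorem disc_ne_zero129 (hk : IsLocalField k q) (hν : Valued.v ν = WithZero.exp (-1 : ℤ)) :
    τ ^ 2 - 4 * ν ≠ 0 := by
  have := hk.char0
  intro h
  have h1 : τ ^ 2 = 2 ^ 2 * ν := by linear_combination h
  have h2 := congrArg (Valued.v : k → Γ₀) h1
  rw [map_pow, map_mul, map_pow, hν] at h2
  have h20 : Valued.v (2 : k) ≠ 0 := (map_ne_zero _).mpr two_ne_zero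
  have hτ0 : Valued.v τ ≠ 0 := by
    intro h0
    rw [h0] at h2
    have : (0 : Γ₀) ^ 2 = 0 := by simp
    rw [this] at h2
    exact (mul_ne_zero (pow_ne_zero 2 h20) WithZero.exp_ne_zero) h2.symm
  have h3 := congrArg WithZero.log h2
  rw [WithZero.log_pow, WithZero.log_mul (pow_ne_zero 2 h20) WithZero.exp_ne_zero,
    WithZero.log_pow, WithZero.log_exp] at h3
  simp only [nsmul_eq_mul, Nat.cast_ofNat] at h3
  omega

theorem isReg_ell129 (hk : IsLocalField k q)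
    (hD : EllData k k' l i s τ ν α β d₀ d₁ γ₀ δ₀) : IsReg γ₀ := by
  unfold IsReg disc
  rw [hD.γ₀_eq, trace_embMat129, det_embMat129, isUnit_iff_ne_zero]
  have : (2 * α + τ * β) ^ 2 - 4 * (α ^ 2 + τ * α * β + ν * β ^ 2)
      = β ^ 2 * (τ ^ 2 - 4 * ν) := by ring
  rw [this]
  exact mul_ne_zero (pow_ne_zero 2 hD.β_ne) (disc_ne_zero129 hk hD.val_ν)

theorem gl_det_ne_zero129 {F : Type} [Field F] (t : GL (Fin 2) F) :
    (t : Matrix (Fin 2) (Fin 2) F).det ≠ 0 :=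
  isUnit_iff_ne_zero.mp ((Matrix.isUnit_iff_isUnit_det _).mp t.isUnit)

/-- The twisted centraliser of `δ₀` is `E^×`. -/
theorem twCent_iff129 (hk : IsLocalField k q) (hext : IsLocalExt k k' l 1 i s)
    (hD : EllData k k' l i s τ ν α β d₀ d₁ γ₀ δ₀) (t : GL (Fin 2) k') :
    InTwCent s δ₀ t ↔
      ∃ a b : k, (t : Matrix (Fin 2) (Fin 2) k') = embMat (i τ) (i ν) (i a) (i b) := by
  rw [twCentC166 k k' l i s hext.cyc δ₀ γ₀ (isReg_ell129 hk hD) hD.norm_eq t]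
  constructor
  · rintro ⟨t₀, hcomm, rfl⟩
    have h1 : (t₀ : Matrix (Fin 2) (Fin 2) k) * embMat τ ν α β
        = embMat τ ν α β * (t₀ : Matrix (Fin 2) (Fin 2) k) := by
      have := congrArg (fun g : GL (Fin 2) k => (g : Matrix (Fin 2) (Fin 2) k)) hcomm
      simpa [hD.γ₀_eq] using this
    have h2 := cent_embMat129 τ ν hD.β_ne _ h1
    refine ⟨(t₀ : Matrix (Fin 2) (Fin 2) k) 0 0, (t₀ : Matrix (Fin 2) (Fin 2) k) 1 0, ?_⟩
    rw [← embMat_map129, ← h2]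
    rfl
  · rintro ⟨a, b, ht⟩
    have hdet : (embMat τ ν a b).det ≠ 0 := by
      intro h0
      have h1 : ((embMat τ ν a b).map i).det = 0 := by
        have h2 := RingHom.map_det i (embMat τ ν a b)
        rw [RingHom.mapMatrix_apply] at h2
        rw [← h2, h0, map_zero]
      rw [embMat_map129, ← ht] at h1
      exact gl_det_ne_zero129 t h1
    refine ⟨Matrix.GeneralLinearGroup.mkOfDetNeZero _ hdet, ?_, ?_⟩
    · apply Units.ext
      show embMat τ ν a b * (γ₀ : Matrix (Fin 2) (Fin 2) k)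
        = (γ₀ : Matrix (Fin 2) (Fin 2) k) * embMat τ ν a b
      rw [hD.γ₀_eq, embMat_comm129]
    · apply Units.ext
      show (t : Matrix (Fin 2) (Fin 2) k') = (embMat τ ν a b).map i
      rw [ht, embMat_map129]

/-- The maximal compact subgroup of the twisted centraliser of `δ₀` is `𝒪_E^×`. -/
theorem twCentC_iff129 (hk : IsLocalField k q) (hext : IsLocalExt k k' l 1 i s)
    (hD : EllData k k' l i s τ ν α β d₀ d₁ γ₀ δ₀) (t : GL (Fin 2) k') :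
    InTwCentC s δ₀ t ↔
      ∃ a b : k, (t : Matrix (Fin 2) (Fin 2) k') = embMat (i τ) (i ν) (i a) (i b) ∧
        Valued.v (i a) = 1 ∧ Valued.v (i b) ≤ 1 := by
  have hν' : Valued.v (i ν) = WithZero.exp (-1 : ℤ) := by rw [val_i129 hext, hD.val_ν]
  have hτ' : Valued.v (i τ) < 1 := by rw [val_i129 hext]; exact hD.val_τ
  unfold InTwCentC
  rw [twCent_iff129 hk hext hD]
  constructor
  · rintro ⟨⟨a, b, ht⟩, -, hdet⟩
    refine ⟨a, b, ht, ?_⟩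
    rw [ht, det_embMat129] at hdet
    exact (val_norm_eq_one_iff129 hν' hτ' _ _).mp hdet
  · rintro ⟨a, b, ht, ha, hb⟩
    refine ⟨⟨a, b, ht⟩, ?_, ?_⟩
    · rw [ht, trace_embMat129]
      refine le_trans (Valuation.map_add _ _ _) (max_le ?_ ?_)
      · rw [map_mul, ha, mul_one]; exact val_two_le129
      · rw [map_mul]
        calc Valued.v (i τ) * Valued.v (i b) ≤ 1 * 1 := mul_le_mul' hτ'.le hb
          _ = 1 := one_mul _
    · rw [ht, det_embMat129]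
      exact (val_norm_eq_one_iff129 hν' hτ' _ _).mpr ⟨ha, hb⟩

end Cent

/-! ## D. The fibres -/

section Fibre

variable {k k' : Type} [Field k] [Field k'] [Valued k Γ₀] [Valued k' Γ₀] {q l : ℕ}
  {i : k →+* k'} {s : k' ≃+* k'} {τ ν α β : k} {d₀ d₁ : k'} {γ₀ : GL (Fin 2) k}
  {δ₀ : GL (Fin 2) k'}

/-- `Y(n, ξ) = (x_ξ g_n)⁻¹ δ₀ s(x_ξ g_n)`. -/
def ellY129 (s : k' ≃+* k') (τ' ν' : k') (δ₀ : GL (Fin 2) k') (p : ℕ × k') : GL (Fin 2) k' :=
  (latGL τ' ν' p.1 p.2)⁻¹ * δ₀ * glAut s (latGL τ' ν' p.1 p.2)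

theorem inTwCentC_conj129 (s : k' ≃+* k') (δ x t : GL (Fin 2) k') :
    InTwCentC s (x⁻¹ * δ * glAut s x) t ↔ InTwCentC s δ (x * t * x⁻¹) := by
  unfold InTwCentC InTwCent
  rw [twCent_conj129 (glAut s) δ x t]
  have h1 : ((x * t * x⁻¹ : GL (Fin 2) k') : Matrix (Fin 2) (Fin 2) k').trace
      = (t : Matrix (Fin 2) (Fin 2) k').trace := by
    have := Matrix.trace_units_conj x (t : Matrix (Fin 2) (Fin 2) k')
    simpa using this
  have h2 : ((x * t * x⁻¹ : GL (Fin 2) k') : Matrix (Fin 2) (Fin 2) k').det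
      = (t : Matrix (Fin 2) (Fin 2) k').det := by
    have := Matrix.det_units_conj x (t : Matrix (Fin 2) (Fin 2) k')
    simpa using this
  rw [h1, h2]

/-- `U`-`s`-conjugacy of `x⁻¹ δ₀ s(x)` and `x₀⁻¹ δ₀ s(x₀)` means `x ∈ E^× x₀ U`. -/
theorem twRel_ell129 (hk : IsLocalField k q) (hext : IsLocalExt k k' l 1 i s)
    (hD : EllData k k' l i s τ ν α β d₀ d₁ γ₀ δ₀) (x x₀ u : GL (Fin 2) k') :
    x⁻¹ * δ₀ * glAut s x = u⁻¹ * (x₀⁻¹ * δ₀ * glAut s x₀) * glAut s u ↔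
      ∃ (a b : k) (t : GL (Fin 2) k'),
        (t : Matrix (Fin 2) (Fin 2) k') = embMat (i τ) (i ν) (i a) (i b) ∧ x = t * x₀ * u := by
  rw [twRel_iff129 (glAut s) δ₀ x x₀ u]
  have key := twCent_iff129 hk hext hD (x * u⁻¹ * x₀⁻¹)
  unfold InTwCent at key
  rw [key]
  constructor
  · rintro ⟨a, b, ht⟩
    exact ⟨a, b, x * u⁻¹ * x₀⁻¹, ht, by group⟩
  · rintro ⟨a, b, t, ht, rfl⟩
    refine ⟨a, b, ?_⟩
    rw [← ht]
    congr 1
    group

theorem isReprMod_unique129 {n : ℕ} {B : Set k'} (hB : IsReprMod n B) {ξ ξ' : k'}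
    (hξ : ξ ∈ B) (hξ' : ξ' ∈ B) (h : Valued.v (ξ' - ξ) ≤ WithZero.exp (-(n : ℤ))) : ξ' = ξ := by
  obtain ⟨b, -, hb⟩ := hB.2 ξ' (hB.1 ξ' hξ')
  have e1 : ξ' = b := hb ξ' ⟨hξ', by simp⟩
  have e2 : ξ = b := hb ξ ⟨hξ, h⟩
  rw [e1, e2]

/-- **The fibre lemma.**  For `y = x⁻¹ δ₀ s(x)`, `x = latGL n₀ ξ₀ · u₀`: the set of the `(n, ξ)`,
`ξ ∈ B n`, with `Y(n, ξ)` `U`-`s`-conjugate to `y` is finite, and its cardinality is `cIndex y`. -/
theorem fiber_card129 (h2 : LatRigidC129) (h3 : LatOrbitExC129) (h4 : LatOrbitUniqC129)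
    (h5 : ReprFinC129) (hk : IsLocalField k q) (hk' : IsLocalField k' (q ^ l))
    (hext : IsLocalExt k k' l 1 i s) (hD : EllData k k' l i s τ ν α β d₀ d₁ γ₀ δ₀)
    (B : ℕ → Set k') (hB : ∀ n, IsReprMod n (B n))
    (n₀ : ℕ) (ξ₀ : k') (hξ₀ : ξ₀ ∈ B n₀) (u₀ : GL (Fin 2) k') (hu₀ : InU 0 u₀)
    (x y : GL (Fin 2) k') (hx : x = latGL (i τ) (i ν) n₀ ξ₀ * u₀)
    (hy : y = x⁻¹ * δ₀ * glAut s x) :
    {p : ℕ × k' | p.2 ∈ B p.1 ∧
        ∃ u, InU 0 u ∧ ellY129 s (i τ) (i ν) δ₀ p = u⁻¹ * y * glAut s u}.Finite ∧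
      {p : ℕ × k' | p.2 ∈ B p.1 ∧
        ∃ u, InU 0 u ∧ ellY129 s (i τ) (i ν) δ₀ p = u⁻¹ * y * glAut s u}.ncard
        = cIndex (InU 0) (InTwCentC s) y := by
  have hν' : Valued.v (i ν) = WithZero.exp (-1 : ℤ) := by rw [val_i129 hext, hD.val_ν]
  have hτ' : Valued.v (i τ) < 1 := by rw [val_i129 hext]; exact hD.val_τ
  set F : Set (ℕ × k') := {p : ℕ × k' | p.2 ∈ B p.1 ∧
        ∃ u, InU 0 u ∧ ellY129 s (i τ) (i ν) δ₀ p = u⁻¹ * y * glAut s u} with hF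
  -- the structure of the elements of `F`
  have hstr : ∀ p ∈ F, p.1 = n₀ ∧ p.2 ∈ B n₀ ∧ ∃ (a b : k) (t u : GL (Fin 2) k'),
      (t : Matrix (Fin 2) (Fin 2) k') = embMat (i τ) (i ν) (i a) (i b) ∧
      Valued.v (i a) = 1 ∧ Valued.v (i b) ≤ 1 ∧ InU 0 u ∧
      latGL (i τ) (i ν) p.1 p.2 = t * x * u := by
    rintro ⟨n, ξ⟩ ⟨hξ, u, hu, hYu⟩
    have hrel : (latGL (i τ) (i ν) n ξ)⁻¹ * δ₀ * glAut s (latGL (i τ) (i ν) n ξ)
        = u⁻¹ * (x⁻¹ * δ₀ * glAut s x) * glAut s u := by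
      rw [← hy]; exact hYu
    obtain ⟨a, b, t, ht, hxt⟩ := (twRel_ell129 hk hext hD _ _ _).mp hrel
    have hxt' : latGL (i τ) (i ν) n ξ = t * latGL (i τ) (i ν) n₀ ξ₀ * (u₀ * u) := by
      rw [hxt, hx]; group
    obtain ⟨hn, ha, hb⟩ := h2 k' (i τ) (i ν) hν' hτ' n₀ n ξ₀ ξ (i a) (i b) t (u₀ * u)
      ((hB n₀).1 ξ₀ hξ₀) ((hB n).1 ξ hξ) ht (inU_zero_mul129 hu₀ hu) hxt'
    subst hn
    exact ⟨rfl, hξ, a, b, t, u, ht, ha, hb, hu, hxt⟩
  have hfin : F.Finite := by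
    refine Set.Finite.subset ((h5 k' (q ^ l) hk' n₀ (B n₀) (hB n₀)).image
      (fun ξ => ((n₀, ξ) : ℕ × k'))) ?_
    rintro ⟨n, ξ⟩ hp
    obtain ⟨hn, hξ, -⟩ := hstr _ hp
    exact ⟨ξ, hξ, by simp only at hn; rw [hn]⟩
  refine ⟨hfin, ?_⟩
  -- the bijection with the cosets
  rw [cIndex_eq129]
  set φ : ℕ × k' → Set (GL (Fin 2) k') :=
    fun p => coset129 (InU 0) (x⁻¹ * latGL (i τ) (i ν) p.1 p.2) with hφ
  have himg : {c : Set (GL (Fin 2) k') | ∃ t : GL (Fin 2) k', InTwCentC s y t ∧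
      c = coset129 (InU 0) t} = φ '' F := by
    ext c
    constructor
    · rintro ⟨t', ht', rfl⟩
      rw [hy, inTwCentC_conj129] at ht'
      obtain ⟨a, b, ht, ha, hb⟩ := (twCentC_iff129 hk hext hD _).mp ht'
      obtain ⟨ξ', hξ', u₁, hu₁, he⟩ := h3 k' (i τ) (i ν) hν' hτ' n₀ (B n₀) (hB n₀) ξ₀ (i a) (i b)
        (x * t' * x⁻¹) ((hB n₀).1 ξ₀ hξ₀) ha hb ht
      have hxp : latGL (i τ) (i ν) n₀ ξ' = (x * t' * x⁻¹) * x * (u₀⁻¹ * u₁⁻¹) := by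
        have : latGL (i τ) (i ν) n₀ ξ'
            = (x * t' * x⁻¹) * latGL (i τ) (i ν) n₀ ξ₀ * u₁⁻¹ := by
          rw [he]; group
        rw [this, hx]; group
      have hU : InU 0 (u₀⁻¹ * u₁⁻¹) :=
        inU_zero_mul129 (inU_zero_inv129 hu₀) (inU_zero_inv129 hu₁)
      refine ⟨(n₀, ξ'), ⟨hξ', (u₀⁻¹ * u₁⁻¹), hU, ?_⟩, ?_⟩
      · show (latGL (i τ) (i ν) n₀ ξ')⁻¹ * δ₀ * glAut s (latGL (i τ) (i ν) n₀ ξ')
          = (u₀⁻¹ * u₁⁻¹)⁻¹ * y * glAut s (u₀⁻¹ * u₁⁻¹)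
        rw [hy]
        exact (twRel_ell129 hk hext hD _ _ _).mpr ⟨a, b, _, ht, hxp⟩
      · show coset129 (InU 0) (x⁻¹ * latGL (i τ) (i ν) n₀ ξ') = coset129 (InU 0) t'
        have : x⁻¹ * latGL (i τ) (i ν) n₀ ξ' = t' * (u₀⁻¹ * u₁⁻¹) := by
          rw [hxp]; group
        rw [this, coset_mul129 _ _ hU]
    · rintro ⟨p, hp, rfl⟩
      obtain ⟨-, -, a, b, t, u, ht, ha, hb, hu, hxt⟩ := hstr p hp
      refine ⟨x⁻¹ * t * x, ?_, ?_⟩
      · rw [hy, inTwCentC_conj129]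
        have e : x * (x⁻¹ * t * x) * x⁻¹ = t := by group
        rw [e]
        exact (twCentC_iff129 hk hext hD t).mpr ⟨a, b, ht, ha, hb⟩
      · show coset129 (InU 0) (x⁻¹ * latGL (i τ) (i ν) p.1 p.2)
          = coset129 (InU 0) (x⁻¹ * t * x)
        have : x⁻¹ * latGL (i τ) (i ν) p.1 p.2 = (x⁻¹ * t * x) * u := by
          rw [hxt]; group
        rw [this, coset_mul129 _ _ hu]
  have hinj : Set.InjOn φ F := by
    rintro ⟨n, ξ⟩ hp ⟨n', ξ'⟩ hp' hpp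
    obtain ⟨hn, hξ, -⟩ := hstr _ hp
    obtain ⟨hn', hξ', -⟩ := hstr _ hp'
    simp only at hn hn' hξ hξ'
    have hmem : x⁻¹ * latGL (i τ) (i ν) n' ξ' ∈ φ (n, ξ) := by
      rw [hpp]; exact mem_coset_self129 _
    obtain ⟨u, hu, hxu⟩ := hmem
    have hxu' : latGL (i τ) (i ν) n₀ ξ' = latGL (i τ) (i ν) n₀ ξ * u := by
      have := congrArg (fun g => x * g) hxu
      simp only [mul_assoc, mul_inv_cancel_left] at this
      rw [hn, hn'] at this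
      exact this
    have hv := h4 k' (i τ) (i ν) hν' hτ' n₀ ξ ξ' u ((hB n₀).1 ξ hξ) ((hB n₀).1 ξ' hξ') hu hxu'
    have := isReprMod_unique129 (hB n₀) hξ hξ' hv
    rw [this, hn, hn']
  rw [himg, Set.InjOn.ncard_image hinj]

end Fibre

/-! ## E. The top -/

/-- **T6.14b `EllParamC`** from the five lattice leaves. -/
theorem ellParamC_of_leaves129 (h1 : LatDecompC129) (h2 : LatRigidC129) (h3 : LatOrbitExC129)
    (h4 : LatOrbitUniqC129) (h5 : ReprFinC129) : EllParamC := by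
  classical
  intro k k' _ _ _ _ q l i s hk hk' hext τ ν α β d₀ d₁ γ₀ δ₀ hD Φ hΦ c hsum B hB
  obtain ⟨R, hR1, hR2, hR3, hc⟩ := hsum
  have hν' : Valued.v (i ν) = WithZero.exp (-1 : ℤ) := by rw [val_i129 hext, hD.val_ν]
  have hτ' : Valued.v (i τ) < 1 := by rw [val_i129 hext]; exact hD.val_τ
  set Y : ℕ × k' → GL (Fin 2) k' := ellY129 s (i τ) (i ν) δ₀ with hY
  set F : GL (Fin 2) k' → Set (ℕ × k') := fun y =>
    {p : ℕ × k' | p.2 ∈ B p.1 ∧ ∃ u, InU 0 u ∧ Y p = u⁻¹ * y * glAut s u} with hF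
  -- (1) the fibres over `R`
  have hcard : ∀ y ∈ R, (F y).Finite ∧ (F y).ncard = cIndex (InU 0) (InTwCentC s) y := by
    intro y hy
    obtain ⟨x, hx⟩ := hR1 y hy
    obtain ⟨t, m, n₀, ξ₀, u₀, ht, hξ₀, hu₀, hxd⟩ := h1 k' (i τ) (i ν) hν' hτ' B hB x
    have htT : InTwCent s δ₀ t := (twCent_iff129 hk hext hD t).mpr (by
      rcases ht with ht | ht
      · exact ⟨ν ^ m, 0, by rw [ht, map_zpow₀, map_zero]⟩
      · exact ⟨0, ν ^ m, by rw [ht, map_zpow₀, map_zero]⟩)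
    have hy' : y = (latGL (i τ) (i ν) n₀ ξ₀ * u₀)⁻¹ * δ₀
        * glAut s (latGL (i τ) (i ν) n₀ ξ₀ * u₀) := by
      rw [hx, hxd]
      unfold InTwCent at htT
      have e : (t * latGL (i τ) (i ν) n₀ ξ₀ * u₀)⁻¹ * δ₀
            * glAut s (t * latGL (i τ) (i ν) n₀ ξ₀ * u₀)
          = (latGL (i τ) (i ν) n₀ ξ₀ * u₀)⁻¹ * (t⁻¹ * δ₀ * glAut s t)
            * glAut s (latGL (i τ) (i ν) n₀ ξ₀ * u₀) := by
        simp only [map_mul, mul_inv_rev, mul_assoc]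
      rw [e, htT]
    exact fiber_card129 h2 h3 h4 h5 hk hk' hext hD B hB n₀ ξ₀ hξ₀ u₀ hu₀ _ y rfl hy'
  -- (2) `Φ` is constant on the fibres
  have hΦF : ∀ y, ∀ p ∈ F y, Φ (Y p) = Φ y := by
    rintro y p ⟨-, u, hu, hYu⟩
    rw [hYu]
    exact hΦ u⁻¹ (glAut s u) y (inU_zero_inv129 hu) (inU_glAut129 s hext.val_s hu)
  -- (3) the fibres are disjoint
  have hdisj : ∀ y ∈ R, ∀ y' ∈ R, ∀ p, p ∈ F y → p ∈ F y' → y = y' := by
    rintro y hy y' hy' p ⟨-, u, hu, hYu⟩ ⟨-, u', hu', hYu'⟩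
    refine hR2 y hy y' hy' ⟨u * u'⁻¹, inU_zero_mul129 hu (inU_zero_inv129 hu'), ?_⟩
    have e1 : y' = u' * Y p * (glAut s u')⁻¹ := by rw [hYu']; group
    rw [e1, hYu]
    simp only [map_mul, map_inv, mul_inv_rev, inv_inv, mul_assoc]
  -- (4) the support
  have hsupp : ∀ p : ℕ × k', p.2 ∈ B p.1 → Φ (Y p) ≠ 0 → ∃ y ∈ R, p ∈ F y := by
    intro p hp hne
    obtain ⟨y', hy', u, hu, hYu⟩ := hR3 (Y p) ⟨latGL (i τ) (i ν) p.1 p.2, rfl⟩ hne
    exact ⟨y', hy', hp, u, hu, hYu⟩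
  -- (5) the sum
  set f : ℕ × k' → ℂ := fun p => if p.2 ∈ B p.1 then Φ (Y p) else 0 with hf
  set G : GL (Fin 2) k' → Finset (ℕ × k') := fun y =>
    if h : (F y).Finite then h.toFinset else ∅ with hG
  have hGF : ∀ y ∈ R, ∀ p, p ∈ G y ↔ p ∈ F y := by
    intro y hy p
    simp only [hG, dif_pos (hcard y hy).1, Set.Finite.mem_toFinset]
  have hGcard : ∀ y ∈ R, (G y).card = cIndex (InU 0) (InTwCentC s) y := by
    intro y hy
    rw [← (hcard y hy).2, Set.ncard_eq_toFinset_card (F y) (hcard y hy).1]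
    simp only [hG, dif_pos (hcard y hy).1]
  have hfsupp : Function.support f ⊆ ↑(R.biUnion G) := by
    intro p hp
    have hp' : f p ≠ 0 := hp
    simp only [hf] at hp'
    by_cases hpB : p.2 ∈ B p.1
    · rw [if_pos hpB] at hp'
      obtain ⟨y, hy, hpy⟩ := hsupp p hpB hp'
      simp only [Finset.coe_biUnion, Set.mem_iUnion, Finset.mem_coe]
      exact ⟨y, hy, (hGF y hy p).mpr hpy⟩
    · rw [if_neg hpB] at hp'
      exact absurd rfl hp'
  have hfin : (Function.support f).Finite :=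
    Set.Finite.subset (Finset.finite_toSet _) hfsupp
  have e1 : (∑ᶠ n : ℕ, ∑ᶠ ξ ∈ B n,
        Φ ((latGL (i τ) (i ν) n ξ)⁻¹ * δ₀ * glAut s (latGL (i τ) (i ν) n ξ)))
      = ∑ᶠ n : ℕ, ∑ᶠ ξ : k', f (n, ξ) := by
    refine finsum_congr (fun n => finsum_congr (fun ξ => ?_))
    rw [finsum_eq_if]
    rfl
  rw [e1, ← finsum_curry f hfin, finsum_eq_sum_of_support_subset f hfsupp,
    Finset.sum_biUnion, hc]
  · refine Finset.sum_congr rfl (fun y hy => ?_)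
    have e2 : ∀ p ∈ G y, f p = Φ y := by
      intro p hp
      have hpF := (hGF y hy p).mp hp
      simp only [hf]
      rw [if_pos hpF.1]
      exact hΦF y p hpF
    rw [Finset.sum_congr rfl e2, Finset.sum_const, hGcard y hy, nsmul_eq_mul, mul_comm]
  · intro y hy y' hy' hne
    rw [Function.onFun, Finset.disjoint_left]
    intro p hp hp'
    exact hne (hdisj y hy y' hy' p ((hGF y hy p).mp hp) ((hGF y' hy' p).mp hp'))

end Fermat.Agent.LT.H129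

end
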