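import Fermat.Agent.LT.H129.MelFubini

/-!
# Row LT, tower T6, leaf T6.21.2 `H830.HcZRegC` (SPARE of registry row 1637; helper129) -- OFF-MAIN

    hcZRegC129 : T6.H830.HcZRegC        (VERBATIM, UNCONDITIONAL)

`hcZ f r = ∫_ζ ∫_x f (bR ζ r x)` is a parametric integral of a continuous function with compact
support in `(r, ζ, x)` (`MelFubini.lean`: `continuous_bR129`, `exists_box_of_isCompact129`).
No weight, no smoothness is used.
-/

set_option autoImplicit false

open scoped Matrix
open MeasureTheory

noncomputable section

namespace Fermat.Agent.LT.H129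

open Fermat.Agent.LT.T6 Fermat.Agent.LT.T6.H830

/-- `hcZ f` is continuous with compact support, for every continuous `f` with compact support. -/
theorem hcZReg129 (f : GL (Fin 2) ℝ → ℂ) (hf : Continuous f) (hfs : HasCompactSupport f) :
    Continuous (hcZ f) ∧ HasCompactSupport (hcZ f) := by
  obtain ⟨L, D, hbox⟩ := exists_box_of_isCompact129 (tsupport f) hfs
  -- vanishing outside the box
  have hzero : ∀ ζ r x : ℝ, ¬ (ζ ∈ Set.Icc (-L) L ∧ r ∈ Set.Icc (-L) L ∧ x ∈ Set.Icc (-D) D) →
      f (bR ζ r x) = 0 := by
    intro ζ r x h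
    by_contra hne
    exact h (hbox ζ r x (subset_tsupport f hne))
  set s : Set (ℝ × ℝ) := Set.Icc (-L) L ×ˢ Set.Icc (-D) D with hs
  have hsc : IsCompact s := isCompact_Icc.prod isCompact_Icc
  set F : ℝ → ℝ × ℝ → ℂ := fun r p => f (bR p.1 r p.2) with hF
  have hFc : Continuous (Function.uncurry F) := by
    have h1 : Continuous (fun q : ℝ × (ℝ × ℝ) => ((q.2.1, q.1), q.2.2)) := by fun_prop
    exact hf.comp (continuous_bR129.comp h1)
  -- `hcZ f r` as an integral over the compact box
  have hval : ∀ r : ℝ, hcZ f r = ∫ p in s, F r p ∂((volume : Measure ℝ).prod (volume : Measure ℝ)) := by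
    intro r
    have hFr : Continuous (F r) := hFc.comp (Continuous.prodMk_right r)
    have hFrs : HasCompactSupport (F r) := by
      refine HasCompactSupport.intro hsc ?_
      intro p hp
      apply hzero
      intro h
      exact hp ⟨h.1, h.2.2⟩
    have hFri : Integrable (F r) ((volume : Measure ℝ).prod (volume : Measure ℝ)) :=
      hFr.integrable_of_hasCompactSupport hFrs
    have h1 : hcZ f r = ∫ p, F r p ∂((volume : Measure ℝ).prod (volume : Measure ℝ)) := by
      rw [integral_prod _ hFri]
      rfl
    rw [h1]
    symm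
    apply setIntegral_eq_integral_of_forall_compl_eq_zero
    intro p hp
    apply hzero
    intro h
    exact hp ⟨h.1, h.2.2⟩
  constructor
  · have hc := continuous_parametric_integral_of_continuous
      (μ := (volume : Measure ℝ).prod (volume : Measure ℝ)) hFc hsc
    have e : hcZ f = fun r => ∫ p in s, F r p ∂((volume : Measure ℝ).prod (volume : Measure ℝ)) :=
      funext hval
    rw [e]
    exact hc
  · refine HasCompactSupport.intro (K := Set.Icc (-L) L) isCompact_Icc ?_
    intro r hr
    simp only [hcZ, hcR]
    have h0 : ∀ ζ : ℝ, (∫ x : ℝ, f (bR ζ r x)) = 0 := by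
      intro ζ
      have : (fun x : ℝ => f (bR ζ r x)) = fun _ => (0 : ℂ) := by
        funext x
        apply hzero
        intro h
        exact hr h.2.1
      rw [this]
      simp
    simp [h0]

/-- **T6.21.2 HCZ-REG** (`H830.HcZRegC` VERBATIM). -/
theorem hcZRegC129 : HcZRegC := fun _ _ f hf => hcZReg129 f hf.cont hf.supp

end Fermat.Agent.LT.H129

end
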