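import Mathlib

/-!
# Row LT, tower T1 (local fields), helper129: the residue field of `𝒪_v`

OFF-MAIN.  Mathlib only.  For a Dedekind domain `R` with fraction field `K` and a height-one
prime `v`, the residue field of the ring of integers `𝒪_v = v.adicCompletionIntegers K` of the
completion is `R ⧸ v`:

* `resHom129 K v : R →+* 𝓀(𝒪_v)` is surjective with kernel `v.asIdeal`;
* `residueEquiv129 K v : R ⧸ v.asIdeal ≃+* 𝓀(𝒪_v)`;
* `card_residueField129` : for a number field, `#𝓀(𝒪_v) = Ideal.absNorm v.asIdeal`, and the
  residue field is finite (`finite_residueField129`).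
-/

set_option autoImplicit false

open IsDedekindDomain IsDedekindDomain.HeightOneSpectrum

namespace Fermat.Agent.LT.H129

section Dedekind

variable {R : Type*} [CommRing R] [IsDedekindDomain R] (K : Type*) [Field K] [Algebra R K]
  [IsFractionRing R K] (v : HeightOneSpectrum R)

/-- The residue map `R → 𝒪_v → 𝓀(𝒪_v)`. -/
noncomputable def resHom129 : R →+* IsLocalRing.ResidueField (v.adicCompletionIntegers K) :=
  (IsLocalRing.residue (v.adicCompletionIntegers K)).comp
    (algebraMap R (v.adicCompletionIntegers K))

theorem residue_eq_zero_iff_valued129 (x : v.adicCompletionIntegers K) :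
    IsLocalRing.residue (v.adicCompletionIntegers K) x = 0 ↔
      Valued.v (x : v.adicCompletion K) < 1 := by
  rw [IsLocalRing.residue_eq_zero_iff, IsLocalRing.mem_maximalIdeal, mem_nonunits_iff,
    adicCompletionIntegers.isUnit_iff_valued_eq_one]
  have hx : Valued.v (x : v.adicCompletion K) ≤ 1 := x.2
  exact ⟨fun h => lt_of_le_of_ne hx h, fun h => ne_of_lt h⟩

theorem resHom129_eq_zero_iff (r : R) : resHom129 K v r = 0 ↔ r ∈ v.asIdeal := by
  rw [resHom129, RingHom.comp_apply, residue_eq_zero_iff_valued129,
    algebraMap_adicCompletionIntegers_apply]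
  rw [valuedAdicCompletion_eq_valuation', valuation_lt_one_iff_mem]

theorem resHom129_ker : RingHom.ker (resHom129 K v) = v.asIdeal := by
  ext r
  rw [RingHom.mem_ker, resHom129_eq_zero_iff]

theorem resHom129_surjective : Function.Surjective (resHom129 K v) := by
  intro y
  obtain ⟨x, rfl⟩ := IsLocalRing.residue_surjective y
  -- approximate `x` by an element of `K`
  have hopen : IsOpen {z : v.adicCompletion K | Valued.v (z - (x : v.adicCompletion K)) < 1} := by
    rw [isOpen_iff_mem_nhds]
    intro z hz
    rw [Valued.mem_nhds]
    refine ⟨1, fun w hw => ?_⟩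
    have hw' : Valued.v (w - z) < 1 := by simpa using hw
    have : w - (x : v.adicCompletion K) = (w - z) + (z - (x : v.adicCompletion K)) := by ring
    show Valued.v (w - (x : v.adicCompletion K)) < 1
    rw [this]
    exact lt_of_le_of_lt (Valuation.map_add _ _ _) (max_lt hw' hz)
  obtain ⟨k, hk⟩ := (denseRange_algebraMap (K := K) v).exists_mem_open hopen
    ⟨(x : v.adicCompletion K), by simp⟩
  have hk' : Valued.v ((k : v.adicCompletion K) - (x : v.adicCompletion K)) < 1 := hk
  have hk1 : v.valuation K k ≤ 1 := by
    rw [← valuedAdicCompletion_eq_valuation']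
    have : (k : v.adicCompletion K) = ((k : v.adicCompletion K) - x) + x := by ring
    rw [this]
    exact le_trans (Valuation.map_add _ _ _) (max_le hk'.le x.2)
  obtain ⟨a, ha⟩ := exists_valuation_sub_lt_of_integer v hk1 1
  refine ⟨a, ?_⟩
  rw [resHom129, RingHom.comp_apply, ← sub_eq_zero, ← map_sub, residue_eq_zero_iff_valued129]
  have e : ((algebraMap R (v.adicCompletionIntegers K) a - x : v.adicCompletionIntegers K) :
      v.adicCompletion K) = algebraMap K (v.adicCompletion K) (algebraMap R K a - k)
        + (algebraMap K (v.adicCompletion K) k - x) := by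
    have h1 : ((algebraMap R (v.adicCompletionIntegers K) a : v.adicCompletionIntegers K) :
        v.adicCompletion K) = algebraMap K (v.adicCompletion K) (algebraMap R K a) := rfl
    rw [map_sub]
    push_cast
    rw [h1]
    ring
  rw [e]
  refine lt_of_le_of_lt (Valuation.map_add _ _ _) (max_lt ?_ hk)
  have := valuedAdicCompletion_eq_valuation' (v := v) (algebraMap R K a - k)
  rw [show (algebraMap K (v.adicCompletion K) (algebraMap R K a - k))
    = ((algebraMap R K a - k : K) : v.adicCompletion K) from rfl, this]
  simpa using ha

/-- The residue field of `𝒪_v` is `R ⧸ v`. -/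
noncomputable def residueEquiv129 :
    (R ⧸ v.asIdeal) ≃+* IsLocalRing.ResidueField (v.adicCompletionIntegers K) :=
  (Ideal.quotEquivOfEq (resHom129_ker K v).symm).trans
    (RingHom.quotientKerEquivOfSurjective (resHom129_surjective K v))

theorem natCard_residueField129 :
    Nat.card (IsLocalRing.ResidueField (v.adicCompletionIntegers K)) = Nat.card (R ⧸ v.asIdeal) :=
  (Nat.card_congr (residueEquiv129 K v).toEquiv).symm

end Dedekind

section NumberField

open NumberField

variable (K : Type*) [Field K] [NumberField K] (v : HeightOneSpectrum (𝓞 K))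

/-- For a number field the residue field of `𝒪_v` has `N(v)` elements. -/
theorem card_residueField129 :
    Nat.card (IsLocalRing.ResidueField (v.adicCompletionIntegers K)) = Ideal.absNorm v.asIdeal := by
  rw [natCard_residueField129, Ideal.absNorm_apply, Submodule.cardQuot_apply]

theorem finite_residueField129 :
    Finite (IsLocalRing.ResidueField (v.adicCompletionIntegers K)) := by
  apply Nat.finite_of_card_ne_zero
  rw [card_residueField129]
  exact ne_of_gt (lt_trans Nat.zero_lt_one (NumberField.HeightOneSpectrum.one_lt_absNorm v))

end NumberField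

end Fermat.Agent.LT.H129
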