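import Fermat.Agent.LT.H129.Local
import Fermat.Agent.LT.H129.HeckeFam
import Fermat.Agent.LT.H129.ResidueCard

/-!
# Row LT, helper129: Hecke coset systems of A0 are complete; the Hecke sum is well defined

OFF-MAIN.  On `LT/H556/A0.lean` (helper556, byte-identical copy).  General number field `K`.

* `heckeCosetSystem_complete129` : if `A0.IsHeckeCosetSystem v H`, then every `g : G K` that is
  integral at `v` with `v(det g_v) = exp (-1)` has exactly one `h ∈ H` with `h⁻¹ g` integral at
  `v`; moreover `g⁻¹ h` is integral at `v` as well.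
* `heckeSum_indep129` : for a function `φ` that is right invariant under the elements supported
  at `v` lying in `GL₂(𝒪_v)`, the sum `∑ h ∈ H, φ (g * h)` does not depend on the coset system `H`.
-/

set_option autoImplicit false

open IsDedekindDomain NumberField
open Fermat.Agent.LT.H556.A0

noncomputable section

namespace Fermat.Agent.LT.H129

variable {K : Type} [Field K] [NumberField K] (v : HeightOneSpectrum (𝓞 K))

theorem valuation_lt_one_iff_valued129 (x : v.adicCompletion K) :
    (v.adicCompletionIntegers K).valuation x < 1 ↔ Valued.v x < 1 :=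
  ((Valuation.isEquiv_valuation_valuationSubring
    (Valued.v : Valuation (v.adicCompletion K) _)).lt_one_iff_lt_one).symm

theorem valuation_le_iff_valued129 (x y : v.adicCompletion K) :
    (v.adicCompletionIntegers K).valuation x ≤ (v.adicCompletionIntegers K).valuation y
      ↔ Valued.v x ≤ Valued.v y :=
  ((Valuation.isEquiv_valuation_valuationSubring
    (Valued.v : Valuation (v.adicCompletion K) _)) x y).symm

theorem withZero_le_exp_neg_one129 {y : WithZero (Multiplicative ℤ)} (hy : y < 1) :
    y ≤ WithZero.exp (-1 : ℤ) := by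
  rw [← WithZero.lt_mul_exp_iff_le (by simp), ← WithZero.exp_add]
  simpa using hy

theorem isUnif129_of_valued_eq {x : v.adicCompletion K}
    (hx : Valued.v x = WithZero.exp (-1 : ℤ)) : IsUnif129 (v.adicCompletionIntegers K) x := by
  constructor
  · rw [valuation_lt_one_iff_valued129, hx, ← WithZero.exp_zero, WithZero.exp_lt_exp]
    norm_num
  · intro y hy
    rw [valuation_lt_one_iff_valued129] at hy
    rw [valuation_le_iff_valued129, hx]
    exact withZero_le_exp_neg_one129 hy

theorem isInt129_finCompHom_iff (g : G K) :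
    IsInt129 (v.adicCompletionIntegers K) (finCompHom129 v g) ↔ IsIntegralAt v g :=
  Iff.rfl

theorem isHeckeElt129_finCompHom {g : G K} (hg : IsIntegralAt v g)
    (hdet : Valued.v (finComp v g).det = WithZero.exp (-1 : ℤ)) :
    IsHeckeElt129 (v.adicCompletionIntegers K) (finCompHom129 v g) :=
  ⟨(isInt129_finCompHom_iff v g).mpr hg, isUnif129_of_valued_eq v hdet⟩

variable {v}

/-- **Completeness of the Hecke coset systems of A0.** -/
theorem heckeCosetSystem_complete129 {H : Finset (G K)} (hH : IsHeckeCosetSystem v H)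
    {g : G K} (hg : IsIntegralAt v g)
    (hdet : Valued.v (finComp v g).det = WithZero.exp (-1 : ℤ)) :
    ∃ h ∈ H, IsIntegralAt v (h⁻¹ * g) ∧ IsIntegralAt v (g⁻¹ * h) ∧
      ∀ h' ∈ H, IsIntegralAt v (h'⁻¹ * g) → h' = h := by
  classical
  obtain ⟨hcard, hmem, hne⟩ := hH
  haveI : Finite (IsLocalRing.ResidueField (v.adicCompletionIntegers K)) :=
    finite_residueField129 K v
  have hE : ∀ h : {h // h ∈ H},
      IsHeckeElt129 (v.adicCompletionIntegers K) (finCompHom129 v h.1) :=
    fun h => isHeckeElt129_finCompHom v (hmem h.1 h.2).2.1 (hmem h.1 h.2).2.2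
  have hgE := isHeckeElt129_finCompHom v hg hdet
  obtain ⟨i, hi, huniq⟩ := hecke_complete_fam129 (v.adicCompletionIntegers K)
    (fun h : {h // h ∈ H} => finCompHom129 v h.1)
    (by rw [Fintype.card_coe, hcard, card_residueField129]) hE
    (by
      intro i j hij hint
      apply hne i.1 i.2 j.1 j.2 (fun e => hij (Subtype.ext e))
      rw [← isInt129_finCompHom_iff, map_mul, map_inv]
      exact hint)
    (finCompHom129 v g) hgE
  refine ⟨i.1, i.2, ?_, ?_, ?_⟩
  · rw [← isInt129_finCompHom_iff, map_mul, map_inv]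
    exact hi
  · rw [← isInt129_finCompHom_iff, map_mul, map_inv]
    exact isInt_inv_mul_symm129 (hE i) hgE hi
  · intro h' hh' hint
    have := huniq ⟨h', hh'⟩ (by
      rw [← isInt129_finCompHom_iff, map_mul, map_inv] at hint
      exact hint)
    exact congrArg Subtype.val this

/-- The elements of `G K` supported at `v` and lying in `GL₂(𝒪_v)`. -/
def IsLocalMaxCptAt129 (v : HeightOneSpectrum (𝓞 K)) (u : G K) : Prop :=
  IsLocalAtFin v u ∧ IsIntegralAt v u ∧ IsIntegralAt v u⁻¹

/-- **The Hecke sum does not depend on the coset system.** -/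
theorem heckeSum_indep129 {H H' : Finset (G K)} (hH : IsHeckeCosetSystem v H)
    (hH' : IsHeckeCosetSystem v H') {M : Type*} [AddCommMonoid M] (φ : G K → M)
    (hφ : ∀ u : G K, IsLocalMaxCptAt129 v u → ∀ g : G K, φ (g * u) = φ g) (g : G K) :
    ∑ h ∈ H, φ (g * h) = ∑ h ∈ H', φ (g * h) := by
  classical
  -- the bijection `H → H'`
  have key : ∀ {A B : Finset (G K)}, IsHeckeCosetSystem v A → IsHeckeCosetSystem v B →
      ∀ h ∈ A, ∃ h' ∈ B, IsIntegralAt v (h'⁻¹ * h) ∧ IsIntegralAt v (h⁻¹ * h') ∧
        ∀ h'' ∈ B, IsIntegralAt v (h''⁻¹ * h) → h'' = h' := by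
    intro A B hA hB h hh
    exact heckeCosetSystem_complete129 hB (hA.2.1 h hh).2.1 (hA.2.1 h hh).2.2
  choose! σ hσ using key hH hH'
  choose! τ hτ using key hH' hH
  refine Finset.sum_nbij' σ τ (fun h hh => (hσ h hh).1) (fun h hh => (hτ h hh).1) ?_ ?_ ?_
  · intro h hh
    -- `τ (σ h) = h` by uniqueness
    exact ((hτ (σ h) (hσ h hh).1).2.2.2 h hh (hσ h hh).2.2.1).symm
  · intro h hh
    exact ((hσ (τ h) (hτ h hh).1).2.2.2 h hh (hτ h hh).2.2.1).symm
  · intro h hh
    -- `φ (g h) = φ (g σ(h) (σ(h)⁻¹ h))`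
    have hu : IsLocalMaxCptAt129 v ((σ h)⁻¹ * h) := by
      refine ⟨isLocalAtFin_mul129 (isLocalAtFin_inv129 (hH'.2.1 _ (hσ h hh).1).1)
        (hH.2.1 h hh).1, (hσ h hh).2.1, ?_⟩
      have e : ((σ h)⁻¹ * h)⁻¹ = h⁻¹ * σ h := by group
      rw [e]
      exact (hσ h hh).2.2.1
    have := hφ _ hu (g * σ h)
    rw [← this]
    congr 1
    group

end Fermat.Agent.LT.H129

end
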