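import Fermat.Agent.LT.H129.LocalDecomp

/-!
# Row LT, towers T1/T2/T6 (local algebra), helper129: Hecke coset systems are complete

OFF-MAIN.  Mathlib only.  `F` a field, `O` a valuation subring with finite residue field `k`.
`IsHeckeElt129 O g` : `g ∈ M₂(O)` and `det g` generates the maximal ideal of `O`
(`g ∈ GL₂(O) diag(ϖ, 1) GL₂(O)`).

`hecke_complete129` : a finite set `H` of `#k + 1` such elements, pairwise inequivalent modulo
`GL₂(O)` on the right (`h⁻¹ h'` not integral), is a FULL system of representatives: every such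
element `g` has exactly one `h ∈ H` with `h⁻¹ g` integral.

The invariant is the left kernel of `g mod 𝔪`, a point of `ℙ¹(k) = Option k`.
-/

set_option autoImplicit false

open Matrix

namespace Fermat.Agent.LT.H129

variable {F : Type*} [Field F]

/-- `π` generates the maximal ideal of `O`: `v(π) < 1` and `v(x) < 1 → v(x) ≤ v(π)`. -/
def IsUnif129 (O : ValuationSubring F) (π : F) : Prop :=
  O.valuation π < 1 ∧ ∀ x : F, O.valuation x < 1 → O.valuation x ≤ O.valuation π

/-- `g ∈ M₂(O)` with `det g` a generator of the maximal ideal. -/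
def IsHeckeElt129 (O : ValuationSubring F) (g : GL (Fin 2) F) : Prop :=
  IsInt129 O g ∧ IsUnif129 O (g : Matrix (Fin 2) (Fin 2) F).det

/-- The entry `(i, j)` of an integral matrix, as an element of `O`. -/
def ent129 {O : ValuationSubring F} {g : GL (Fin 2) F} (hg : IsInt129 O g) (i j : Fin 2) : O :=
  ⟨(g : Matrix (Fin 2) (Fin 2) F) i j, hg i j⟩

/-- The residue of the entry `(i, j)`. -/
noncomputable def res129 {O : ValuationSubring F} {g : GL (Fin 2) F} (hg : IsInt129 O g)
    (i j : Fin 2) : IsLocalRing.ResidueField O :=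
  IsLocalRing.residue O (ent129 hg i j)

theorem residue_eq_zero_iff129 {O : ValuationSubring F} (x : O) :
    IsLocalRing.residue O x = 0 ↔ O.valuation (x : F) < 1 := by
  rw [IsLocalRing.residue_eq_zero_iff, ValuationSubring.valuation_lt_one_iff]

/-- The determinant of a Hecke element vanishes in the residue field. -/
theorem res_det129 {O : ValuationSubring F} {g : GL (Fin 2) F} (hg : IsHeckeElt129 O g) :
    res129 hg.1 0 0 * res129 hg.1 1 1 = res129 hg.1 0 1 * res129 hg.1 1 0 := by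
  have h : IsLocalRing.residue O (ent129 hg.1 0 0 * ent129 hg.1 1 1
      - ent129 hg.1 0 1 * ent129 hg.1 1 0) = 0 := by
    rw [residue_eq_zero_iff129]
    have := hg.2.1
    rw [Matrix.det_fin_two] at this
    exact this
  rw [map_sub, map_mul, map_mul, sub_eq_zero] at h
  exact h

/-- The invariant of a Hecke element: the left kernel of `g mod 𝔪` as a point of
`ℙ¹(k) = Option k` (`none` = the line spanned by `(0, 1)`, `some τ` = the line of `(1, τ)`). -/
noncomputable def inv129 {O : ValuationSubring F} {g : GL (Fin 2) F} (hg : IsInt129 O g) :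
    Option (IsLocalRing.ResidueField O) :=
  open Classical in
  if res129 hg 1 0 = 0 ∧ res129 hg 1 1 = 0 then none
  else some (if res129 hg 1 0 ≠ 0 then -(res129 hg 0 0 / res129 hg 1 0)
    else -(res129 hg 0 1 / res129 hg 1 1))

theorem inv129_none {O : ValuationSubring F} {g : GL (Fin 2) F} (hg : IsInt129 O g)
    (h : inv129 hg = none) : res129 hg 1 0 = 0 ∧ res129 hg 1 1 = 0 := by
  unfold inv129 at h
  by_contra hcon
  rw [if_neg hcon] at h
  exact Option.some_ne_none _ h

theorem inv129_some {O : ValuationSubring F} {g : GL (Fin 2) F} (hg : IsHeckeElt129 O g)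
    {τ : IsLocalRing.ResidueField O} (h : inv129 hg.1 = some τ) :
    res129 hg.1 0 0 = -τ * res129 hg.1 1 0 ∧ res129 hg.1 0 1 = -τ * res129 hg.1 1 1 := by
  have hdet := res_det129 hg
  unfold inv129 at h
  by_cases hcon : res129 hg.1 1 0 = 0 ∧ res129 hg.1 1 1 = 0
  · rw [if_pos hcon] at h
    exact absurd h (by simp)
  rw [if_neg hcon] at h
  have hτ := Option.some.inj h
  by_cases hc : res129 hg.1 1 0 = 0
  · have hd : res129 hg.1 1 1 ≠ 0 := fun hd => hcon ⟨hc, hd⟩
    rw [if_neg (not_not.mpr hc)] at hτ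
    rw [hc, mul_zero] at hdet
    have ha : res129 hg.1 0 0 = 0 := by
      rcases mul_eq_zero.mp hdet with h | h
      · exact h
      · exact absurd h hd
    refine ⟨by rw [ha, hc, mul_zero], ?_⟩
    rw [← hτ]
    field_simp
  · rw [if_pos hc] at hτ
    refine ⟨by rw [← hτ]; field_simp, ?_⟩
    rw [← hτ]
    field_simp
    rw [hdet]

/-- Integrality of `h⁻¹ g` in terms of the entries: `adj(h) g / det h`. -/
theorem inv_mul_apply129 (h g : GL (Fin 2) F) (i j : Fin 2) :
    ((h⁻¹ * g : GL (Fin 2) F) : Matrix (Fin 2) (Fin 2) F) i j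
      = ((Matrix.adjugate (h : Matrix (Fin 2) (Fin 2) F) * (g : Matrix (Fin 2) (Fin 2) F)) i j)
        / (h : Matrix (Fin 2) (Fin 2) F).det := by
  rw [Matrix.GeneralLinearGroup.coe_mul, Matrix.coe_units_inv, Matrix.inv_def,
    Matrix.smul_mul, Matrix.smul_apply, smul_eq_mul, Ring.inverse_eq_inv', div_eq_inv_mul]

/-- An element of `O` with zero residue is divisible by a generator of the maximal ideal. -/
theorem div_mem_of_res129 {O : ValuationSubring F} {π : F} (hπ : IsUnif129 O π) (x : O)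
    (hx : IsLocalRing.residue O x = 0) : (x : F) / π ∈ O := by
  rw [residue_eq_zero_iff129] at hx
  have h0 : π ≠ 0 ∨ (x : F) = 0 := by
    by_cases h : π = 0
    · right
      have := hπ.2 _ hx
      rw [h, map_zero, le_zero_iff, map_eq_zero] at this
      exact this
    · exact Or.inl h
  rcases h0 with h0 | h0
  · rw [← ValuationSubring.valuation_le_one_iff, map_div₀]
    exact div_le_one_of_le₀ (hπ.2 _ hx) zero_le
  · rw [h0, zero_div]; exact O.zero_mem

/-- Equal invariants imply right equivalence modulo `GL₂(O)`. -/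
theorem isInt_inv_mul_of_inv129_eq {O : ValuationSubring F} {h g : GL (Fin 2) F}
    (hh : IsHeckeElt129 O h) (hg : IsHeckeElt129 O g) (e : inv129 hh.1 = inv129 hg.1) :
    IsInt129 O (h⁻¹ * g) := by
  -- the four entries of `adj(h) g` have zero residue
  have key : ∀ i j, ∃ x : O, (x : F) = (Matrix.adjugate (h : Matrix (Fin 2) (Fin 2) F) *
      (g : Matrix (Fin 2) (Fin 2) F)) i j ∧ IsLocalRing.residue O x = 0 := by
    have hres : ∀ (i j : Fin 2), (ent129 hh.1 i j : F) = (h : Matrix (Fin 2) (Fin 2) F) i j :=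
      fun _ _ => rfl
    have gres : ∀ (i j : Fin 2), (ent129 hg.1 i j : F) = (g : Matrix (Fin 2) (Fin 2) F) i j :=
      fun _ _ => rfl
    -- residues
    have R : (res129 hh.1 1 0 = 0 ∧ res129 hh.1 1 1 = 0 ∧ res129 hg.1 1 0 = 0 ∧
        res129 hg.1 1 1 = 0) ∨ ∃ τ, (res129 hh.1 0 0 = -τ * res129 hh.1 1 0 ∧
        res129 hh.1 0 1 = -τ * res129 hh.1 1 1) ∧ (res129 hg.1 0 0 = -τ * res129 hg.1 1 0 ∧
        res129 hg.1 0 1 = -τ * res129 hg.1 1 1) := by
      cases hi : inv129 hh.1 with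
      | none =>
        left
        have h1 := inv129_none hh.1 hi
        have h2 := inv129_none hg.1 (e ▸ hi)
        exact ⟨h1.1, h1.2, h2.1, h2.2⟩
      | some τ =>
        right
        exact ⟨τ, inv129_some hh hi, inv129_some hg (e ▸ hi)⟩
    intro i j
    fin_cases i <;> fin_cases j
    · refine ⟨ent129 hh.1 1 1 * ent129 hg.1 0 0 - ent129 hh.1 0 1 * ent129 hg.1 1 0, ?_, ?_⟩
      · simp [Matrix.adjugate_fin_two, Matrix.mul_apply, Fin.sum_univ_two, hres, gres]
        ring
      · rw [map_sub, map_mul, map_mul]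
        change res129 hh.1 1 1 * res129 hg.1 0 0 - res129 hh.1 0 1 * res129 hg.1 1 0 = 0
        rcases R with ⟨h1, h2, h3, h4⟩ | ⟨τ, ⟨h1, h2⟩, ⟨h3, h4⟩⟩
        · rw [h2, h3]; ring
        · rw [h2, h3]; ring
    · refine ⟨ent129 hh.1 1 1 * ent129 hg.1 0 1 - ent129 hh.1 0 1 * ent129 hg.1 1 1, ?_, ?_⟩
      · simp [Matrix.adjugate_fin_two, Matrix.mul_apply, Fin.sum_univ_two, hres, gres]
        ring
      · rw [map_sub, map_mul, map_mul]
        change res129 hh.1 1 1 * res129 hg.1 0 1 - res129 hh.1 0 1 * res129 hg.1 1 1 = 0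
        rcases R with ⟨h1, h2, h3, h4⟩ | ⟨τ, ⟨h1, h2⟩, ⟨h3, h4⟩⟩
        · rw [h2, h4]; ring
        · rw [h2, h4]; ring
    · refine ⟨ent129 hh.1 0 0 * ent129 hg.1 1 0 - ent129 hh.1 1 0 * ent129 hg.1 0 0, ?_, ?_⟩
      · simp [Matrix.adjugate_fin_two, Matrix.mul_apply, Fin.sum_univ_two, hres, gres]
        ring
      · rw [map_sub, map_mul, map_mul]
        change res129 hh.1 0 0 * res129 hg.1 1 0 - res129 hh.1 1 0 * res129 hg.1 0 0 = 0
        rcases R with ⟨h1, h2, h3, h4⟩ | ⟨τ, ⟨h1, h2⟩, ⟨h3, h4⟩⟩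
        · rw [h1, h3]; ring
        · rw [h1, h3]; ring
    · refine ⟨ent129 hh.1 0 0 * ent129 hg.1 1 1 - ent129 hh.1 1 0 * ent129 hg.1 0 1, ?_, ?_⟩
      · simp [Matrix.adjugate_fin_two, Matrix.mul_apply, Fin.sum_univ_two, hres, gres]
        ring
      · rw [map_sub, map_mul, map_mul]
        change res129 hh.1 0 0 * res129 hg.1 1 1 - res129 hh.1 1 0 * res129 hg.1 0 1 = 0
        rcases R with ⟨h1, h2, h3, h4⟩ | ⟨τ, ⟨h1, h2⟩, ⟨h3, h4⟩⟩
        · rw [h1, h4]; ring
        · rw [h1, h4]; ring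
  intro i j
  rw [inv_mul_apply129]
  obtain ⟨x, hx, hx0⟩ := key i j
  rw [← hx]
  exact div_mem_of_res129 hh.2 x hx0

/-- **Completeness of Hecke coset systems.**  A finite set `H` of `#k + 1` elements of
`GL₂(O) diag(ϖ, 1) GL₂(O)` that are pairwise inequivalent modulo `GL₂(O)` on the right is a full
system of representatives. -/
theorem hecke_complete129 (O : ValuationSubring F) [Finite (IsLocalRing.ResidueField O)]
    (H : Finset (GL (Fin 2) F))
    (hcard : H.card = Nat.card (IsLocalRing.ResidueField O) + 1)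
    (hH : ∀ h ∈ H, IsHeckeElt129 O h)
    (hne : ∀ h ∈ H, ∀ h' ∈ H, h ≠ h' → ¬ IsInt129 O (h⁻¹ * h'))
    (g : GL (Fin 2) F) (hg : IsHeckeElt129 O g) :
    ∃ h ∈ H, IsInt129 O (h⁻¹ * g) ∧ ∀ h' ∈ H, IsInt129 O (h'⁻¹ * g) → h' = h := by
  classical
  let _ : Fintype (IsLocalRing.ResidueField O) := Fintype.ofFinite _
  -- the invariant on `H`
  let ι : {h // h ∈ H} → Option (IsLocalRing.ResidueField O) := fun h => inv129 (hH h.1 h.2).1
  have hinj : Function.Injective ι := by
    intro h h' e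
    by_contra hcon
    have hne' : h.1 ≠ h'.1 := fun hh => hcon (Subtype.ext hh)
    exact hne h.1 h.2 h'.1 h'.2 hne' (isInt_inv_mul_of_inv129_eq (hH h.1 h.2) (hH h'.1 h'.2) e)
  have hcard' : Fintype.card {h // h ∈ H} = Fintype.card (Option (IsLocalRing.ResidueField O)) := by
    rw [Fintype.card_coe, hcard, Fintype.card_option, Nat.card_eq_fintype_card]
  have hbij : Function.Bijective ι :=
    (Fintype.bijective_iff_injective_and_card ι).mpr ⟨hinj, hcard'⟩
  obtain ⟨⟨h, hhH⟩, hh⟩ := hbij.2 (inv129 hg.1)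
  refine ⟨h, hhH, isInt_inv_mul_of_inv129_eq (hH h hhH) hg hh, ?_⟩
  intro h' hh'H hh'
  by_contra hcon
  apply hne h' hh'H h hhH hcon
  -- `h'⁻¹ h = (h'⁻¹ g) (h⁻¹ g)⁻¹`, and `(h⁻¹ g)⁻¹ = g⁻¹ h` is integral by symmetry
  have hsym : IsInt129 O (g⁻¹ * h) :=
    isInt_inv_mul_of_inv129_eq hg (hH h hhH) hh.symm
  have : h'⁻¹ * h = (h'⁻¹ * g) * (g⁻¹ * h) := by group
  rw [this]
  exact isInt129_mul hh' hsym

end Fermat.Agent.LT.H129
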