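import Mathlib

/-!
# Row LT, tower T1 (local algebra), helper129: decompositions of `GL₂` over a valued field

OFF-MAIN.  Mathlib only.  `F` is a field, `O` a valuation subring of `F` (no discreteness, no
completeness, no topology).  `IsMaxCpt129 O k` says that `k` and `k⁻¹` have entries in `O`
(`k ∈ GL₂(O)`).

* `iwasawa129`  : `GL₂(F) = B(F) · GL₂(O)`.
* `bruhat129`   : `GL₂(F) = B(F) ⊔ N(F) w B(F)`.
* `cartan129`   : `GL₂(F) = GL₂(O) · T(F)⁺ · GL₂(O)`  (`diag(x, y)` with `x / y ∈ O`).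
-/

set_option autoImplicit false

open Matrix

namespace Fermat.Agent.LT.H129

variable {F : Type*} [Field F]

/-- The entries of `g` lie in `O`. -/
def IsInt129 (O : ValuationSubring F) (g : GL (Fin 2) F) : Prop :=
  ∀ i j, (g : Matrix (Fin 2) (Fin 2) F) i j ∈ O

/-- `g ∈ GL₂(O)`: the entries of `g` and of `g⁻¹` lie in `O`. -/
def IsMaxCpt129 (O : ValuationSubring F) (g : GL (Fin 2) F) : Prop :=
  IsInt129 O g ∧ IsInt129 O g⁻¹

/-- `g` is upper triangular. -/
def IsUpper129 (g : GL (Fin 2) F) : Prop :=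
  (g : Matrix (Fin 2) (Fin 2) F) 1 0 = 0

/-- The matrix `!![a, b; c, d]` as an element of `GL₂(F)`, given `a d - b c ≠ 0`. -/
noncomputable def mkGL129 (a b c d : F) (h : a * d - b * c ≠ 0) : GL (Fin 2) F :=
  Matrix.GeneralLinearGroup.mkOfDetNeZero !![a, b; c, d] (by
    rw [Matrix.det_fin_two_of]; exact h)

@[simp] theorem coe_mkGL129 (a b c d : F) (h : a * d - b * c ≠ 0) :
    ((mkGL129 a b c d h : GL (Fin 2) F) : Matrix (Fin 2) (Fin 2) F) = !![a, b; c, d] := rfl

theorem ext_mat129 {g h : GL (Fin 2) F}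
    (H : (g : Matrix (Fin 2) (Fin 2) F) = (h : Matrix (Fin 2) (Fin 2) F)) : g = h :=
  Units.ext H

theorem eta129 (g : GL (Fin 2) F) :
    (g : Matrix (Fin 2) (Fin 2) F) = !![g 0 0, g 0 1; g 1 0, g 1 1] :=
  Matrix.eta_fin_two _

theorem det_ne_zero129 (g : GL (Fin 2) F) :
    (g : Matrix (Fin 2) (Fin 2) F) 0 0 * (g : Matrix (Fin 2) (Fin 2) F) 1 1
      - (g : Matrix (Fin 2) (Fin 2) F) 0 1 * (g : Matrix (Fin 2) (Fin 2) F) 1 0 ≠ 0 := by
  have h := (Matrix.isUnit_iff_isUnit_det (g : Matrix (Fin 2) (Fin 2) F)).mp g.isUnit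
  rw [Matrix.det_fin_two] at h
  exact h.ne_zero

/-- The lower unipotent `!![1, 0; x, 1]`. -/
noncomputable def lowerU129 (x : F) : GL (Fin 2) F :=
  mkGL129 1 0 x 1 (by simp)

/-- The upper unipotent `!![1, x; 0, 1]`. -/
noncomputable def upperU129 (x : F) : GL (Fin 2) F :=
  mkGL129 1 x 0 1 (by simp)

/-- The Weyl element `!![0, 1; 1, 0]`. -/
noncomputable def weyl129 : GL (Fin 2) F :=
  mkGL129 0 1 1 0 (by simp)

theorem lowerU129_inv (x : F) : (lowerU129 x)⁻¹ = lowerU129 (-x) := by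
  rw [inv_eq_iff_mul_eq_one]
  apply ext_mat129
  simp [lowerU129, Matrix.one_fin_two]

theorem upperU129_inv (x : F) : (upperU129 x)⁻¹ = upperU129 (-x) := by
  rw [inv_eq_iff_mul_eq_one]
  apply ext_mat129
  simp [upperU129, Matrix.one_fin_two]

theorem weyl129_inv : (weyl129 : GL (Fin 2) F)⁻¹ = weyl129 := by
  rw [inv_eq_iff_mul_eq_one]
  apply ext_mat129
  simp [weyl129, Matrix.one_fin_two]

theorem isInt129_mkGL {O : ValuationSubring F} {a b c d : F} (h : a * d - b * c ≠ 0)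
    (ha : a ∈ O) (hb : b ∈ O) (hc : c ∈ O) (hd : d ∈ O) : IsInt129 O (mkGL129 a b c d h) := by
  intro i j
  fin_cases i <;> fin_cases j <;> simpa using by assumption

theorem isMaxCpt129_lowerU {O : ValuationSubring F} {x : F} (hx : x ∈ O) :
    IsMaxCpt129 O (lowerU129 x) := by
  refine ⟨isInt129_mkGL _ O.one_mem O.zero_mem hx O.one_mem, ?_⟩
  rw [lowerU129_inv]
  exact isInt129_mkGL _ O.one_mem O.zero_mem (O.neg_mem _ hx) O.one_mem

theorem isMaxCpt129_upperU {O : ValuationSubring F} {x : F} (hx : x ∈ O) :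
    IsMaxCpt129 O (upperU129 x) := by
  refine ⟨isInt129_mkGL _ O.one_mem hx O.zero_mem O.one_mem, ?_⟩
  rw [upperU129_inv]
  exact isInt129_mkGL _ O.one_mem (O.neg_mem _ hx) O.zero_mem O.one_mem

theorem isMaxCpt129_weyl (O : ValuationSubring F) : IsMaxCpt129 O (weyl129 : GL (Fin 2) F) := by
  refine ⟨isInt129_mkGL _ O.zero_mem O.one_mem O.one_mem O.zero_mem, ?_⟩
  rw [weyl129_inv]
  exact isInt129_mkGL _ O.zero_mem O.one_mem O.one_mem O.zero_mem

theorem isInt129_one (O : ValuationSubring F) : IsInt129 O (1 : GL (Fin 2) F) := by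
  intro i j
  fin_cases i <;> fin_cases j <;> simp [O.one_mem, O.zero_mem]

theorem isInt129_mul {O : ValuationSubring F} {g h : GL (Fin 2) F} (hg : IsInt129 O g)
    (hh : IsInt129 O h) : IsInt129 O (g * h) := by
  intro i j
  rw [Matrix.GeneralLinearGroup.coe_mul, Matrix.mul_apply, Fin.sum_univ_two]
  exact O.add_mem _ _ (O.mul_mem _ _ (hg i 0) (hh 0 j)) (O.mul_mem _ _ (hg i 1) (hh 1 j))

theorem isMaxCpt129_one (O : ValuationSubring F) : IsMaxCpt129 O (1 : GL (Fin 2) F) :=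
  ⟨isInt129_one O, by rw [inv_one]; exact isInt129_one O⟩

theorem isMaxCpt129_mul {O : ValuationSubring F} {g h : GL (Fin 2) F} (hg : IsMaxCpt129 O g)
    (hh : IsMaxCpt129 O h) : IsMaxCpt129 O (g * h) :=
  ⟨isInt129_mul hg.1 hh.1, by rw [_root_.mul_inv_rev]; exact isInt129_mul hh.2 hg.2⟩

theorem isMaxCpt129_inv {O : ValuationSubring F} {g : GL (Fin 2) F} (hg : IsMaxCpt129 O g) :
    IsMaxCpt129 O g⁻¹ :=
  ⟨hg.2, by rw [inv_inv]; exact hg.1⟩

/-- `GL₂(O)` as a subgroup of `GL₂(F)`. -/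
def maxCpt129 (O : ValuationSubring F) : Subgroup (GL (Fin 2) F) where
  carrier := {g | IsMaxCpt129 O g}
  mul_mem' := fun hg hh => isMaxCpt129_mul hg hh
  one_mem' := isMaxCpt129_one O
  inv_mem' := fun hg => isMaxCpt129_inv hg

theorem mem_maxCpt129 {O : ValuationSubring F} {g : GL (Fin 2) F} :
    g ∈ maxCpt129 O ↔ IsMaxCpt129 O g := Iff.rfl

/-- The determinant of an element of `GL₂(O)` is a unit of `O`: it and its inverse lie in `O`. -/
theorem det_mem_of_isInt129 {O : ValuationSubring F} {g : GL (Fin 2) F} (hg : IsInt129 O g) :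
    (g : Matrix (Fin 2) (Fin 2) F).det ∈ O := by
  rw [Matrix.det_fin_two]
  exact sub_mem (O.mul_mem _ _ (hg 0 0) (hg 1 1)) (O.mul_mem _ _ (hg 0 1) (hg 1 0))

/-- **Iwasawa decomposition** `GL₂(F) = B(F) · GL₂(O)` for a valuation subring `O` of `F`. -/
theorem iwasawa129 (O : ValuationSubring F) (g : GL (Fin 2) F) :
    ∃ b k : GL (Fin 2) F, g = b * k ∧ IsUpper129 b ∧ IsMaxCpt129 O k := by
  set c : F := (g : Matrix (Fin 2) (Fin 2) F) 1 0 with hc
  set d : F := (g : Matrix (Fin 2) (Fin 2) F) 1 1 with hd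
  have hdet := det_ne_zero129 g
  by_cases hc0 : c = 0
  · exact ⟨g, 1, (mul_one g).symm, hc0, isMaxCpt129_one O⟩
  by_cases hd0 : d = 0
  · -- bottom row `(c, 0)`: swap the columns
    refine ⟨g * weyl129, weyl129, ?_, ?_, isMaxCpt129_weyl O⟩
    · rw [mul_assoc]
      have : (weyl129 : GL (Fin 2) F) * weyl129 = 1 := by
        rw [← inv_eq_iff_mul_eq_one]; exact weyl129_inv
      rw [this, mul_one]
    · show ((g * weyl129 : GL (Fin 2) F) : Matrix (Fin 2) (Fin 2) F) 1 0 = 0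
      rw [Matrix.GeneralLinearGroup.coe_mul, Matrix.mul_apply, Fin.sum_univ_two]
      simp [weyl129, ← hd, hd0]
  rcases O.mem_or_inv_mem (c / d) with h | h
  · -- `c / d ∈ O`
    refine ⟨g * (lowerU129 (c / d))⁻¹, lowerU129 (c / d), (inv_mul_cancel_right g _).symm, ?_,
      isMaxCpt129_lowerU h⟩
    show ((g * (lowerU129 (c / d))⁻¹ : GL (Fin 2) F) : Matrix (Fin 2) (Fin 2) F) 1 0 = 0
    rw [lowerU129_inv, Matrix.GeneralLinearGroup.coe_mul, Matrix.mul_apply, Fin.sum_univ_two]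
    simp only [lowerU129, coe_mkGL129, Matrix.of_apply, Matrix.cons_val', Matrix.cons_val_zero,
      Matrix.cons_val_one, Matrix.cons_val_fin_one]
    rw [← hc, ← hd]
    field_simp
    ring
  · -- `d / c ∈ O`
    have h' : d / c ∈ O := by
      have : (c / d)⁻¹ = d / c := by rw [inv_div]
      rwa [this] at h
    refine ⟨g * (lowerU129 (d / c) * weyl129)⁻¹, lowerU129 (d / c) * weyl129,
      (inv_mul_cancel_right g _).symm, ?_,
      isMaxCpt129_mul (isMaxCpt129_lowerU h') (isMaxCpt129_weyl O)⟩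
    show ((g * (lowerU129 (d / c) * weyl129)⁻¹ : GL (Fin 2) F) :
      Matrix (Fin 2) (Fin 2) F) 1 0 = 0
    rw [_root_.mul_inv_rev, lowerU129_inv, weyl129_inv, Matrix.GeneralLinearGroup.coe_mul,
      Matrix.GeneralLinearGroup.coe_mul, Matrix.mul_apply, Fin.sum_univ_two]
    simp only [lowerU129, weyl129, coe_mkGL129, Matrix.mul_apply, Fin.sum_univ_two,
      Matrix.of_apply, Matrix.cons_val', Matrix.cons_val_zero,
      Matrix.cons_val_one, Matrix.cons_val_fin_one]
    rw [← hc, ← hd]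
    field_simp
    ring

/-- **Bruhat decomposition** `GL₂(F) = B(F) ⊔ N(F) w B(F)`. -/
theorem bruhat129 (g : GL (Fin 2) F) :
    IsUpper129 g ∨ ∃ (x : F) (b : GL (Fin 2) F), IsUpper129 b ∧ g = upperU129 x * weyl129 * b := by
  set a : F := (g : Matrix (Fin 2) (Fin 2) F) 0 0 with ha
  set b' : F := (g : Matrix (Fin 2) (Fin 2) F) 0 1 with hb
  set c : F := (g : Matrix (Fin 2) (Fin 2) F) 1 0 with hc
  set d : F := (g : Matrix (Fin 2) (Fin 2) F) 1 1 with hd
  have hdet : a * d - b' * c ≠ 0 := det_ne_zero129 g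
  by_cases hc0 : c = 0
  · exact Or.inl hc0
  right
  have hdet' : c * (b' - a / c * d) - d * 0 ≠ 0 := by
    intro h
    apply hdet
    have : c * (b' - a / c * d) = -(a * d - b' * c) := by field_simp; ring
    rw [mul_zero, sub_zero, this, neg_eq_zero] at h
    exact h
  refine ⟨a / c, mkGL129 c d 0 (b' - a / c * d) hdet', by simp [IsUpper129], ?_⟩
  apply ext_mat129
  rw [eta129 g]
  simp only [upperU129, weyl129, Matrix.GeneralLinearGroup.coe_mul, coe_mkGL129]
  rw [← ha, ← hb, ← hc, ← hd]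
  ext i j
  fin_cases i <;> fin_cases j <;> simp [Matrix.mul_apply, Fin.sum_univ_two]
  all_goals field_simp

end Fermat.Agent.LT.H129
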