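import Fermat.Agent.LT.T6.H830.InjSpec

/-!
# Row LT, tower T6, leaf T6.21.1 `H830.MelFubiniC` (registry row 1636; helper129) -- OFF-MAIN

    melFubiniC129 : T6.H830.MelFubiniC        (VERBATIM, UNCONDITIONAL)

`(ζ, r, x) ↦ f (bR ζ r x)` is continuous with compact support on `ℝ³` for every continuous `f`
with compact support on `GL₂(ℝ)` (`continuous_bR129`, `hasCompactSupport_comp_bR129`; no weight,
no smoothness is used); Fubini.
-/

set_option autoImplicit false

open scoped Matrix
open MeasureTheory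

noncomputable section

namespace Fermat.Agent.LT.H129

open Fermat.Agent.LT.T6 Fermat.Agent.LT.T6.H830

/-- The inverse of `bR ζ r x` as a matrix. -/
theorem coe_inv_bR129 (ζ r x : ℝ) :
    (((bR ζ r x)⁻¹ : GL (Fin 2) ℝ) : Matrix (Fin 2) (Fin 2) ℝ)
      = !![Real.exp (-((ζ + r) / 2)), -(x * Real.exp (-((ζ - r) / 2)));
          0, Real.exp (-((ζ - r) / 2))] := by
  apply Units.inv_eq_of_mul_eq_one_right
  rw [coe_bR830]
  ext i j
  fin_cases i <;> fin_cases j
  · simp [Matrix.mul_apply, Fin.sum_univ_two, ← Real.exp_add]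
  · simp only [Matrix.mul_apply, Fin.sum_univ_two]
    simp
    have h : Real.exp ((ζ - r) / 2) * Real.exp (-((ζ - r) / 2)) = 1 := by
      rw [← Real.exp_add]; simp
    have h2 : Real.exp (-((ζ - r) / 2)) = (Real.exp ((ζ - r) / 2))⁻¹ := Real.exp_neg _
    rw [h2]
    ring
  · simp [Matrix.mul_apply, Fin.sum_univ_two]
  · simp [Matrix.mul_apply, Fin.sum_univ_two, ← Real.exp_add]

/-- `(ζ, r, x) ↦ bR ζ r x` is continuous. -/
theorem continuous_bR129 :
    Continuous (fun p : (ℝ × ℝ) × ℝ => bR p.1.1 p.1.2 p.2) := by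
  rw [Units.continuous_iff]
  constructor
  · refine continuous_matrix fun i j => ?_
    fin_cases i <;> fin_cases j
    · simp only [Function.comp, coe_bR830]
      simp
      fun_prop
    · simp only [Function.comp, coe_bR830]
      simp
      fun_prop
    · simp only [Function.comp, coe_bR830]
      simp
      fun_prop
    · simp only [Function.comp, coe_bR830]
      simp
      fun_prop
  · refine continuous_matrix fun i j => ?_
    fin_cases i <;> fin_cases j
    · simp only [coe_inv_bR129]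
      simp
      fun_prop
    · simp only [coe_inv_bR129]
      simp
      fun_prop
    · simp only [coe_inv_bR129]
      simp
      fun_prop
    · simp only [coe_inv_bR129]
      simp
      fun_prop

theorem continuous_entry_gl129 (i j : Fin 2) :
    Continuous (fun g : GL (Fin 2) ℝ => (g : Matrix (Fin 2) (Fin 2) ℝ) i j) :=
  Units.continuous_val.matrix_elem i j

theorem continuous_inv_entry_gl129 (i j : Fin 2) :
    Continuous (fun g : GL (Fin 2) ℝ => ((g⁻¹ : GL (Fin 2) ℝ) : Matrix (Fin 2) (Fin 2) ℝ) i j) :=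
  (Units.continuous_val.comp continuous_inv).matrix_elem i j

/-- A compact subset of `GL₂(ℝ)` is bounded in the coordinates `(ζ, r, x)`. -/
theorem exists_box_of_isCompact129 (S : Set (GL (Fin 2) ℝ)) (hS : IsCompact S) :
    ∃ L : ℝ, ∃ D : ℝ, ∀ ζ r x : ℝ, bR ζ r x ∈ S →
      ζ ∈ Set.Icc (-L) L ∧ r ∈ Set.Icc (-L) L ∧ x ∈ Set.Icc (-D) D := by
  obtain ⟨C1, h1⟩ := hS.exists_bound_of_continuousOn (continuous_entry_gl129 0 0).continuousOn
  obtain ⟨C2, h2⟩ := hS.exists_bound_of_continuousOn (continuous_entry_gl129 1 1).continuousOn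
  obtain ⟨C3, h3⟩ := hS.exists_bound_of_continuousOn
    (continuous_inv_entry_gl129 0 0).continuousOn
  obtain ⟨C4, h4⟩ := hS.exists_bound_of_continuousOn
    (continuous_inv_entry_gl129 1 1).continuousOn
  obtain ⟨C5, h5⟩ := hS.exists_bound_of_continuousOn (continuous_entry_gl129 0 1).continuousOn
  set C : ℝ := max 1 (max C1 (max C2 (max C3 (max C4 C5)))) with hC
  have hC1 : C1 ≤ C := le_trans (le_max_left _ _) (le_max_right _ _)
  have hC2 : C2 ≤ C :=
    le_trans (le_trans (le_max_left _ _) (le_max_right _ _)) (le_max_right _ _)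
  have hC3 : C3 ≤ C :=
    le_trans (le_trans (le_trans (le_max_left _ _) (le_max_right _ _)) (le_max_right _ _))
      (le_max_right _ _)
  have hC4 : C4 ≤ C :=
    le_trans (le_trans (le_trans (le_trans (le_max_left _ _) (le_max_right _ _))
      (le_max_right _ _)) (le_max_right _ _)) (le_max_right _ _)
  have hC5 : C5 ≤ C :=
    le_trans (le_trans (le_trans (le_trans (le_max_right _ _) (le_max_right _ _))
      (le_max_right _ _)) (le_max_right _ _)) (le_max_right _ _)
  have hCpos : 0 < C := lt_of_lt_of_le one_pos (le_max_left _ _)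
  refine ⟨2 * Real.log C, C * C, ?_⟩
  intro ζ r x hmem
  have e1 := h1 _ hmem
  have e2 := h2 _ hmem
  have e3 := h3 _ hmem
  have e4 := h4 _ hmem
  have e5 := h5 _ hmem
  simp only [coe_inv_bR129, coe_bR830, Real.norm_eq_abs] at e1 e2 e3 e4 e5
  simp at e1 e2 e3 e4 e5
  have a1 : (ζ + r) / 2 ≤ Real.log C := (Real.le_log_iff_exp_le hCpos).2 (e1.trans hC1)
  have a2 : (ζ - r) / 2 ≤ Real.log C := (Real.le_log_iff_exp_le hCpos).2 (e2.trans hC2)
  have a3 : -((ζ + r) / 2) ≤ Real.log C := (Real.le_log_iff_exp_le hCpos).2 (e3.trans hC3)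
  have a4 : -((ζ - r) / 2) ≤ Real.log C := (Real.le_log_iff_exp_le hCpos).2 (e4.trans hC4)
  refine ⟨⟨by linarith, by linarith⟩, ⟨by linarith, by linarith⟩, ?_⟩
  have hx : |x| ≤ C * C := by
    have hx1 : |x| = (Real.exp ((ζ + r) / 2) * |x|) * Real.exp (-((ζ + r) / 2)) := by
      rw [mul_comm (Real.exp _) |x|, mul_assoc, ← Real.exp_add]
      simp
    rw [hx1]
    exact mul_le_mul (e5.trans hC5) (e3.trans hC3) (Real.exp_pos _).le hCpos.le
  exact abs_le.1 hx

/-- `(ζ, r, x) ↦ f (bR ζ r x)` has compact support if `f` has. -/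
theorem hasCompactSupport_comp_bR129 (f : GL (Fin 2) ℝ → ℂ) (hf : HasCompactSupport f) :
    HasCompactSupport (fun p : (ℝ × ℝ) × ℝ => f (bR p.1.1 p.1.2 p.2)) := by
  obtain ⟨L, D, hbox⟩ := exists_box_of_isCompact129 (tsupport f) hf
  refine HasCompactSupport.intro
    (K := (Set.Icc (-L) L ×ˢ Set.Icc (-L) L) ×ˢ Set.Icc (-D) D)
    ((isCompact_Icc.prod isCompact_Icc).prod isCompact_Icc) ?_
  intro p hp
  by_contra hne
  apply hp
  have hmem : bR p.1.1 p.1.2 p.2 ∈ tsupport f := subset_tsupport f hne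
  obtain ⟨h1, h2, h3⟩ := hbox _ _ _ hmem
  exact ⟨⟨h1, h2⟩, h3⟩

/-- **T6.21.1 MEL-FUBINI**, for every continuous `f` with compact support. -/
theorem melFubini129 (f : GL (Fin 2) ℝ → ℂ) (hf : Continuous f) (hfs : HasCompactSupport f)
    (s : ℂ) :
    melR f s = ∫ r : ℝ, Complex.exp ((r : ℂ) * (s + 1 / 2)) * hcZ f r := by
  set H : (ℝ × ℝ) × ℝ → ℂ := fun p =>
    Complex.exp ((p.1.2 : ℂ) * (s + 1 / 2)) * f (bR p.1.1 p.1.2 p.2) with hH
  have hHc : Continuous H := by
    refine Continuous.mul ?_ (hf.comp continuous_bR129)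
    fun_prop
  have hHs : HasCompactSupport H := (hasCompactSupport_comp_bR129 f hfs).mul_left
  have hHi : Integrable H ((volume : Measure (ℝ × ℝ)).prod (volume : Measure ℝ)) :=
    hHc.integrable_of_hasCompactSupport hHs
  have hG : Integrable (fun q : ℝ × ℝ => ∫ x : ℝ, H (q, x)) (volume : Measure (ℝ × ℝ)) :=
    hHi.integral_prod_left
  have hGe : ∀ ζ r : ℝ, (∫ x : ℝ, H ((ζ, r), x))
      = Complex.exp ((r : ℂ) * (s + 1 / 2)) * hcR f ζ r := by
    intro ζ r
    simp only [hH, hcR]
    exact integral_const_mul _ _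
  have hG' : Integrable
      (Function.uncurry fun ζ r : ℝ => Complex.exp ((r : ℂ) * (s + 1 / 2)) * hcR f ζ r)
      ((volume : Measure ℝ).prod (volume : Measure ℝ)) := by
    have e : (Function.uncurry fun ζ r : ℝ => Complex.exp ((r : ℂ) * (s + 1 / 2)) * hcR f ζ r)
        = fun q : ℝ × ℝ => ∫ x : ℝ, H (q, x) := by
      funext q
      obtain ⟨ζ, r⟩ := q
      exact (hGe ζ r).symm
    rw [e]
    exact hG
  unfold melR
  rw [integral_integral_swap hG']
  refine integral_congr_ae (Filter.Eventually.of_forall fun r => ?_)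
  simp only [hcZ]
  exact integral_const_mul _ _

/-- **T6.21.1 MEL-FUBINI** (`H830.MelFubiniC` VERBATIM). -/
theorem melFubiniC129 : MelFubiniC := fun _ _ f hf s => melFubini129 f hf.cont hf.supp s

end Fermat.Agent.LT.H129

end
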