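import Fermat.Agent.LT.T3.H893.NIntSpec

/-!
# Row LT, tower T3, leaf T3.18a.4.5 `N893.SplitC` (owner helper129): THE CUT -- OFF-MAIN

Definitions only (frozen sub-leaf Props).  The top

    N893.SplitC K ⟸ SplitHaarC129 K + ProdHaarC129      (`splitC_of_leaves129`)
    SplitHaarC129 K ⟸ SplitOpenC129 K + SplitSectionC129 K + SplitBoxC129 K   (leaf S4)

is proved in `LT/H129/SplitTop.lean`.

## The proof of `SplitC`

`E₀ = outGrp K 𝔫 v₀ = {X : X_v ∈ 𝔫 𝒪_v for all finite v ≠ v₀}`, `H = K_{v₀} × (S_∞ → ℂ)`,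
`p = splitProj129 : 𝔸_K → H`, `X ↦ (X_{v₀}, (X_w)_w)`.

* **S1** `E₀` is open (finitely many open conditions at the `v ∣ 𝔫`, integrality elsewhere:
  `idealClosure 𝔫 v = 𝒪_v` for `v ∤ 𝔫`, asset `H129.dense_ideal129`).
* **S2** `p : E₀ → H` is onto (the adele with the given components at `v₀` and at the infinite
  places and `0` elsewhere; all infinite places are complex).
* **S3** `E₀ ∩ p⁻¹(𝒪_{v₀} × unit balls)` lies in a compact set (`T1.H919.box919 K 1`).
* **S4** `μ = p_* (ν|_{E₀})` is a Haar measure of `H`: it is invariant (S2: `p (X_h + X) = h + p X`,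
  `X_h + E₀ = E₀`, `ν` invariant), positive and finite on the compact neighbourhood
  `𝒪_{v₀} × unit balls` of `0` (S1, S3) -- `Measure.isAddHaarMeasure_of_isCompact_nonempty_interior`.
* **M2** (no number fields) a Haar measure of `A × (ι → ℂ)` is a multiple of `ν₀ × Lebesgue`
  (uniqueness of the Haar measure), and the integral of a pure tensor is the product of the
  integrals (`integral_prod_mul`, `integral_fintype_prod_eq_prod`).
* top: `∫ 1_{E₀} · (f ∘ p) dν = ∫ f dμ` (`integral_map`).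
-/

set_option autoImplicit false
set_option linter.style.haveILetI false

open IsDedekindDomain NumberField MeasureTheory
open Fermat.Agent.LT.H556.A0 Fermat.Agent.LT.T3.AS Fermat.Agent.LT.T3.AS.N893

noncomputable section

namespace Fermat.Agent.LT.H129

variable (K : Type) [Field K] [NumberField K]

/-- The projection `X ↦ (X_{v₀}, (X_w)_w)` of `𝔸_K` onto `K_{v₀} × (S_∞ → ℂ)`. -/
def splitProj129 (v₀ : HeightOneSpectrum (𝓞 K)) (X : Adl K) :
    v₀.adicCompletion K × (InfinitePlace K → ℂ) :=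
  (finHom K v₀ X, fun w => infHom K w X)

/-- **S1.**  `E₀` is open in `𝔸_K`. -/
def SplitOpenC129 : Prop :=
  ∀ 𝔫 : Ideal (𝓞 K), 𝔫 ≠ ⊥ → ∀ v₀ : HeightOneSpectrum (𝓞 K), IsOpen (outGrp K 𝔫 v₀)

/-- **S2.**  Every element of `K_{v₀} × (S_∞ → ℂ)` is the projection of an element of `E₀`
(`K` totally complex). -/
def SplitSectionC129 : Prop :=
  (∀ w : InfinitePlace K, w.IsComplex) →
  ∀ (𝔫 : Ideal (𝓞 K)) (v₀ : HeightOneSpectrum (𝓞 K)) (x₀ : v₀.adicCompletion K)
    (z : InfinitePlace K → ℂ),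
    ∃ X : Adl K, X ∈ outGrp K 𝔫 v₀ ∧ finHom K v₀ X = x₀ ∧ ∀ w, infHom K w X = z w

/-- **S3.**  The elements of `E₀` which are integral at `v₀` and of norm `≤ 1` at the infinite
places lie in a compact set. -/
def SplitBoxC129 : Prop :=
  ∀ (𝔫 : Ideal (𝓞 K)) (v₀ : HeightOneSpectrum (𝓞 K)),
    ∃ D : Set (Adl K), IsCompact D ∧ ∀ X ∈ outGrp K 𝔫 v₀,
      Valued.v (finHom K v₀ X) ≤ 1 → (∀ w : InfinitePlace K, ‖infHom K w X‖ ≤ 1) → X ∈ D

/-- **S4.**  The image of `ν|_{E₀}` under the projection is a Haar measure of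
`K_{v₀} × (S_∞ → ℂ)` (Borel σ-algebra on `𝔸_K` and on `K_{v₀}`, the standard one on `ℂ`). -/
def SplitHaarC129 : Prop :=
  letI : MeasurableSpace (Adl K) := borel (Adl K)
  (∀ w : InfinitePlace K, w.IsComplex) →
  ∀ ν : Measure (Adl K), ν.IsAddHaarMeasure →
  ∀ 𝔫 : Ideal (𝓞 K), 𝔫 ≠ ⊥ → ∀ v₀ : HeightOneSpectrum (𝓞 K),
    letI : MeasurableSpace (v₀.adicCompletion K) := borel (v₀.adicCompletion K)
    (Measure.map (splitProj129 K v₀) (ν.restrict (outGrp K 𝔫 v₀))).IsAddHaarMeasure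

/-- **M2 (no number fields).**  A Haar measure of `A × (ι → ℂ)` (`A` a locally compact,
second countable, Hausdorff commutative topological group with its Borel σ-algebra, `ι` finite)
integrates pure tensors of continuous functions with compact support to the product of the
integrals, up to a constant. -/
def ProdHaarC129 : Prop :=
  ∀ (A : Type) [AddCommGroup A] [TopologicalSpace A] [IsTopologicalAddGroup A]
    [LocallyCompactSpace A] [T2Space A] [SecondCountableTopology A] (ι : Type) [Fintype ι],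
    letI : MeasurableSpace A := borel A
    ∀ μ : Measure (A × (ι → ℂ)), μ.IsAddHaarMeasure →
      ∃ ν₀ : Measure A, ν₀.IsAddHaarMeasure ∧ ∃ c₀ : ℂ,
        ∀ (φ₀ : A → ℂ) (φ : ι → ℂ → ℂ), Continuous φ₀ → HasCompactSupport φ₀ →
          (∀ w, Continuous (φ w)) → (∀ w, HasCompactSupport (φ w)) →
          Integrable (fun h : A × (ι → ℂ) => φ₀ h.1 * ∏ w : ι, φ w (h.2 w)) μ ∧
          ∫ h, φ₀ h.1 * ∏ w : ι, φ w (h.2 w) ∂μ
            = c₀ * (∫ x, φ₀ x ∂ν₀) * ∏ w : ι, ∫ z : ℂ, φ w z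

end Fermat.Agent.LT.H129

end
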