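import Fermat.Agent.LT.H129.SplitTop
import Fermat.Agent.LT.T3.H497.SplitOpen
import Fermat.Agent.LT.T3.H322.SplitSection
import Fermat.Agent.LT.T3.H250.SplitBox
import Fermat.Agent.LT.T3.H904.SplitHaar
import Fermat.Agent.LT.T3.H800.ProdHaar

/-!
# Row LT, tower T3, leaf T3.18a.4.5 `N893.SplitC` (owner helper129): CLOSED -- OFF-MAIN

    splitC129 K : N893.SplitC K            (VERBATIM, UNCONDITIONAL)

from the top `splitC_of_leaves129` (`SplitTop.lean`) and the five leaves of the cut
(`SplitSpec.lean`), byte-identical copies of the authors' files: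

* S1 `SplitOpenC129`    : `T3.H497.splitOpenC497`     (helper497, registry row 1500)
* S2 `SplitSectionC129` : `T3.H322.splitSectionC322`  (helper322, registry row 1501)
* S3 `SplitBoxC129`     : `T3.H250.splitBoxC250`      (helper250, registry row 1502)
* S4 `SplitHaarC129`    : `T3.H904.splitHaar_of904`   (helper904, registry row 1503)
* M2 `ProdHaarC129`     : `T3.H800.prodHaarC800`      (helper800, registry row 1504)
-/

set_option autoImplicit false

open IsDedekindDomain NumberField MeasureTheory
open Fermat.Agent.LT.H556.A0 Fermat.Agent.LT.T3.AS Fermat.Agent.LT.T3.AS.N893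

noncomputable section

namespace Fermat.Agent.LT.H129

variable (K : Type) [Field K] [NumberField K]

/-- S4, unconditional. -/
theorem splitHaarC129 : SplitHaarC129 K :=
  Fermat.Agent.LT.T3.H904.splitHaar_of904 K
    (Fermat.Agent.LT.T3.H497.splitOpenC497 K)
    (Fermat.Agent.LT.T3.H322.splitSectionC322 K)
    (Fermat.Agent.LT.T3.H250.splitBoxC250 K)

/-- **T3.18a.4.5 = N.5 `SplitC`**, unconditional. -/
theorem splitC129 : N893.SplitC K :=
  splitC_of_leaves129 K (splitHaarC129 K) Fermat.Agent.LT.T3.H800.prodHaarC800

end Fermat.Agent.LT.H129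

end
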