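import Fermat.Agent.LT.H129.SplitSpec
import Fermat.Agent.LT.T1.H919.K0Compact
import Fermat.Agent.LT.H11.LC
import Fermat.Agent.LT.H11.SC

/-!
# Row LT, tower T3, leaf T3.18a.4.5 `N893.SplitC` (owner helper129): THE TOP -- OFF-MAIN

    splitC_of_leaves129 : SplitHaarC129 K → ProdHaarC129 → N893.SplitC K

(`E₀` is closed, hence measurable: `isClosed_outGrp129`; the projection is continuous:
`continuous_splitProj129`; `integral_map`, `integral_indicator`.)
-/

set_option autoImplicit false
set_option linter.style.haveILetI false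

open IsDedekindDomain NumberField MeasureTheory
open Fermat.Agent.LT.H556.A0 Fermat.Agent.LT.T3.AS Fermat.Agent.LT.T3.AS.N893

noncomputable section

namespace Fermat.Agent.LT.H129

variable (K : Type) [Field K] [NumberField K]

theorem continuous_finHom129 (v : HeightOneSpectrum (𝓞 K)) :
    Continuous (fun X : Adl K => finHom K v X) :=
  Fermat.Agent.LT.T1.H919.continuous_projFin919 (K := K) v

theorem continuous_infHom129 (w : InfinitePlace K) :
    Continuous (fun X : Adl K => infHom K w X) :=
  (InfinitePlace.Completion.isometry_extensionEmbedding w).continuous.comp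
    (Fermat.Agent.LT.T1.H919.continuous_projInf919 (K := K) w)

theorem continuous_splitProj129 (v₀ : HeightOneSpectrum (𝓞 K)) :
    Continuous (splitProj129 K v₀) :=
  (continuous_finHom129 K v₀).prodMk (continuous_pi fun w => continuous_infHom129 K w)

/-- `E₀` is closed in `𝔸_K`. -/
theorem isClosed_outGrp129 (𝔫 : Ideal (𝓞 K)) (v₀ : HeightOneSpectrum (𝓞 K)) :
    IsClosed (outGrp K 𝔫 v₀) := by
  have e : outGrp K 𝔫 v₀
      = ⋂ v : HeightOneSpectrum (𝓞 K), ⋂ _ : v ≠ v₀,
          (fun X : Adl K => finHom K v X) ⁻¹' idealClosure 𝔫 v := by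
    ext X
    simp only [outGrp, Set.mem_ofPred_eq, Set.mem_iInter, Set.mem_preimage]
  rw [e]
  refine isClosed_iInter fun v => isClosed_iInter fun _ => ?_
  exact IsClosed.preimage (continuous_finHom129 K v) isClosed_closure

/-- **The top of `SplitC`.** -/
theorem splitC_of_leaves129 (hH : SplitHaarC129 K) (hP : ProdHaarC129) : N893.SplitC K := by
  letI : MeasurableSpace (Adl K) := borel (Adl K)
  haveI : BorelSpace (Adl K) := ⟨rfl⟩
  intro hcx ν hν 𝔫 h𝔫 v₀
  letI : MeasurableSpace (v₀.adicCompletion K) := borel (v₀.adicCompletion K)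
  haveI : BorelSpace (v₀.adicCompletion K) := ⟨rfl⟩
  haveI : LocallyCompactSpace (v₀.adicCompletion K) :=
    Fermat.Agent.LT.H11.LC.locallyCompactSpace_adicCompletion_h11 K v₀
  haveI : SecondCountableTopology (v₀.adicCompletion K) :=
    Fermat.Agent.LT.H11.SC.secondCountableTopology_adicCompletion_h11 K v₀
  have hμ : (Measure.map (splitProj129 K v₀) (ν.restrict (outGrp K 𝔫 v₀))).IsAddHaarMeasure :=
    hH hcx ν hν 𝔫 h𝔫 v₀
  obtain ⟨ν₀, hν₀, c₀, h⟩ := hP (v₀.adicCompletion K) (InfinitePlace K) _ hμ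
  refine ⟨ν₀, hν₀, c₀, ?_⟩
  intro φ₀ φ hφ₀ hφ₀c hφ hφc
  obtain ⟨hint, hval⟩ := h φ₀ φ hφ₀ hφ₀c hφ hφc
  have hE : MeasurableSet (outGrp K 𝔫 v₀) := (isClosed_outGrp129 K 𝔫 v₀).measurableSet
  have hp : Measurable (splitProj129 K v₀) := (continuous_splitProj129 K v₀).measurable
  have hfc : Continuous (fun h : v₀.adicCompletion K × (InfinitePlace K → ℂ) =>
      φ₀ h.1 * ∏ w : InfinitePlace K, φ w (h.2 w)) := by
    refine (hφ₀.comp continuous_fst).mul ?_
    refine continuous_finsetProd _ fun w _ => ?_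
    exact (hφ w).comp ((continuous_apply w).comp continuous_snd)
  have hfun : (fun X : Adl K => (outGrp K 𝔫 v₀).indicator (fun _ => (1 : ℂ)) X
        * φ₀ (finHom K v₀ X) * ∏ w : InfinitePlace K, φ w (infHom K w X))
      = (outGrp K 𝔫 v₀).indicator
          ((fun h : v₀.adicCompletion K × (InfinitePlace K → ℂ) =>
            φ₀ h.1 * ∏ w : InfinitePlace K, φ w (h.2 w)) ∘ splitProj129 K v₀) := by
    funext X
    by_cases hX : X ∈ outGrp K 𝔫 v₀
    · simp [Set.indicator_of_mem hX, splitProj129]
    · simp [Set.indicator_of_notMem hX]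
  rw [hfun]
  constructor
  · rw [integrable_indicator_iff hE]
    exact (integrable_map_measure hfc.aestronglyMeasurable hp.aemeasurable).mp hint
  · rw [integral_indicator hE, ← hval]
    exact (integral_map hp.aemeasurable hfc.aestronglyMeasurable).symm

end Fermat.Agent.LT.H129

end
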